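import Mathlib
import Fermat.Agent.JAN.DegeneracyBar

/-!
# RT8: the statement of the theorem "inertia invariant torsion is old"
-/

set_option autoImplicit false

noncomputable section

open AlgebraicCurve ModularCurve

namespace Fermat.Agent.RT8

open Fermat.Agent.JAN.Degeneracy

/-- **OLD**: for `x ∈ J₀(Nq²)[p]` fixed by an inertia group at `q`, the class
`(T_ℓ - ℓ - 1) x` is a sum of pull-backs of `p`-torsion classes of level `Nq`. -/
def OldProp (N q p : ℕ) [NeZero N] [NeZero q] : Prop :=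
  ∀ A : ValuationSubring (AlgebraicClosure ℚ), A.LiesOverPrime q →
    ∀ x : JZero (N * q * q), p • x = 0 → (∀ τ ∈ A.inertiaSubgroupIn ℚ, τ • x = x) →
    ∀ ℓ : Nat.Primes, ¬ (ℓ : ℕ) ∣ N * q →
    ∃ y y' : JZero (N * q), p • y = 0 ∧ p • y' = 0 ∧
      heckeOperatorBar (N * q * q) ℓ x - ((ℓ : ℕ) + 1 : ℤ) • x =
        alphaPull (N * q) q y + betaPull (N * q) q y'

end Fermat.Agent.RT8
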