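import Mathlib
import Fermat.Agent.Q2.EmbV
import Fermat.Agent.Jan.PushPull

/-!
# RT8: norms of functions along finite maps with good reduction

If `[F' : F] = [κ' : κ]` then the norm of a unit for the valuation of `F'` is a unit for the
valuation of `F`.
-/

set_option autoImplicit false
set_option linter.unusedSectionVars false
set_option linter.style.haveILetI false

noncomputable section

namespace Fermat.Agent.RT8

open Fermat.Agent.Q2

section BaseChange

/-- Norms are compatible with base change along a cartesian square of fields. -/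
theorem norm_baseChange {F L₁ L₂ E : Type*} [Field F] [Field L₁] [Field L₂] [Field E]
    (a : F →+* L₁) (b : F →+* L₂) (a' : L₂ →+* E) (b' : L₁ →+* E)
    (hcomm : ∀ x, b' (a x) = a' (b x))
    (hfb : letI := b.toAlgebra; Module.Finite F L₂)
    (hfb' : letI := b'.toAlgebra; Module.Finite L₁ E)
    (hdeg : (letI := b'.toAlgebra; Module.finrank L₁ E) =
      (letI := b.toAlgebra; Module.finrank F L₂))
    (hgen : ∀ x : E, x ∈ Subfield.closure (Set.range b' ∪ Set.range a')) (f : L₂) :
    (letI := b'.toAlgebra; Algebra.norm L₁ (a' f)) =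
      a (letI := b.toAlgebra; Algebra.norm F f) := by
  classical
  let _ := b.toAlgebra
  let _ : Algebra L₁ E := b'.toAlgebra
  have _ : Module.Finite F L₂ := hfb
  have _ : Module.Finite L₁ E := hfb'
  have hdeg' : Module.finrank L₁ E = Module.finrank F L₂ := hdeg
  let c := Module.finBasis F L₂
  let d : Fin (Module.finrank F L₂) → E := fun i => a' (c i)
  have hsmul : ∀ (r : F) (i), a' (r • c i) = (a r) • d i := by
    intro r i
    rw [Algebra.smul_def, Algebra.smul_def, map_mul]
    show a' (b r) * a' (c i) = b' (a r) * d i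
    rw [hcomm]
  have hexp : ∀ x : L₂, a' x = ∑ i, (a (c.repr x i)) • d i := by
    intro x
    conv_lhs => rw [← c.sum_repr x, map_sum]
    exact Finset.sum_congr rfl fun i _ => hsmul _ i
  have hspan1 : ∀ x : L₂, a' x ∈ Submodule.span L₁ (Set.range d) := by
    intro x
    rw [hexp]
    exact Submodule.sum_mem _ fun i _ =>
      Submodule.smul_mem _ _ (Submodule.subset_span ⟨i, rfl⟩)
  have hadj : (Algebra.adjoin L₁ (Set.range a')).toSubmodule =
      Submodule.span L₁ (Set.range d) := by
    rw [Algebra.adjoin_eq_span]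
    have h1 : (Submonoid.closure (Set.range a') : Set E) = Set.range a' := by
      have : Set.range a' = ((MonoidHom.mrange (a' : L₂ →* E) : Submonoid E) : Set E) := by
        ext x; simp
      rw [this, Submonoid.closure_eq]
    rw [h1]
    refine le_antisymm (Submodule.span_le.mpr ?_) (Submodule.span_mono ?_)
    · rintro _ ⟨x, rfl⟩
      exact hspan1 x
    · rintro _ ⟨i, rfl⟩
      exact ⟨c i, rfl⟩
  have htop : Algebra.adjoin L₁ (Set.range a') = ⊤ := by
    rw [eq_top_iff]
    intro x _
    have hx := hgen x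
    induction hx using Subfield.closure_induction with
    | mem y hy =>
      rcases hy with ⟨z, rfl⟩ | ⟨z, rfl⟩
      · exact Subalgebra.algebraMap_mem _ z
      · exact Algebra.subset_adjoin ⟨z, rfl⟩
    | one => exact one_mem _
    | add x y _ _ hx hy => exact add_mem (hx trivial) (hy trivial)
    | neg x _ hx => exact neg_mem (hx trivial)
    | inv x _ hx =>
      exact (Algebra.adjoin L₁ (Set.range a')).inv_mem_of_algebraic (x := ⟨x, hx trivial⟩)
        (Algebra.IsAlgebraic.isAlgebraic (R := L₁) (A := E) x)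
    | mul x y _ _ hx hy => exact mul_mem (hx trivial) (hy trivial)
  have hspan : ⊤ ≤ Submodule.span L₁ (Set.range d) := by
    rw [← hadj, htop]
    exact le_rfl
  let c' := basisOfTopLeSpanOfCardEqFinrank d hspan (by rw [Fintype.card_fin, hdeg'])
  have hc' : ∀ i, c' i = a' (c i) := fun i => by
    rw [coe_basisOfTopLeSpanOfCardEqFinrank]
  show Algebra.norm L₁ (a' f) = a (Algebra.norm F f)
  rw [Algebra.norm_eq_matrix_det c, Algebra.norm_eq_matrix_det c', RingHom.map_det]
  congr 1
  ext i j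
  rw [RingHom.mapMatrix_apply, Matrix.map_apply, Algebra.leftMulMatrix_eq_repr_mul,
    Algebra.leftMulMatrix_eq_repr_mul, hc', ← map_mul, hexp]
  have : ∑ i, (a (c.repr (f * c j) i)) • d i = ∑ i, (a (c.repr (f * c j) i)) • c' i :=
    Finset.sum_congr rfl fun i _ => by rw [hc']
  rw [this, c'.repr_sum_self]

end BaseChange

theorem exists_indep {K K' : Type*} [Field K] [Field K'] (β : K →+* K')
    (h : letI := β.toAlgebra; Module.Finite K K') :
    ∃ e : Fin (letI := β.toAlgebra; Module.finrank K K') → K',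
      (letI := β.toAlgebra; LinearIndependent K e) := by
  letI := β.toAlgebra
  haveI : Module.Finite K K' := h
  exact ⟨Module.finBasis K K', (Module.finBasis K K').linearIndependent⟩

section Val

variable {K k : Type*} [Field K] [Field k] {A : ValuationSubring K} {π : A →+* k}
  {hπ : Function.Surjective π} {F F' : Type*} [Field F] [Field F']
  {κ κ' : IntermediateField k (LaurentSeries k)} (X : EmbV hπ F κ) (X' : EmbV hπ F' κ')
  (b : F →+* F') (β : κ →+* κ')

/-- A combination `∑ c_j b_j` of lifts of a basis of `κ'` over `κ` has valuation `max |c_j|`. -/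
theorem ord_sum_lift (hord : ∀ f, X'.ord (b f) = X.ord f)
    (hres : ∀ f u, X.Res f u → X'.Res (b f) (β u)) {ι : Type*} [Fintype ι]
    (e : ι → κ') (he : letI := β.toAlgebra; LinearIndependent κ e)
    (l : ι → F') (hl : ∀ i, X'.Res (l i) (e i)) {c : ι → F} (hc : ∃ i, c i ≠ 0) :
    (∑ i, b (c i) * l i) ≠ 0 ∧
      ∀ i, c i ≠ 0 → X'.ord (∑ i, b (c i) * l i) ≤ X.ord (c i) := by
  classical
  obtain ⟨i₀, hi₀, hmin⟩ : ∃ i₀, c i₀ ≠ 0 ∧ ∀ i, c i ≠ 0 → X.ord (c i₀) ≤ X.ord (c i) := by
    obtain ⟨i, hi⟩ := hc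
    obtain ⟨i₀, h1, h2⟩ := Finset.exists_min_image (Finset.univ.filter fun i => c i ≠ 0)
      (fun i => X.ord (c i)) ⟨i, Finset.mem_filter.mpr ⟨Finset.mem_univ _, hi⟩⟩
    exact ⟨i₀, (Finset.mem_filter.mp h1).2, fun j hj =>
      h2 j (Finset.mem_filter.mpr ⟨Finset.mem_univ _, hj⟩)⟩
  -- the residues of the scaled coefficients
  have h1 : ∀ i, ∃ r : κ, X.Res (c i / c i₀) r := by
    intro i
    rw [← X.V_le_one_iff]
    by_cases hi : c i = 0
    · rw [hi, zero_div, map_zero]; exact zero_le
    · rw [← X.ord_nonneg_iff (div_ne_zero hi hi₀), div_eq_mul_inv,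
        X.ord_mul hi (inv_ne_zero hi₀), X.ord_inv hi₀]
      have := hmin i hi
      omega
  choose r hr using h1
  have hr0 : r i₀ = 1 := by
    refine X.res_unique (hr i₀) ?_
    rw [div_self hi₀]
    exact X.res_one
  have h2 : X'.Res (∑ i, b (c i / c i₀) * l i) (∑ i, β (r i) * e i) :=
    EmbV.Res.sum X' fun i _ => EmbV.Res.mul X' (hres _ _ (hr i)) (hl i)
  have h3 : (∑ i, β (r i) * e i) ≠ 0 := by
    intro h0
    letI := β.toAlgebra
    have h4 := (Fintype.linearIndependent_iff (R := κ) (v := e)).mp he r (by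
      rw [← h0]
      exact Finset.sum_congr rfl fun i _ => Algebra.smul_def _ _) i₀
    rw [hr0] at h4
    exact one_ne_zero h4
  obtain ⟨h4, h5⟩ := X'.ord_eq_zero_of_res h2 h3
  have h6 : (∑ i, b (c i) * l i) = b (c i₀) * ∑ i, b (c i / c i₀) * l i := by
    rw [Finset.mul_sum]
    refine Finset.sum_congr rfl fun i _ => ?_
    rw [← mul_assoc, ← map_mul, mul_div_cancel₀ _ hi₀]
  have h7 : b (c i₀) ≠ 0 := (_root_.map_ne_zero b).mpr hi₀
  rw [h6]
  refine ⟨mul_ne_zero h7 h4, fun i hi => ?_⟩
  rw [X'.ord_mul h7 h4, h5, add_zero, hord]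
  exact hmin i hi

/-- The norm of an integral element is integral. -/
theorem norm_integral (hord : ∀ f, X'.ord (b f) = X.ord f)
    (hres : ∀ f u, X.Res f u → X'.Res (b f) (β u))
    (hlift : ∀ u, ∃ f, X'.Res f u) {n : ℕ} (hn : n ≠ 0)
    (e : Fin n → κ') (he : letI := β.toAlgebra; LinearIndependent κ e)
    (hfF : letI := b.toAlgebra; Module.Finite F F')
    (hdeg : (letI := b.toAlgebra; Module.finrank F F') = n)
    {y : F'} (hy : X'.V y ≤ 1) :
    X.V (letI := b.toAlgebra; Algebra.norm F y) ≤ 1 := by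
  classical
  letI : Algebra F F' := b.toAlgebra
  haveI : Module.Finite F F' := hfF
  have hdeg' : n = Module.finrank F F' := hdeg.symm
  choose l hl using fun i => hlift (e i)
  have hsmul : ∀ (a : F) (x : F'), a • x = b a * x := fun a x => Algebra.smul_def _ _
  have hind : LinearIndependent F l := by
    rw [Fintype.linearIndependent_iff]
    intro c hc i
    by_contra hi
    have h1 := (ord_sum_lift X X' b β hord hres e he l hl ⟨i, hi⟩).1
    apply h1
    rw [← hc]
    exact Finset.sum_congr rfl fun i _ => (hsmul _ _).symm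
  haveI : Nonempty (Fin n) := ⟨⟨0, Nat.pos_of_ne_zero hn⟩⟩
  let bs := basisOfLinearIndependentOfCardEqFinrank hind (by rw [Fintype.card_fin, hdeg'])
  have hbs : ∀ i, bs i = l i := fun i => by
    rw [coe_basisOfLinearIndependentOfCardEqFinrank]
  have hcoord : ∀ x : F', X'.V x ≤ 1 → ∀ i, X.V (bs.repr x i) ≤ 1 := by
    intro x hx i
    by_cases hi : bs.repr x i = 0
    · rw [hi, map_zero]; exact zero_le
    obtain ⟨h1, h2⟩ := ord_sum_lift X X' b β hord hres e he l hl
      (c := fun i => bs.repr x i) ⟨i, hi⟩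
    have h3 : (∑ i, b (bs.repr x i) * l i) = x := by
      conv_rhs => rw [← bs.sum_repr x]
      exact Finset.sum_congr rfl fun i _ => by rw [hsmul, hbs]
    rw [h3] at h1 h2
    rw [← X.ord_nonneg_iff hi]
    exact le_trans ((X'.ord_nonneg_iff h1).mpr hx) (h2 i hi)
  show X.V (Algebra.norm F y) ≤ 1
  rw [Algebra.norm_eq_matrix_det bs, Matrix.det_apply]
  change (∑ σ : Equiv.Perm (Fin n), (Equiv.Perm.sign σ) •
    ∏ i, (Algebra.leftMulMatrix bs y) (σ i) i) ∈ X.W
  refine sum_mem fun σ _ => ?_
  have h1 : (∏ i, (Algebra.leftMulMatrix bs y) (σ i) i) ∈ X.W := by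
    refine prod_mem fun i _ => ?_
    rw [Algebra.leftMulMatrix_eq_repr_mul]
    refine hcoord _ ?_ _
    rw [hbs, map_mul]
    exact mul_le_one' hy (X'.V_le_one_iff.mpr ⟨_, hl i⟩)
  rw [Units.smul_def]
  exact zsmul_mem h1 _

/-- **The norm of a unit is a unit.** -/
theorem ord_norm_eq_zero (hord : ∀ f, X'.ord (b f) = X.ord f)
    (hres : ∀ f u, X.Res f u → X'.Res (b f) (β u))
    (hlift : ∀ u, ∃ f, X'.Res f u) {n : ℕ} (hn : n ≠ 0)
    (e : Fin n → κ') (he : letI := β.toAlgebra; LinearIndependent κ e)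
    (hfF : letI := b.toAlgebra; Module.Finite F F')
    (hdeg : (letI := b.toAlgebra; Module.finrank F F') = n)
    {y : F'} (hy0 : y ≠ 0) (hy : X'.ord y = 0) :
    X.ord (letI := b.toAlgebra; Algebra.norm F y) = 0 := by
  have h1 := norm_integral X X' b β hord hres hlift hn e he hfF hdeg
    ((X'.ord_nonneg_iff hy0).mp hy.ge)
  have h2 := norm_integral X X' b β hord hres hlift hn e he hfF hdeg (y := y⁻¹)
    ((X'.ord_nonneg_iff (inv_ne_zero hy0)).mp (by rw [X'.ord_inv hy0, hy, neg_zero]))
  letI : Algebra F F' := b.toAlgebra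
  haveI : Module.Finite F F' := hfF
  change X.V (Algebra.norm F y) ≤ 1 at h1
  change X.V (Algebra.norm F y⁻¹) ≤ 1 at h2
  change X.ord (Algebra.norm F y) = 0
  have h3 : Algebra.norm F y ≠ 0 := Algebra.norm_ne_zero_iff.mpr hy0
  have h4 : Algebra.norm F y⁻¹ ≠ 0 := Algebra.norm_ne_zero_iff.mpr (inv_ne_zero hy0)
  rw [← X.ord_nonneg_iff h3] at h1
  rw [← X.ord_nonneg_iff h4] at h2
  have h5 : X.ord (Algebra.norm F y * Algebra.norm F y⁻¹) = 0 := by
    rw [← map_mul, mul_inv_cancel₀ hy0, map_one, X.ord_one]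
  rw [X.ord_mul h3 h4] at h5
  omega

end Val

end Fermat.Agent.RT8
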