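import Mathlib
import Fermat.Agent.RT8.NormAbs
import Fermat.Agent.Q2.W2Hecke
import Fermat.Agent.JAN.Dlog.HeckeNorm
import Fermat.Agent.JRED.AtkinLehnerInput
import Fermat.Agent.DR.S36.AuxLevel

/-!
# RT8: the norm input

For `ℓ ∤ N q` and `z ∈ F_{Nq²}(L)`, the function `N_α (β z / α z)` lies in `F_{Nq²}(L)` and has
valuation zero along the three components of the special fibre.
-/

set_option autoImplicit false
set_option linter.unusedSectionVars false
set_option linter.style.haveILetI false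

noncomputable section

namespace Fermat.Agent.RT8

open AlgebraicCurve ModularCurve Polynomial
open Fermat.Agent.S28 Fermat.Agent.JRED Fermat.Agent.Jan.HeckeInputs Fermat.Agent.Q2
open Fermat.Agent.DR.S36 Fermat.Agent.DR.S36.L
open Fermat.Agent.JRED.AL (alphaC betaC coe_alphaC coe_betaC)
open Fermat.Agent.Jan.PushPull (normAlong)
open Fermat.Agent.Jan.DegreeWiring

local notation "ℚbar" => AlgebraicClosure ℚ

section Transport

variable {F F' F'' : Type*} [Field F] [Field F'] [Field F''] (φ : F →+* F') (ψ : F →+* F'')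
  (ε : F' ≃+* F'')

theorem finite_transport (h : ∀ x, ε (φ x) = ψ x)
    (hf : letI := φ.toAlgebra; Module.Finite F F') :
    letI := ψ.toAlgebra; Module.Finite F F'' := by
  letI : Algebra F F' := φ.toAlgebra
  letI : Algebra F F'' := ψ.toAlgebra
  let e : F' ≃ₗ[F] F'' :=
    { ε with
      map_smul' := fun a x => by
        show ε (φ a * x) = ψ a * ε x
        rw [map_mul, h] }
  haveI : Module.Finite F F' := hf
  exact Module.Finite.equiv e

theorem finrank_transport (h : ∀ x, ε (φ x) = ψ x) :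
    (letI := ψ.toAlgebra; Module.finrank F F'') = (letI := φ.toAlgebra; Module.finrank F F') := by
  letI : Algebra F F' := φ.toAlgebra
  letI : Algebra F F'' := ψ.toAlgebra
  let e : F' ≃ₗ[F] F'' :=
    { ε with
      map_smul' := fun a x => by
        show ε (φ a * x) = ψ a * ε x
        rw [map_mul, h] }
  exact (LinearEquiv.finrank_eq e).symm

end Transport

section Gen

theorem mem_of_gen_aux {K V : Type*} [Field K] [Field V] [Algebra K V] (E : IntermediateField K V)
    (s : Set V) (hE : E = IntermediateField.adjoin K s) (S : Subfield E)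
    (hconst : ∀ c : K, algebraMap K E c ∈ S) (hgen : ∀ x : E, (x : V) ∈ s → x ∈ S) (x : E) :
    x ∈ S := by
  subst hE
  obtain ⟨y, hy⟩ := x
  induction hy using IntermediateField.adjoin_induction with
  | mem y h => exact hgen _ h
  | algebraMap c => exact hconst c
  | add y₁ y₂ h₁ h₂ ih₁ ih₂ => exact S.add_mem ih₁ ih₂
  | inv y h ih => exact S.inv_mem ih
  | mul y₁ y₂ h₁ h₂ ih₁ ih₂ => exact S.mul_mem ih₁ ih₂

/-- Generation of `F_M(ℚ̄)` -/
theorem mem_of_gen {M : ℕ} (S : Subfield (modularFunctionFieldBar M))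
    (hconst : ∀ c : ℚbar, algebraMap ℚbar (modularFunctionFieldBar M) c ∈ S)
    (hgen : ∀ (d : ℕ) (_ : NeZero d), d ∣ M → ∀ x : modularFunctionFieldBar M,
      (x : LaurentSeries ℚbar) = ModularCurve.qExpand ℚbar d (jqModC ℚbar) → x ∈ S)
    (x : modularFunctionFieldBar M) : x ∈ S := by
  refine mem_of_gen_aux (modularFunctionFieldBar M) (divisorExpansionsC ℚbar M)
    (Fermat.Agent.MFF.modularFunctionFieldBar_eq M) S hconst ?_ x
  rintro x ⟨d, hd0, hd, hx⟩
  exact hgen d hd0 hd x hx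

end Gen

section Maps

variable {L : Type} [Field L] [Algebra L ℚbar] {M ℓ : ℕ} [NeZero M] [NeZero ℓ]

theorem inc_alphaC (x : modularFunctionFieldFullC L M) :
    inc L (M * ℓ) (alphaC L M ℓ x) = heckeAlphaBar ℚbar M ℓ (inc L M x) := by
  apply Subtype.ext
  rw [coe_heckeAlphaBar, coe_inc, coe_alphaC, coe_inc]

theorem inc_betaC (x : modularFunctionFieldFullC L M) :
    inc L (M * ℓ) (betaC L M ℓ x) = heckeBetaBar ℚbar M ℓ (inc L M x) := by
  apply Subtype.ext
  rw [coe_heckeBetaBar, coe_inc, coe_betaC, coe_inc]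
  exact coeffMap_qExpand _ _ _

end Maps

section Main

variable {A : ValuationSubring ℚbar} {k : Type} [Field k] {π : A →+* k}
  {N q ℓ : ℕ} [NeZero N] [NeZero q] [NeZero ℓ] [hq : Fact q.Prime] [hchar : CharP k q]
  {w₁ : laurentBaseChange ℚbar (modularFunctionFieldFull (N * q)) ≃ₐ[ℚbar]
      laurentBaseChange ℚbar (modularFunctionFieldFull (N * q))}
  {w₂ : laurentBaseChange ℚbar (modularFunctionFieldFull (N * q * q)) ≃ₐ[ℚbar]
      laurentBaseChange ℚbar (modularFunctionFieldFull (N * q * q))}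
  {w₁' : laurentBaseChange ℚbar (modularFunctionFieldFull (N * ℓ * q)) ≃ₐ[ℚbar]
      laurentBaseChange ℚbar (modularFunctionFieldFull (N * ℓ * q))}
  {w₂' : laurentBaseChange ℚbar (modularFunctionFieldFull (N * ℓ * q * q)) ≃ₐ[ℚbar]
      laurentBaseChange ℚbar (modularFunctionFieldFull (N * ℓ * q * q))}
  {L : Type} [Field L] [Algebra L ℚbar] [IsInertiaField A L]

variable (L N q ℓ) in
/-- `F_{Nq²}(L) → F_{Nℓq²}(L)` -/
def bmap : modularFunctionFieldFullC L (N * q * q) →+*
    modularFunctionFieldFullC L (N * ℓ * q * q) :=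
  expandL L 1 (Ctx.dvd_level (q := q) Ctx.dvd_one)

theorem castLevel_alphaC (x : modularFunctionFieldFullC L (N * q * q)) :
    castLevel L (level_eq N q ℓ) (alphaC L (N * q * q) ℓ x) = bmap N q ℓ L x :=
  Ctx.cast_alpha (inc_alphaC x)

/-- **The norm of a unit is a unit** -/
theorem w_norm_eq_zero (c : Ctx π w₁ w₂) (c' : Ctx π w₁' w₂') (hℓ : ℓ.Prime) (hℓN : ¬ ℓ ∣ N)
    (hk : ((N * ℓ : ℕ) : k) ≠ 0)
    (hfin : letI := (bmap N q ℓ L).toAlgebra; Module.Finite
      (modularFunctionFieldFullC L (N * q * q)) (modularFunctionFieldFullC L (N * ℓ * q * q)))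
    (hdeg : (letI := (bmap N q ℓ L).toAlgebra; Module.finrank
      (modularFunctionFieldFullC L (N * q * q)) (modularFunctionFieldFullC L (N * ℓ * q * q))) =
        ℓ + 1)
    {y : modularFunctionFieldFullC L (N * ℓ * q * q)} (hy0 : y ≠ 0) (i : Fin 3)
    (hy : (c'.V L).w i y = 0) :
    (c.V L).w i (letI := (bmap N q ℓ L).toAlgebra; Algebra.norm _ y) = 0 := by
  obtain ⟨e, he⟩ := exists_indep (alphaC k N ℓ).toRingHom
    (Fermat.Agent.DR.Mod.finiteAlong_alphaC hk)
  have hcard : (letI := (alphaC k N ℓ).toRingHom.toAlgebra; Module.finrank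
      (modularFunctionFieldFullC k N) (modularFunctionFieldFullC k (N * ℓ))) = ℓ + 1 :=
    Fermat.Agent.JAN.Dlog.finrankAlong_alphaC_eq hℓ hℓN hk
  refine ord_norm_eq_zero (c.X L i) (c'.X L i) (bmap N q ℓ L) (alphaC k N ℓ).toRingHom
    (fun f => Ctx.w_expand c c' i Ctx.dvd_one f) ?_ (fun u => c'.exists_res_eq i u) ?_ e he hfin
    (hdeg.trans hcard.symm) hy0 hy
  · intro f u h
    have h1 := Ctx.res_expand c c' (L := L) i Ctx.dvd_one h
    have h2 : expandL k 1 Ctx.dvd_one u = alphaC k N ℓ u :=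
      Subtype.ext (by rw [coe_expandL, coe_alphaC, qExpand_one_apply])
    rw [h2] at h1
    exact h1
  · rw [hcard]
    exact Nat.succ_ne_zero ℓ


theorem finite_bmap (L : Type) [Field L] [CharZero L] :
    letI := (bmap N q ℓ L).toAlgebra; Module.Finite
      (modularFunctionFieldFullC L (N * q * q)) (modularFunctionFieldFullC L (N * ℓ * q * q)) := by
  refine finite_transport (alphaC L (N * q * q) ℓ).toRingHom (bmap N q ℓ L)
    (castLevel L (level_eq N q ℓ)).toRingEquiv (fun x => ?_)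
    (Fermat.Agent.DR.Mod.finiteAlong_alphaC (Nat.cast_ne_zero.mpr (NeZero.ne _)))
  apply Subtype.ext
  change (castLevel L (level_eq N q ℓ) (alphaC L (N * q * q) ℓ x) : LaurentSeries L) = _
  rw [coe_castLevel, coe_alphaC, bmap, coe_expandL, qExpand_one_apply]


theorem finrank_bmap (L : Type) [Field L] [CharZero L] (hℓ : ℓ.Prime) (hℓN : ¬ ℓ ∣ N * q * q) :
    (letI := (bmap N q ℓ L).toAlgebra; Module.finrank
      (modularFunctionFieldFullC L (N * q * q)) (modularFunctionFieldFullC L (N * ℓ * q * q))) =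
      ℓ + 1 := by
  refine (finrank_transport (alphaC L (N * q * q) ℓ).toRingHom (bmap N q ℓ L)
    (castLevel L (level_eq N q ℓ)).toRingEquiv (fun x => ?_)).trans
    (Fermat.Agent.JAN.Dlog.finrankAlong_alphaC_eq hℓ hℓN (Nat.cast_ne_zero.mpr (NeZero.ne _)))
  apply Subtype.ext
  change (castLevel L (level_eq N q ℓ) (alphaC L (N * q * q) ℓ x) : LaurentSeries L) = _
  rw [coe_castLevel, coe_alphaC, bmap, coe_expandL, qExpand_one_apply]

variable (L N q ℓ) in
/-- `F_{Nℓq²}(L) → F_{Nq²ℓ}(ℚ̄)` -/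
def amap : modularFunctionFieldFullC L (N * ℓ * q * q) →+*
    modularFunctionFieldBar (N * q * q * ℓ) :=
  (inc L (N * q * q * ℓ)).comp (castLevel L (level_eq N q ℓ)).symm.toRingEquiv.toRingHom


theorem amap_cast (y : modularFunctionFieldFullC L (N * q * q * ℓ)) :
    amap N q ℓ L (castLevel L (level_eq N q ℓ) y) = inc L (N * q * q * ℓ) y := by
  change inc L (N * q * q * ℓ) ((castLevel L (level_eq N q ℓ)).symm
    (castLevel L (level_eq N q ℓ) y)) = _
  rw [AlgEquiv.symm_apply_apply]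

/-- Norms along `α_ℓ` over `L` and over `ℚ̄` -/
theorem inc_norm (hℓ : ℓ.Prime) (hℓN : ¬ ℓ ∣ N * q * q)
    (y : modularFunctionFieldFullC L (N * q * q * ℓ)) :
    normAlong (heckeAlphaBar ℚbar (N * q * q) ℓ) (inc L (N * q * q * ℓ) y) =
      inc L (N * q * q) (letI := (bmap N q ℓ L).toAlgebra;
        Algebra.norm _ (castLevel L (level_eq N q ℓ) y)) := by
  haveI : CharZero L := (algebraMap L ℚbar).charZero
  rw [← amap_cast]
  refine norm_baseChange (inc L (N * q * q)) (bmap N q ℓ L) (amap N q ℓ L)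
    (heckeAlphaBar ℚbar (N * q * q) ℓ).toRingHom (fun x => ?_) (finite_bmap L)
    (finiteAlong_modular ℚbar _) ?_ (fun x => ?_) _
  · rw [← castLevel_alphaC, amap_cast, inc_alphaC]
    rfl
  · exact (Fermat.Agent.JRED.AL.finrankAlong_alpha_of_not_dvd ℚbar (N * q * q) ℓ hℓ hℓN).trans
      (finrank_bmap L hℓ hℓN).symm
  · refine mem_of_gen _ (fun c => ?_) (fun d hd0 hd x hx => ?_) x
    · exact Subfield.subset_closure (Or.inl ⟨algebraMap ℚbar _ c,
        (heckeAlphaBar ℚbar (N * q * q) ℓ).commutes c⟩)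
    · refine Subfield.subset_closure (Or.inr ⟨castLevel L (level_eq N q ℓ)
        ⟨ModularCurve.qExpand L d (jqModC L), IntermediateField.subset_adjoin _ _
          (mem_divisorExpansionsC L _ hd)⟩, ?_⟩)
      rw [amap_cast]
      apply Subtype.ext
      rw [hx, coe_inc]
      change coeffMap (algebraMap L ℚbar) (ModularCurve.qExpand L d (jqModC L)) = _
      rw [coeffMap_qExpand, coeffMap_jqModC]

/-- **The norm input.** -/
theorem normInput (c : Ctx π w₁ w₂) (hℓ : ℓ.Prime) (hℓN : ¬ ℓ ∣ N * q)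
    {z : modularFunctionFieldFullC L (N * q * q)} (hz : z ≠ 0) :
    ∃ z' : modularFunctionFieldFullC L (N * q * q), z' ≠ 0 ∧
      inc L (N * q * q) z' = normAlong (heckeAlphaBar ℚbar (N * q * q) ℓ)
        (heckeBetaBar ℚbar (N * q * q) ℓ (inc L (N * q * q) z) /
          heckeAlphaBar ℚbar (N * q * q) ℓ (inc L (N * q * q) z)) ∧
      ∀ i, (c.V L).w i z' = 0 := by
  haveI : CharZero L := (algebraMap L ℚbar).charZero
  have hℓN' : ¬ ℓ ∣ N * q * q := fun h => by
    rcases hℓ.dvd_mul.mp h with h | h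
    · exact hℓN h
    · exact hℓN (dvd_mul_of_dvd_right h _)
  have hℓN'' : ¬ ℓ ∣ N := fun h => hℓN (dvd_mul_of_dvd_left h _)
  have hℓq : ¬ q ∣ ℓ := fun h => by
    have h1 : q = ℓ := (Nat.prime_dvd_prime_iff_eq hq.out hℓ).mp h
    exact hℓN (h1 ▸ dvd_mul_left _ _)
  have hqN' : ¬ q ∣ N * ℓ := fun h => by
    rcases hq.out.dvd_mul.mp h with h | h
    · exact c.hqN h
    · exact hℓq h
  have hk : ((N * ℓ : ℕ) : k) ≠ 0 := by
    rw [Ne, CharP.cast_eq_zero_iff k q]
    exact hqN'
  obtain ⟨w₁', w₂', ⟨c'⟩⟩ := exists_ctx' (k := k) (N := N * ℓ) c.S.surj c.hA hqN'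
  have hα0 : alphaC L (N * q * q) ℓ z ≠ 0 := (_root_.map_ne_zero _).mpr hz
  have hβ0 : betaC L (N * q * q) ℓ z ≠ 0 := (_root_.map_ne_zero _).mpr hz
  have hy0 : betaC L (N * q * q) ℓ z / alphaC L (N * q * q) ℓ z ≠ 0 := div_ne_zero hβ0 hα0
  have hy0' : castLevel L (level_eq N q ℓ)
      (betaC L (N * q * q) ℓ z / alphaC L (N * q * q) ℓ z) ≠ 0 :=
    (_root_.map_ne_zero _).mpr hy0
  refine ⟨letI := (bmap N q ℓ L).toAlgebra; Algebra.norm _ (castLevel L (level_eq N q ℓ)
    (betaC L (N * q * q) ℓ z / alphaC L (N * q * q) ℓ z)), ?_, ?_, fun i => ?_⟩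
  · letI : Algebra (modularFunctionFieldFullC L (N * q * q))
      (modularFunctionFieldFullC L (N * ℓ * q * q)) := (bmap N q ℓ L).toAlgebra
    haveI : Module.Finite (modularFunctionFieldFullC L (N * q * q))
      (modularFunctionFieldFullC L (N * ℓ * q * q)) := finite_bmap L
    exact Algebra.norm_ne_zero_iff.mpr hy0'
  · rw [← inc_norm hℓ hℓN', map_div₀, inc_alphaC, inc_betaC]
  · refine w_norm_eq_zero c c' hℓ hℓN'' hk (finite_bmap L) (finrank_bmap L hℓ hℓN') hy0' i ?_
    rw [map_div₀, c'.V_w, div_eq_mul_inv, (c'.X L i).ord_mul ((_root_.map_ne_zero _).mpr hβ0)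
      (inv_ne_zero ((_root_.map_ne_zero _).mpr hα0)), (c'.X L i).ord_inv
      ((_root_.map_ne_zero _).mpr hα0), ← c'.V_w, ← c'.V_w,
      Ctx.w_beta c c' i (inc_betaC z), Ctx.w_alpha c c' i (inc_alphaC z), add_neg_cancel]

end Main

end Fermat.Agent.RT8
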