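import Mathlib
import Fermat.Agent.DR.S36.CoreMain
import Fermat.Agent.DR.S36.SS

/-!
# RT8: inertia invariant torsion of `J₀(q²N)` is old

The abstract argument: from the geometric package `Core` of level `q²N`, the behaviour of residues
along the two degeneracy maps (`DegenRes`) and the surjectivity statements of level `qN`, every
class `[D]` with `div f = m D`, `f` rational over `L` and of valuation zero along the three
components, is of the form `α^* D' + β^* D''` with `D'`, `D''` torsion classes of level `qN`.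
-/

set_option autoImplicit false
set_option linter.unusedSectionVars false

noncomputable section

open AlgebraicCurve Fermat.Agent.RR Fermat.Agent.JRED

namespace Fermat.Agent.RT8

open Fermat.Agent.DR Fermat.Agent.DR.S36

variable {K F F1 FL k κ : Type*} [Field K] [Field F] [Field F1] [Field FL] [Field k]
    [Field κ] [Algebra K F] [Algebra K F1] [Algebra k κ] [Algebra FL F]
    {A : ValuationSubring K} {π : A →+* k} {q : ℕ}

/-- Pull-back of divisors along the degeneracy maps, Frobenius on the supersingular points. -/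
structure OldData (X : Core K F F1 FL k κ A π q) where
  DR : DegenRes K F F1 FL k κ X.toResVals X.R1 X.R2
  pbα : Divisor K F1 →+ Divisor K F
  pbβ : Divisor K F1 →+ Divisor K F
  eα : Place K F → ℤ
  eβ : Place K F → ℤ
  pbα_apply : ∀ D P, pbα D P = eα P * D (X.pα P)
  pbβ_apply : ∀ D P, pbβ D P = eβ P * D (X.pβ P)
  ord_α : ∀ (P : Place K F) (f : F1), P.ord (DR.α f) = eα P * (X.pα P).ord f
  ord_β : ∀ (P : Place K F) (f : F1), P.ord (DR.β f) = eβ P * (X.pβ P).ord f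
  deg_α : ∀ D, Divisor.degree D = 0 → Divisor.degree (pbα D) = 0
  deg_β : ∀ D, Divisor.degree D = 0 → Divisor.degree (pbβ D) = 0
  fr : X.S → X.S
  fr_fr : ∀ s, fr (fr s) = s
  Aβ_eq : ∀ s, X.Aβ s = X.Aα (fr s)
  sq_eq : ∀ s, X.sq s = X.sp (fr s)
  Φ_algebraMap : ∀ c : k, DR.Φ (algebraMap k κ c) = algebraMap k κ c
  ord_Φ : ∀ s (g : κ), (X.sp s).ord (DR.Φ g) = q * (X.sq s).ord g
  Φ_φ : ∀ v : κ, DR.Φ (X.φ v) = v ^ q
  ord_φ : ∀ (m : ℕ) (v : κ), (∀ P : Place k κ, (m : ℤ) ∣ P.ord v) →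
    ∀ P : Place k κ, (m : ℤ) ∣ P.ord (X.φ v)

/-- Divisibility of the orders of residues away from the supersingular points. -/
def OffSS (X : Core K F F1 FL k κ A π q) (m : ℕ) : Prop :=
  ∀ (f : FL) (D : Divisor K F) (r : Fin 3 → κ), f ≠ 0 →
    (∀ P, P.ord (algebraMap FL F f) = m * D P) → (∀ i, X.Res i f (r i)) → (∀ i, r i ≠ 0) →
    ∀ (i : Fin 3) (P : Place k κ), (∀ s, X.sp s ≠ P) → (m : ℤ) ∣ P.ord (r i)

/-- Surjectivity statements of level `qN` for the `L`-rational functions `F₀`. -/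
structure LevelOne (X : Core K F F1 FL k κ A π q)
    (DR : DegenRes K F F1 FL k κ X.toResVals X.R1 X.R2) (m : ℕ) : Prop where
  /-- every pair of classes is the specialisation of a torsion class -/
  lift : ∀ v₁ v₂ : κ, v₁ ≠ 0 → v₂ ≠ 0 → (∀ P : Place k κ, (m : ℤ) ∣ P.ord v₁) →
    (∀ P : Place k κ, (m : ℤ) ∣ P.ord v₂) →
    ∃ (f : F1) (D : Divisor K F1) (g₁ g₂ : κ), f ∈ DR.F₀ ∧ f ≠ 0 ∧ Divisor.degree D = 0 ∧
      (∀ P : Place K F1, P.ord f = m * D P) ∧ g₁ ≠ 0 ∧ g₂ ≠ 0 ∧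
      X.R1.Red f (v₁ * g₁ ^ m) ∧ X.R2.Red f (v₂ * g₂ ^ m)
  /-- every gluing datum comes from a toric class -/
  torus : ∀ δ : X.S → k, (∀ s, δ s ^ m = 1) →
    ∃ (f : F1) (D : Divisor K F1), f ∈ DR.F₀ ∧ f ≠ 0 ∧ Divisor.degree D = 0 ∧
      (∀ P : Place K F1, P.ord f = m * D P) ∧ X.R1.Red f 1 ∧ X.R2.Red f 1 ∧
      ∀ s, ∃ (h : F1) (r₁ r₂ : κ) (a : k), h ∈ DR.F₀ ∧ a ≠ 0 ∧ X.R1.Red h r₁ ∧ X.R2.Red h r₂ ∧
        Val (X.sp s) r₁ a ∧ Val (X.sq s) r₂ (δ s * a) ∧ ∀ P ∈ X.Aα s, P.ord h = D P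

section Lemmas

variable {X : Core K F F1 FL k κ A π q} (O : OldData X)

include O in
theorem OldData.hq0 : q ≠ 0 := by have := X.hq; omega

theorem OldData.val_Φ (s : X.S) {g : κ} {c : k} (h : Val (X.sq s) g c) :
    Val (X.sp s) (O.DR.Φ g) c := by
  unfold Val at *
  rw [adicValuation_lt_one_iff] at *
  have h1 : O.DR.Φ g - algebraMap k κ c = O.DR.Φ (g - algebraMap k κ c) := by
    rw [map_sub, O.Φ_algebraMap]
  rw [h1]
  rcases h with h | h
  · left; rw [h, map_zero]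
  · right
    rw [O.ord_Φ]
    have : (0 : ℤ) < q := by have := X.hq; omega
    positivity

variable (m : ℕ)

theorem OldData.liftα {f : F1} (hf : f ∈ O.DR.F₀) (hf0 : f ≠ 0) {D : Divisor K F1}
    (hD : ∀ P : Place K F1, P.ord f = m * D P) :
    ∃ z : FL, z ≠ 0 ∧ algebraMap FL F z = O.DR.α f ∧
      ∀ P, P.ord (algebraMap FL F z) = m * O.pbα D P := by
  obtain ⟨z, hz⟩ := O.DR.liftα f hf
  refine ⟨z, ?_, hz, fun P => ?_⟩
  · rintro rfl
    rw [map_zero] at hz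
    exact hf0 ((map_eq_zero _).mp hz.symm)
  · rw [hz, O.ord_α, O.pbα_apply, hD]; ring

theorem OldData.liftβ {f : F1} (hf : f ∈ O.DR.F₀) (hf0 : f ≠ 0) {D : Divisor K F1}
    (hD : ∀ P : Place K F1, P.ord f = m * D P) :
    ∃ z : FL, z ≠ 0 ∧ algebraMap FL F z = O.DR.β f ∧
      ∀ P, P.ord (algebraMap FL F z) = m * O.pbβ D P := by
  obtain ⟨z, hz⟩ := O.DR.liftβ f hf
  refine ⟨z, ?_, hz, fun P => ?_⟩
  · rintro rfl
    rw [map_zero] at hz
    exact hf0 ((map_eq_zero _).mp hz.symm)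
  · rw [hz, O.ord_β, O.pbβ_apply, hD]; ring

end Lemmas

section Local

variable (X : Core K F F1 FL k κ A π q)

/-- local data at a supersingular point for a function with nonzero residues `t i ^ m`. -/
theorem local_values [IsAlgClosed k] [FunctionField k κ] {m : ℕ} (hm : m ≠ 0)
    {f : FL} {D : Divisor K F} (hf : f ≠ 0) (hD : ∀ P, P.ord (algebraMap FL F f) = m * D P)
    {t : Fin 3 → κ} (ht : ∀ i, X.Res i f (t i)) (ht0 : ∀ i, t i ≠ 0) (s : X.S) :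
    ∃ (h : FL) (r : Fin 3 → κ) (c : k), h ≠ 0 ∧ (∀ i, r i ≠ 0) ∧ c ≠ 0 ∧
      (∀ i, X.Res i h (r i)) ∧ (∀ i, Val (X.sp s) (t i / r i ^ m) c) ∧
      ∀ P ∈ X.U s, P.ord (algebraMap FL F h) = D P := by
  obtain ⟨h, hh, hwh, hord⟩ := X.localgen s m f D hm hf hD
  have hres : ∀ i, ∃ r : κ, r ≠ 0 ∧ X.Res i h r := fun i => X.exists_res i h hh (hwh i)
  choose r hr hrh using hres
  have hU : ∀ P ∈ X.U s, P.ord (algebraMap FL F (f / h ^ m)) = 0 := by
    intro P hP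
    have h1 : algebraMap FL F h ≠ 0 := (_root_.map_ne_zero (algebraMap FL F)).mpr hh
    rw [map_div₀, map_pow, div_eq_mul_inv, Place.ord_mul _
      ((_root_.map_ne_zero (algebraMap FL F)).mpr hf) (inv_ne_zero (pow_ne_zero m h1)),
      Place.ord_inv, ← zpow_natCast, Place.ord_zpow, hD, hord P hP]
    ring
  obtain ⟨c, hc, hcv⟩ := X.glue s (f / h ^ m) (fun i => t i / r i ^ m)
    (fun i => X.toResVals.res_div i (ht i) (X.toResVals.res_pow i (hrh i) m)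
      (pow_ne_zero m (hr i))) (fun i => div_ne_zero (ht0 i) (pow_ne_zero m (hr i))) hU
  exact ⟨h, r, c, hh, hr, hc, hrh, hcv, hord⟩

/-- orders of the residues at the supersingular points are divisible by `m`. -/
theorem dvd_ord_sp [IsAlgClosed k] [FunctionField k κ] {m : ℕ} (hm : m ≠ 0)
    {f : FL} {D : Divisor K F} (hf : f ≠ 0) (hD : ∀ P, P.ord (algebraMap FL F f) = m * D P)
    {t : Fin 3 → κ} (ht : ∀ i, X.Res i f (t i)) (ht0 : ∀ i, t i ≠ 0) (s : X.S) (i : Fin 3) :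
    (m : ℤ) ∣ (X.sp s).ord (t i) := by
  obtain ⟨h, r, c, hh, hr, hc, hrh, hcv, hord⟩ := local_values X hm hf hD ht ht0 s
  have h2 := ((hcv i).ord_eq_zero hc).2
  rw [div_eq_mul_inv, Place.ord_mul _ (ht0 i) (inv_ne_zero (pow_ne_zero m (hr i))),
    Place.ord_inv, ← zpow_natCast, Place.ord_zpow] at h2
  exact ⟨(X.sp s).ord (r i), by linarith⟩

end Local

section Main

theorem val_inv [IsAlgClosed k] {s : Place k κ} {γ : k} {r : κ} (hr : Val s r γ)
    (hγ : γ ≠ 0) (h0 : r ≠ 0) : Val s r⁻¹ γ⁻¹ := by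
  have h := val_const_div (ζ := (1 : k)) hr hγ h0
  rwa [map_one, one_div, one_div] at h

theorem val_div [IsAlgClosed k] {s : Place k κ} {γ γ' : k} {r r' : κ} (hr : Val s r γ)
    (hr' : Val s r' γ') (hγ' : γ' ≠ 0) (h0 : r' ≠ 0) : Val s (r / r') (γ / γ') := by
  rw [div_eq_mul_inv, div_eq_mul_inv]
  exact hr.mul (val_inv hr' hγ' h0)

theorem val_ne_zero {s : Place k κ} {γ : k} {r : κ} (hr : Val s r γ) (hγ : γ ≠ 0) : r ≠ 0 :=
  (hr.ord_eq_zero hγ).1

theorem exists_val_root [IsAlgClosed k] [FunctionField k κ] {m : ℕ} (hm : m ≠ 0) {s : Place k κ}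
    {r : κ} {c : k} (hr : r ≠ 0) (hc : c ≠ 0) (h : Val s (1 / r ^ m) c) :
    ∃ γ : k, γ ≠ 0 ∧ Val s r γ ∧ γ ^ m * c = 1 := by
  have h2 := (h.ord_eq_zero hc).2
  have hrm := pow_ne_zero m hr
  rw [one_div, Place.ord_inv, ← zpow_natCast, Place.ord_zpow, neg_eq_zero] at h2
  have h3 : s.ord r = 0 := (mul_eq_zero.mp h2).resolve_left (by exact_mod_cast hm)
  obtain ⟨γ, hγ⟩ := Val.exists_of_ord h3.ge
  have h4 := (hγ.pow m).mul h
  rw [one_div, mul_inv_cancel₀ hrm] at h4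
  have h5 : γ ^ m * c = 1 := h4.unique Val.one
  refine ⟨γ, ?_, hγ, h5⟩
  rintro rfl
  rw [zero_pow hm, zero_mul] at h5
  exact zero_ne_one h5

variable {X : Core K F F1 FL k κ A π q} (O : OldData X)

theorem isPrincipal_nsmul_of_ord {K F : Type*} [Field K] [Field F] [Algebra K F] {m : ℕ} {f : F}
    (hf : f ≠ 0) {D : Divisor K F} (h : ∀ P : Place K F, P.ord f = m * D P) :
    (m • D).IsPrincipal :=
  ⟨f, hf, fun P => by rw [h, Finsupp.smul_apply, nsmul_eq_mul]⟩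

variable [IsAlgClosed k] [IsAlgClosed K] [FunctionField k κ] [HasPrincipalDivisors K F]

/-- First step: make the residues equal to one. -/
theorem OldData.step1 {m : ℕ} (hm : m ≠ 0) (hmq : Nat.Coprime q m) (hE : OffSS X m)
    (hL : LevelOne X O.DR m) {f : FL} {D : Divisor K F} (hf : f ≠ 0)
    (hD : ∀ P, P.ord (algebraMap FL F f) = m * D P) (hdeg : Divisor.degree D = 0)
    (hw : ∀ i, X.w i f = 0) :
    ∃ (f₂ : FL) (D₂ : Divisor K F) (D' D'' : Divisor K F1), f₂ ≠ 0 ∧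
      (∀ P, P.ord (algebraMap FL F f₂) = m * D₂ P) ∧ Divisor.degree D₂ = 0 ∧
      (∀ i, X.Res i f₂ 1) ∧ Divisor.degree D' = 0 ∧ Divisor.degree D'' = 0 ∧
      (m • D').IsPrincipal ∧ (m • D'').IsPrincipal ∧
      (D - O.pbα D' - O.pbβ D'' - D₂).IsPrincipal := by
  choose r hr hres using fun i => X.exists_res i f hf (hw i)
  have hdvd : ∀ (i : Fin 3) (P : Place k κ), (m : ℤ) ∣ P.ord (r i) := by
    intro i P
    by_cases hP : ∃ s, X.sp s = P
    · obtain ⟨s, rfl⟩ := hP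
      exact dvd_ord_sp X hm hf hD hres hr s i
    · push Not at hP
      exact hE f D r hf hD hres hr i P hP
  obtain ⟨b, c, hbc⟩ : ∃ b c : ℕ, q * b = 1 + m * c := by
    have hq0 : q ≠ 0 := O.hq0
    rcases Nat.eq_or_lt_of_le (Nat.one_le_iff_ne_zero.mpr hm) with h1 | h1
    · exact ⟨1, q - 1, by rw [← h1]; omega⟩
    · obtain ⟨b, -, hb⟩ := Nat.exists_mul_mod_eq_one_of_coprime hmq h1
      refine ⟨b, q * b / m, ?_⟩
      have := Nat.div_add_mod (q * b) m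
      omega
  set v : κ := r 2 * r 0 / r 1 with hv
  have hv0 : v ≠ 0 := div_ne_zero (mul_ne_zero (hr 2) (hr 0)) (hr 1)
  have hvd : ∀ P : Place k κ, (m : ℤ) ∣ P.ord v := by
    intro P
    rw [hv, div_eq_mul_inv, Place.ord_mul _ (mul_ne_zero (hr 2) (hr 0)) (inv_ne_zero (hr 1)),
      Place.ord_mul _ (hr 2) (hr 0), Place.ord_inv]
    exact dvd_add (dvd_add (hdvd 2 P) (hdvd 0 P)) ((dvd_neg).mpr (hdvd 1 P))
  have hφv : X.φ v ≠ 0 := (_root_.map_ne_zero X.φ).mpr hv0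
  have hu₂ : (X.φ v) ^ b ≠ 0 := pow_ne_zero _ hφv
  have hu₂d : ∀ P : Place k κ, (m : ℤ) ∣ P.ord ((X.φ v) ^ b) := by
    intro P
    rw [← zpow_natCast, Place.ord_zpow]
    exact Dvd.dvd.mul_left (O.ord_φ m v hvd P) _
  have hΦu₂ : O.DR.Φ ((X.φ v) ^ b) = v * (v ^ c) ^ m := by
    rw [map_pow, O.Φ_φ, ← pow_mul, hbc, pow_add, pow_one, mul_comm m c, pow_mul]
  obtain ⟨f', D', g₁, g₂, hf'm, hf'0, hD'deg, hD', hg₁, hg₂, hR1, hR2⟩ :=
    hL.lift (r 0) ((X.φ v) ^ b) (hr 0) hu₂ (hdvd 0) hu₂d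
  have hr10 : r 1 / r 0 ≠ 0 := div_ne_zero (hr 1) (hr 0)
  obtain ⟨f'', D'', g₁', g₂', hf''m, hf''0, hD''deg, hD'', hg₁', hg₂', hR1', hR2'⟩ :=
    hL.lift 1 (r 1 / r 0) one_ne_zero hr10 (fun P => by rw [Place.ord_one]; exact dvd_zero _)
      (fun P => by
        rw [div_eq_mul_inv, Place.ord_mul _ (hr 1) (inv_ne_zero (hr 0)), Place.ord_inv]
        exact dvd_add (hdvd 1 P) ((dvd_neg).mpr (hdvd 0 P)))
  obtain ⟨z', hz'0, hz', hz'ord⟩ := O.liftα m hf'm hf'0 hD'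
  obtain ⟨z'', hz''0, hz'', hz''ord⟩ := O.liftβ m hf''m hf''0 hD''
  have a0 := O.DR.α₀ f' z' _ hf'm hz' hR1
  have a1 := O.DR.α₁ f' z' _ hf'm hz' hR1
  have a2 := O.DR.α₂ f' z' _ hf'm hz' hR2
  have b0 := O.DR.β₀ f'' z'' _ hf''m hz'' hR1'
  have b1 := O.DR.β₁ f'' z'' _ hf''m hz'' hR2'
  have b2 := O.DR.β₂ f'' z'' _ hf''m hz'' hR2'
  rw [map_mul, hΦu₂, map_pow] at a2
  rw [one_mul, map_pow] at b0
  have hΦg₂ : O.DR.Φ g₂ ≠ 0 := (_root_.map_ne_zero O.DR.Φ).mpr hg₂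
  have hΦg₁' : O.DR.Φ g₁' ≠ 0 := (_root_.map_ne_zero O.DR.Φ).mpr hg₁'
  -- the residues of `f / (z' z'')`
  set t : Fin 3 → κ := ![(g₁ * O.DR.Φ g₁')⁻¹, (g₁ * g₂')⁻¹, (v ^ c * O.DR.Φ g₂ * g₂')⁻¹] with ht
  have ht0 : ∀ i, t i ≠ 0 := by
    intro i
    fin_cases i
    · exact inv_ne_zero (mul_ne_zero hg₁ hΦg₁')
    · exact inv_ne_zero (mul_ne_zero hg₁ hg₂')
    · exact inv_ne_zero (mul_ne_zero (mul_ne_zero (pow_ne_zero _ hv0) hΦg₂) hg₂')
  have hden : ∀ (i : Fin 3) (x y : κ), X.Res i z' x → X.Res i z'' y → x ≠ 0 → y ≠ 0 →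
      X.Res i (f / (z' * z'')) (r i / (x * y)) := fun i x y hx hy hx0 hy0 =>
    X.toResVals.res_div i (hres i) (X.res_mul i _ _ _ _ hx hy) (mul_ne_zero hx0 hy0)
  have hres1 : ∀ i, X.Res i (f / (z' * z'')) (t i ^ m) := by
    intro i
    fin_cases i
    · have h := hden 0 _ _ a0 b0 (mul_ne_zero (hr 0) (pow_ne_zero _ hg₁)) (pow_ne_zero _ hΦg₁')
      have e : r 0 / (r 0 * g₁ ^ m * O.DR.Φ g₁' ^ m) = t 0 ^ m := by
        have := hr 0
        simp only [ht, Matrix.cons_val_zero, inv_pow, mul_pow]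
        field_simp
      rw [e] at h
      exact h
    · have h := hden 1 _ _ a1 b1 (mul_ne_zero (hr 0) (pow_ne_zero _ hg₁))
        (mul_ne_zero hr10 (pow_ne_zero _ hg₂'))
      have e : r 1 / (r 0 * g₁ ^ m * (r 1 / r 0 * g₂' ^ m)) = t 1 ^ m := by
        have := hr 0
        have := hr 1
        simp only [ht, Matrix.cons_val_one, Matrix.cons_val_zero, inv_pow, mul_pow]
        field_simp
      rw [e] at h
      exact h
    · have h := hden 2 _ _ a2 b2 (mul_ne_zero (mul_ne_zero hv0 (pow_ne_zero _ (pow_ne_zero _ hv0)))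
        (pow_ne_zero _ hΦg₂)) (mul_ne_zero hr10 (pow_ne_zero _ hg₂'))
      have e : r 2 / (v * (v ^ c) ^ m * O.DR.Φ g₂ ^ m * (r 1 / r 0 * g₂' ^ m)) = t 2 ^ m := by
        have h0 := hr 0
        have h1 := hr 1
        have h2 := hr 2
        have hvc := pow_ne_zero c hv0
        have e1 : v * (r 1 / r 0) = r 2 := by rw [hv]; field_simp
        have e2 : v * (v ^ c) ^ m * O.DR.Φ g₂ ^ m * (r 1 / r 0 * g₂' ^ m) =
            r 2 * ((v ^ c) ^ m * O.DR.Φ g₂ ^ m * g₂' ^ m) := by rw [← e1]; ring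
        rw [e2]
        simp only [ht, Matrix.cons_val, inv_pow, mul_pow]
        field_simp
      rw [e] at h
      exact h
  obtain ⟨g, hg⟩ := X.approx t ht0
  have hg0 : g ≠ 0 := (X.w_eq_zero 0 _ _ (hg 0) (ht0 0)).1
  have hg0' : algebraMap FL F g ≠ 0 := (_root_.map_ne_zero (algebraMap FL F)).mpr hg0
  obtain ⟨G, hG, hGdeg⟩ := HasPrincipalDivisors.exists_divisor (K := K) _ hg0'
  have hzz : algebraMap FL F z' * algebraMap FL F z'' ≠ 0 := mul_ne_zero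
    ((_root_.map_ne_zero (algebraMap FL F)).mpr hz'0)
    ((_root_.map_ne_zero (algebraMap FL F)).mpr hz''0)
  refine ⟨f / (z' * z'') / g ^ m, D - O.pbα D' - O.pbβ D'' - G, D', D'',
    div_ne_zero (div_ne_zero hf (mul_ne_zero hz'0 hz''0)) (pow_ne_zero _ hg0), ?_, ?_, ?_,
    hD'deg, hD''deg, isPrincipal_nsmul_of_ord hf'0 hD', isPrincipal_nsmul_of_ord hf''0 hD'', ?_⟩
  · intro P
    rw [map_div₀, map_div₀, map_mul, map_pow, div_eq_mul_inv, div_eq_mul_inv,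
      Place.ord_mul _ (mul_ne_zero ((_root_.map_ne_zero (algebraMap FL F)).mpr hf)
        (inv_ne_zero hzz)) (inv_ne_zero (pow_ne_zero m hg0')),
      Place.ord_mul _ ((_root_.map_ne_zero (algebraMap FL F)).mpr hf) (inv_ne_zero hzz),
      Place.ord_inv, Place.ord_inv, Place.ord_mul _
        ((_root_.map_ne_zero (algebraMap FL F)).mpr hz'0)
        ((_root_.map_ne_zero (algebraMap FL F)).mpr hz''0), ← zpow_natCast, Place.ord_zpow,
      hz'ord, hz''ord, hD, Finsupp.sub_apply, Finsupp.sub_apply, Finsupp.sub_apply, hG]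
    ring
  · rw [map_sub, map_sub, map_sub, hdeg, O.deg_α _ hD'deg, O.deg_β _ hD''deg, hGdeg]
    ring
  · intro i
    have h1 := X.toResVals.res_div i (hres1 i) (X.toResVals.res_pow i (hg i) m)
      (pow_ne_zero m (ht0 i))
    rwa [div_self (pow_ne_zero m (ht0 i))] at h1
  · have h1 : D - O.pbα D' - O.pbβ D'' - (D - O.pbα D' - O.pbβ D'' - G) = G := by abel
    rw [h1]
    exact ⟨_, hg0', hG⟩

theorem degree_eq_zero_of_sub {K F : Type*} [Field K] [Field F] [Algebra K F]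
    [HasPrincipalDivisors K F] {D D' : Divisor K F} (h : (D - D').IsPrincipal)
    (hD : Divisor.degree D = 0) : Divisor.degree D' = 0 := by
  obtain ⟨v, hv, hvD⟩ := h
  obtain ⟨E, hE, hdeg⟩ := HasPrincipalDivisors.exists_divisor (K := K) v hv
  have h1 : D - D' = E := by ext P; rw [hvD, hE]
  have h2 := congrArg Divisor.degree h1
  rw [map_sub, hD, hdeg] at h2
  omega

/-- Second step: the gluing data. -/
theorem OldData.step2 {m : ℕ} (hm : m ≠ 0) (hmk : (m : k) ≠ 0)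
    (hL : LevelOne X O.DR m) {f : FL} {D : Divisor K F} (hf : f ≠ 0)
    (hD : ∀ P, P.ord (algebraMap FL F f) = m * D P) (hdeg : Divisor.degree D = 0)
    (hres : ∀ i, X.Res i f 1) :
    ∃ (D' D'' : Divisor K F1), Divisor.degree D' = 0 ∧ Divisor.degree D'' = 0 ∧
      (m • D').IsPrincipal ∧ (m • D'').IsPrincipal ∧
      (D - O.pbα D' - O.pbβ D'').IsPrincipal := by
  -- local data
  have hloc : ∀ s, ∃ (h : FL) (r : Fin 3 → κ) (γ : Fin 3 → k), h ≠ 0 ∧ (∀ i, r i ≠ 0) ∧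
      (∀ i, γ i ≠ 0) ∧ (∀ i, X.Res i h (r i)) ∧ (∀ i, Val (X.sp s) (r i) (γ i)) ∧
      (∀ i, γ i ^ m = γ 0 ^ m) ∧ ∀ P ∈ X.U s, P.ord (algebraMap FL F h) = D P := by
    intro s
    obtain ⟨h, r, c, hh, hr, hc, hrh, hcv, hord⟩ :=
      local_values X hm hf hD hres (fun _ => one_ne_zero) s
    choose γ hγ hγv hγc using fun i => exists_val_root hm (hr i) hc (hcv i)
    refine ⟨h, r, γ, hh, hr, hγ, hrh, hγv, fun i => ?_, hord⟩
    exact mul_right_cancel₀ hc ((hγc i).trans (hγc 0).symm)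
  choose h r γ hh hr hγ hrh hγv hγm hord using hloc
  -- the toric classes
  obtain ⟨f', D', hf'm, hf'0, hD'deg, hD', hR1, hR2, hl'⟩ := hL.torus (fun s => γ s 2 / γ s 1)
    (fun s => by rw [div_pow, hγm s 2, hγm s 1, div_self (pow_ne_zero m (hγ s 0))])
  obtain ⟨f'', D'', hf''m, hf''0, hD''deg, hD'', hR1', hR2', hl''⟩ := hL.torus
    (fun s => γ (O.fr s) 1 / γ (O.fr s) 0)
    (fun s => by rw [div_pow, hγm (O.fr s) 1, div_self (pow_ne_zero m (hγ (O.fr s) 0))])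
  obtain ⟨z', hz'0, hz', hz'ord⟩ := O.liftα m hf'm hf'0 hD'
  obtain ⟨z'', hz''0, hz'', hz''ord⟩ := O.liftβ m hf''m hf''0 hD''
  have hz'F := (_root_.map_ne_zero (algebraMap FL F)).mpr hz'0
  have hz''F := (_root_.map_ne_zero (algebraMap FL F)).mpr hz''0
  have hzz : algebraMap FL F z' * algebraMap FL F z'' ≠ 0 := mul_ne_zero hz'F hz''F
  have hz'res : ∀ i, X.Res i z' 1 := by
    intro i
    fin_cases i
    · exact O.DR.α₀ f' z' _ hf'm hz' hR1
    · exact O.DR.α₁ f' z' _ hf'm hz' hR1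
    · have := O.DR.α₂ f' z' _ hf'm hz' hR2
      rwa [map_one] at this
  have hz''res : ∀ i, X.Res i z'' 1 := by
    intro i
    fin_cases i
    · have := O.DR.β₀ f'' z'' _ hf''m hz'' hR1'
      rwa [map_one] at this
    · exact O.DR.β₁ f'' z'' _ hf''m hz'' hR2'
    · exact O.DR.β₂ f'' z'' _ hf''m hz'' hR2'
  refine ⟨D', D'', hD'deg, hD''deg, isPrincipal_nsmul_of_ord hf'0 hD',
    isPrincipal_nsmul_of_ord hf''0 hD'', ?_⟩
  refine X.rigid m (f / (z' * z'')) _ hmk ?_ ?_ ?_ ?_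
  · rw [map_sub, map_sub, hdeg, O.deg_α _ hD'deg, O.deg_β _ hD''deg]; ring
  · intro P
    rw [map_div₀, map_mul, div_eq_mul_inv,
      Place.ord_mul _ ((_root_.map_ne_zero (algebraMap FL F)).mpr hf) (inv_ne_zero hzz),
      Place.ord_inv, Place.ord_mul _ hz'F hz''F, hz'ord, hz''ord, hD, Finsupp.sub_apply,
      Finsupp.sub_apply]
    ring
  · intro i
    have h1 := X.toResVals.res_div i (hres i) (X.res_mul i _ _ _ _ (hz'res i) (hz''res i))
      (by rw [one_mul]; exact one_ne_zero)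
    rwa [one_mul, div_one] at h1
  · intro s
    obtain ⟨h', r₁', r₂', a, hh'm, ha, hh'1, hh'2, hv1, hv2, hord'⟩ := hl' s
    obtain ⟨h'', r₁'', r₂'', a', hh''m, ha', hh''1, hh''2, hv1', hv2', hord''⟩ := hl'' (O.fr s)
    rw [O.fr_fr] at hv2'
    have hsq : X.sq (O.fr s) = X.sp s := by rw [O.sq_eq, O.fr_fr]
    rw [hsq] at hv2'
    rw [← O.sq_eq] at hv1'
    rw [← O.Aβ_eq] at hord''
    set δ₁ : k := γ s 2 / γ s 1 with hδ₁
    set δ₂ : k := γ s 1 / γ s 0 with hδ₂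
    have hδ₁0 : δ₁ ≠ 0 := div_ne_zero (hγ s 2) (hγ s 1)
    have hδ₂0 : δ₂ ≠ 0 := div_ne_zero (hγ s 1) (hγ s 0)
    have hr₁' := val_ne_zero hv1 ha
    have hr₂' := val_ne_zero hv2 (mul_ne_zero hδ₁0 ha)
    have hr₁'' := val_ne_zero hv1' ha'
    have hr₂'' := val_ne_zero hv2' (mul_ne_zero hδ₂0 ha')
    have hh'0 : h' ≠ 0 := RedDatum.ne_zero_of_red hh'1 hr₁'
    have hh''0 : h'' ≠ 0 := RedDatum.ne_zero_of_red hh''1 hr₁''
    obtain ⟨y', hy'⟩ := O.DR.liftα h' hh'm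
    obtain ⟨y'', hy''⟩ := O.DR.liftβ h'' hh''m
    have hy'0 : y' ≠ 0 := by
      rintro rfl
      rw [map_zero] at hy'
      exact hh'0 ((map_eq_zero _).mp hy'.symm)
    have hy''0 : y'' ≠ 0 := by
      rintro rfl
      rw [map_zero] at hy''
      exact hh''0 ((map_eq_zero _).mp hy''.symm)
    have c0 := O.DR.α₀ h' y' _ hh'm hy' hh'1
    have c1 := O.DR.α₁ h' y' _ hh'm hy' hh'1
    have c2 := O.DR.α₂ h' y' _ hh'm hy' hh'2
    have d0 := O.DR.β₀ h'' y'' _ hh''m hy'' hh''1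
    have d1 := O.DR.β₁ h'' y'' _ hh''m hy'' hh''2
    have d2 := O.DR.β₂ h'' y'' _ hh''m hy'' hh''2
    have hΦ2 := O.val_Φ s hv2
    have hΦ1 := O.val_Φ s hv1'
    have hΦr₂' : O.DR.Φ r₂' ≠ 0 := (_root_.map_ne_zero O.DR.Φ).mpr hr₂'
    have hΦr₁'' : O.DR.Φ r₁'' ≠ 0 := (_root_.map_ne_zero O.DR.Φ).mpr hr₁''
    have key : ∀ (i : Fin 3) (x y : κ) (c d : k), X.Res i y' x → X.Res i y'' y → x ≠ 0 → y ≠ 0 →
        Val (X.sp s) x c → Val (X.sp s) y d → c ≠ 0 → d ≠ 0 →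
        X.Res i (h s / (y' * y'')) (r s i / (x * y)) ∧
        Val (X.sp s) (r s i / (x * y)) (γ s i / (c * d)) := fun i x y c d hx hy hx0 hy0 hc hd hc0 hd0 =>
      ⟨X.toResVals.res_div i (hrh s i) (X.res_mul i _ _ _ _ hx hy) (mul_ne_zero hx0 hy0),
        val_div (hγv s i) (hc.mul hd) (mul_ne_zero hc0 hd0) (mul_ne_zero hx0 hy0)⟩
    have k0 := key 0 _ _ _ _ c0 d0 hr₁' hΦr₁'' hv1 hΦ1 ha ha'
    have k1 := key 1 _ _ _ _ c1 d1 hr₁' hr₂'' hv1 hv2' ha (mul_ne_zero hδ₂0 ha')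
    have k2 := key 2 _ _ _ _ c2 d2 hΦr₂' hr₂'' hΦ2 hv2' (mul_ne_zero hδ₁0 ha)
      (mul_ne_zero hδ₂0 ha')
    have g0 := hγ s 0
    have g1 := hγ s 1
    have g2 := hγ s 2
    have e1 : γ s 1 / (a * (δ₂ * a')) = γ s 0 / (a * a') := by
      rw [hδ₂]; field_simp
    have e2 : γ s 2 / (δ₁ * a * (δ₂ * a')) = γ s 0 / (a * a') := by
      rw [hδ₁, hδ₂]; field_simp
    rw [e1] at k1
    rw [e2] at k2
    refine ⟨h s / (y' * y''), ![r s 0 / (r₁' * O.DR.Φ r₁''), r s 1 / (r₁' * r₂''),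
      r s 2 / (O.DR.Φ r₂' * r₂'')], γ s 0 / (a * a'), div_ne_zero g0 (mul_ne_zero ha ha'),
      ?_, ?_, ?_⟩
    · intro i
      fin_cases i
      · exact k0.1
      · exact k1.1
      · exact k2.1
    · intro i
      fin_cases i
      · exact k0.2
      · exact k1.2
      · exact k2.2
    · intro P hP
      have hy'F := (_root_.map_ne_zero (algebraMap FL F)).mpr hy'0
      have hy''F := (_root_.map_ne_zero (algebraMap FL F)).mpr hy''0
      have o1 : P.ord (algebraMap FL F y') = O.pbα D' P := by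
        rw [hy', O.ord_α, O.pbα_apply, hord' _ ((X.U_α s P).mp hP)]
      have o2 : P.ord (algebraMap FL F y'') = O.pbβ D'' P := by
        rw [hy'', O.ord_β, O.pbβ_apply, hord'' _ ((X.U_β s P).mp hP)]
      rw [map_div₀, map_mul, div_eq_mul_inv,
        Place.ord_mul _ ((_root_.map_ne_zero (algebraMap FL F)).mpr (hh s))
          (inv_ne_zero (mul_ne_zero hy'F hy''F)),
        Place.ord_inv, Place.ord_mul _ hy'F hy''F, o1, o2, hord s P hP, Finsupp.sub_apply,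
        Finsupp.sub_apply]
      ring

/-- **Inertia invariant torsion of level `q²N` is old**, abstract form. -/
theorem OldData.main {m : ℕ} (hm : m ≠ 0) (hmk : (m : k) ≠ 0) (hmq : Nat.Coprime q m)
    (hE : OffSS X m) (hL : LevelOne X O.DR m) {f : FL} {D : Divisor K F} (hf : f ≠ 0)
    (hD : ∀ P, P.ord (algebraMap FL F f) = m * D P) (hdeg : Divisor.degree D = 0)
    (hw : ∀ i, X.w i f = 0) :
    ∃ (D' D'' : Divisor K F1), Divisor.degree D' = 0 ∧ Divisor.degree D'' = 0 ∧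
      (m • D').IsPrincipal ∧ (m • D'').IsPrincipal ∧
      (D - O.pbα D' - O.pbβ D'').IsPrincipal := by
  obtain ⟨f₂, D₂, D', D'', hf₂, hD₂, hdeg₂, hres, hd', hd'', hp', hp'', hprin⟩ :=
    O.step1 hm hmq hE hL hf hD hdeg hw
  obtain ⟨E', E'', he', he'', hq', hq'', hprin'⟩ := O.step2 hm hmk hL hf₂ hD₂ hdeg₂ hres
  refine ⟨D' + E', D'' + E'', by rw [map_add, hd', he', add_zero],
    by rw [map_add, hd'', he'', add_zero], ?_, ?_, ?_⟩
  · rw [nsmul_add]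
    exact Divisor.principal.add_mem hp' hq'
  · rw [nsmul_add]
    exact Divisor.principal.add_mem hp'' hq''
  · have h1 : D - O.pbα (D' + E') - O.pbβ (D'' + E'') =
        (D - O.pbα D' - O.pbβ D'' - D₂) + (D₂ - O.pbα E' - O.pbβ E'') := by
      rw [map_add, map_add]; abel
    rw [h1]
    exact Divisor.principal.add_mem hprin hprin'

end Main

end Fermat.Agent.RT8
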