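import Fermat.Agent.RT8.LevelOneB
import Fermat.Agent.RT8.Old

/-!
# RT8: the surjectivity statements of level `qN` (`LevelOne`) from `LOInst`
-/

set_option autoImplicit false
set_option linter.unusedSectionVars false

noncomputable section

open AlgebraicCurve Fermat.Agent.RR Fermat.Agent.JRED

namespace Fermat.Agent.RT8

open Fermat.Agent.DR Fermat.Agent.DR.Mono

variable {K F k F₁ F₂ : Type*} [Field K] [Field F] [Algebra K F] [Field k] [Field F₁] [Field F₂]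
  [Algebra k F₁] [Algebra k F₂] {A : ValuationSubring K} {π : A →+* k}

section Inst

variable [IsAlgClosed K] [IsAlgClosed k] [FunctionField K F]
  [FunctionField k F₁] [FunctionField k F₂]

attribute [local instance] Descent.isFF1_of_functionField

theorem eq_mul_pow {k E : Type*} [Field k] [Field E] [Algebra k E] [IsAlgClosed k]
    [FunctionField k E] {m : ℕ} (hm : 0 < m) {u v : E} (hu : u ≠ 0) (hv : v ≠ 0)
    {D D' : Divisor.degZero (K := k) (F := E)} (hD : ∀ P, (m : ℤ) * (D : Divisor k E) P = P.ord u)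
    (hD' : ∀ P, (m : ℤ) * (D' : Divisor k E) P = P.ord v) (h : Pic0.mk D = Pic0.mk D') :
    ∃ t : E, t ≠ 0 ∧ u = v * t ^ m := by
  obtain ⟨w, hw, hdiv⟩ := pic0_mk_eq_iff.mp h
  obtain ⟨t, ht, htu⟩ := eq_const_mul_pow (k := k) hm (div_ne_zero hu hv) hw (fun P => by
    rw [ord_div P hu hv, ← hD, ← hD', ← hdiv, Finsupp.sub_apply]; ring)
  exact ⟨t, ht, by rw [← htu, mul_div_cancel₀ _ hv]⟩

variable {X : NodalDatum K F k F₁ F₂ A π} {q m : ℕ} {F₀ : Subfield F} (I : LOInst X q m F₀)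

namespace LOInst

include I in
/-- a model over the inertia field, with its divisor -/
theorem exists_model' {D : Divisor.degZero (K := K) (F := F)} {f : F} {u : F₁ × F₂}
    (H : IsRootDiv X m (D : Divisor K F) f u)
    (hdvd : ∀ s ∈ X.nodes, (m : ℤ) ∣ s.1.ord u.1) :
    ∃ (V : F) (V₁ : F₁) (V₂ : F₂), V ≠ 0 ∧ V₁ ≠ 0 ∧ V₂ ≠ 0 ∧ X.R₁.Red V V₁ ∧ X.R₂.Red V V₂ ∧
      f * V ^ m ∈ F₀ ∧
      IsRootDiv X m ((D : Divisor K F) + divOf V) (f * V ^ m) (u.1 * V₁ ^ m, u.2 * V₂ ^ m) := by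
  obtain ⟨V, V₁, V₂, hV, hV₁, hV₂, h1, h2, hF⟩ := I.exists_model H hdvd
  have H2 : IsRootDiv X m (divOf V) (V ^ m) ((V₁, V₂) ^ m) :=
    IsRootDiv.of_pow I.hm ⟨h1, h2⟩ hV₁ hV₂ (fun P => divOf_apply V P)
  refine ⟨V, V₁, V₂, hV, hV₁, hV₂, h1, h2, hF, ?_⟩
  have := H.mul H2
  convert this using 1
  exact Prod.ext rfl rfl

include I in
/-- Every pair of classes is the specialisation of a torsion class rational over the inertia
field. -/
theorem lift_pair {v₁ : F₁} {v₂ : F₂} (hv₁ : v₁ ≠ 0) (hv₂ : v₂ ≠ 0)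
    (h₁ : ∀ P : Place k F₁, (m : ℤ) ∣ P.ord v₁) (h₂ : ∀ P : Place k F₂, (m : ℤ) ∣ P.ord v₂) :
    ∃ (f : F) (D : Divisor K F) (g₁ : F₁) (g₂ : F₂), f ∈ F₀ ∧ f ≠ 0 ∧ Divisor.degree D = 0 ∧
      (∀ P, P.ord f = m * D P) ∧ g₁ ≠ 0 ∧ g₂ ≠ 0 ∧ X.R₁.Red f (v₁ * g₁ ^ m) ∧
      X.R₂.Red f (v₂ * g₂ ^ m) := by
  have hm := I.hm
  obtain ⟨D₁, hD₁⟩ := exists_div_eq (k := k) hm h₁
  obtain ⟨D₂, hD₂⟩ := exists_div_eq (k := k) hm h₂
  obtain ⟨x, -, hx⟩ := exists_spec_of_torsion X I.hπ I.hmk I.hJ I.h₁ I.h₂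
    (nsmul_mk_eq_zero hv₁ hD₁) (nsmul_mk_eq_zero hv₂ hD₂)
  obtain ⟨D, f, u, D₁', D₂', -, h3, h4, H, h5, h6⟩ := hx
  obtain ⟨t₁, ht₁, hu₁⟩ := eq_mul_pow hm H.ne₁ hv₁ h5 hD₁ h3
  obtain ⟨t₂, ht₂, hu₂⟩ := eq_mul_pow hm H.ne₂ hv₂ h6 hD₂ h4
  obtain ⟨V, V₁, V₂, hV, hV₁, hV₂, -, -, hF, H'⟩ := I.exists_model' H
    (fun s _ => ⟨_, (h5 s.1).symm⟩)
  refine ⟨f * V ^ m, _, t₁ * V₁, t₂ * V₂, hF, H'.ne_zero, H'.degree,
    fun P => (H'.div_eq P).symm, mul_ne_zero ht₁ hV₁, mul_ne_zero ht₂ hV₂, ?_, ?_⟩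
  · have := H'.red.1
    simp only [hu₁] at this
    rwa [mul_pow, ← mul_assoc]
  · have := H'.red.2
    simp only [hu₂] at this
    rwa [mul_pow, ← mul_assoc]

/-- Toric classes rational over the inertia field and their gluing data. -/
theorem torus_node (δ : Place k F₁ × Place k F₂ → k) (hδ : ∀ s ∈ X.nodes, δ s ^ m = 1) :
    ∃ (f : F) (D : Divisor K F), f ∈ F₀ ∧ f ≠ 0 ∧ Divisor.degree D = 0 ∧
      (∀ P, P.ord f = m * D P) ∧ X.R₁.Red f 1 ∧ X.R₂.Red f 1 ∧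
      ∀ s (hs : s ∈ X.nodes), ∃ (h : F) (r₁ : F₁) (r₂ : F₂) (a : k), h ∈ F₀ ∧ a ≠ 0 ∧
        X.R₁.Red h r₁ ∧ X.R₂.Red h r₂ ∧ Fermat.Agent.DR.Val s.1 r₁ a ∧
        Fermat.Agent.DR.Val s.2 r₂ (δ s * a) ∧ ∀ P ∈ (I.nd s hs).Ann, P.ord h = D P := by
  classical
  have hqp : Fact q.Prime := ⟨I.hq⟩
  have hchar := I.charP
  have hm := I.hm
  obtain ⟨D, f, H, hγ⟩ := exists_gamma_eq X I.hπ I.hmk I.hJ I.h₁ I.h₂ δ hδ
  obtain ⟨V, V₁, V₂, hV, hV₁, hV₂, hr1, hr2, hF, H'⟩ := I.exists_model' H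
    (fun s _ => by simp)
  -- make the reductions equal to one
  obtain ⟨e, heF, he⟩ := I.lift (V₁⁻¹, V₂⁻¹)
  have he0 : e ≠ 0 := RedDatum.ne_zero_of_red he.1 (inv_ne_zero hV₁)
  set W : F := V * e with hW
  have hW0 : W ≠ 0 := mul_ne_zero hV he0
  have hW1 : Red₂ X.R₁ X.R₂ W (1, algebraMap k F₂ 1) := by
    refine ⟨?_, ?_⟩
    · have := X.R₁.mul hr1 he.1
      rwa [mul_inv_cancel₀ hV₁] at this
    · have := X.R₂.mul hr2 he.2
      rw [mul_inv_cancel₀ hV₂] at this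
      rw [map_one]; exact this
  have HW : IsRootDiv X m (divOf W) (W ^ m) ((1, 1) ^ m) :=
    IsRootDiv.of_pow hm (by rw [map_one] at hW1; exact hW1) one_ne_zero one_ne_zero
      (fun P => divOf_apply W P)
  have H3 : IsRootDiv X m ((D : Divisor K F) + divOf W) (f * W ^ m) (1, 1) := by
    have := H.mul HW
    simpa using this
  have hF3 : f * W ^ m ∈ F₀ := by
    rw [hW, mul_pow, ← mul_assoc]
    exact mul_mem hF (pow_mem heF m)
  set D₃ : Divisor K F := (D : Divisor K F) + divOf W with hD₃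
  set f₃ : F := f * W ^ m with hf₃
  -- the gluing function
  have HW' : IsRootDiv X m (divOf W) (W ^ m) (1, 1) := by simpa using HW
  obtain ⟨γW, -, hγW⟩ := HW'.exists_gamma I.hπ
  obtain ⟨γ₃, -, hγ₃⟩ := H3.exists_gamma I.hπ
  have hγ₃δ : ∀ s ∈ X.nodes, γ₃ s = δ s := by
    intro s hs
    rw [hγ.mul hγW hγ₃ hs, hγW.of_principal hW1 (fun P => divOf_apply W P) hs, mul_one]
  refine ⟨f₃, D₃, hF3, H3.ne_zero, H3.degree, fun P => (H3.div_eq P).symm, H3.red.1, H3.red.2,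
    fun s hs => ?_⟩
  -- `D₃` is fixed by inertia
  have hfix : ∀ g ∈ I.G, g • D₃ = D₃ := by
    intro g hg
    have h1 := (I.mem_F₀ _).mp hF3 g hg
    ext P
    have h2 := smul_div_eq g H3.div_eq P
    rw [h1, ← H3.div_eq P] at h2
    exact mul_left_cancel₀ (by exact_mod_cast hm.ne') h2
  have hqne : (q : K) ≠ 0 := I.disc₁.ne_zero
  have hsp := fun P (hP : P ∈ I.T hs D₃) =>
    (I.C s hs).value_spec I.hπ I.disc₁.mem I.disc₁.res hqne (I.T_ann hs D₃ P hP)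
      ((I.C s hs).v_spec (I.nd s hs) (I.T_ann hs D₃ P hP))
  have hfac : ∀ P ∈ I.T hs D₃, (I.C s hs).y - algebraMap K F ((I.C s hs).v (I.nd s hs) P) ≠ 0 := fun P hP =>
    Fermat.FF.ne_zero_of_ord_ne_zero P (by rw [(hsp P hP).2.2.2.1]; exact one_ne_zero)
  set h : F := ∏ P ∈ I.T hs D₃, ((I.C s hs).y - algebraMap K F ((I.C s hs).v (I.nd s hs) P)) ^ D₃ P with hh
  have hh0 : h ≠ 0 := Finset.prod_ne_zero_iff.mpr fun P hP => zpow_ne_zero _ (hfac P hP)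
  have hordh : ∀ Q ∈ (I.nd s hs).Ann, Q.ord h = D₃ Q := by
    intro Q hQ
    rw [hh, ord_prod_zpow Q _ _ hfac]
    by_cases hQT : Q ∈ I.T hs D₃
    · rw [Finset.sum_eq_single Q]
      · rw [(hsp Q hQT).2.2.2.1, mul_one]
      · intro P hP hPQ
        rw [(hsp P hP).2.2.2.2 Q hQ (Ne.symm hPQ), mul_zero]
      · exact fun h => absurd hQT h
    · rw [I.T_zero hs D₃ Q hQ hQT]
      apply Finset.sum_eq_zero
      intro P hP
      rw [(hsp P hP).2.2.2.2 Q hQ (fun h => hQT (h ▸ hP)), mul_zero]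
  -- `∑ D₃ = 0` on the annulus
  have hsum : ∑ P ∈ I.T hs D₃, D₃ P = 0 := by
    have h1 := (I.nd s hs).norm f₃ H3.ne_zero
    rw [o_eq' _ I.hπ H3.red.1 one_ne_zero, o_eq' _ I.hπ H3.red.2 one_ne_zero,
      Place.ord_one, Place.ord_one, add_zero] at h1
    have h2 : annSum (I.nd s hs).Ann f₃ = m * ∑ P ∈ I.T hs D₃, D₃ P := by
      rw [annSum, Finset.mul_sum]
      refine Finset.sum_congr ?_ (fun P _ => (H3.div_eq P).symm)
      ext P
      rw [Finset.mem_filter, I.mem_T, mem_supp_iff, ← H3.div_eq P]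
      constructor
      · rintro ⟨h3, h4⟩
        exact ⟨fun h0 => h3 (by rw [h0, mul_zero]), h4⟩
      · rintro ⟨h3, h4⟩
        exact ⟨mul_ne_zero (by exact_mod_cast hm.ne') h3, h4⟩
    rw [h2] at h1
    exact (mul_eq_zero.mp h1).resolve_left (by exact_mod_cast hm.ne')
  have hh1 : X.R₁.Red h 1 := by
    have h3 : X.R₁.Red h (∏ P ∈ I.T hs D₃, (I.C s hs).y₁ ^ (D₃ P)) :=
      red_prod _ fun P hP => red_zpow I.hπ (hsp P hP).2.1 (I.C s hs).y₁_ne _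
    rwa [prod_zpow_const (I.C s hs).y₁_ne, hsum, zpow_zero] at h3
  have hh2' : X.R₂.Red (algebraMap K F (I.b hs D₃)⁻¹ * h) 1 := by
    have h3 : X.R₂.Red (∏ P ∈ I.T hs D₃, (algebraMap K F ((I.C s hs).v (I.nd s hs) P)⁻¹ *
        ((I.C s hs).y - algebraMap K F ((I.C s hs).v (I.nd s hs) P))) ^ (D₃ P)) (∏ P ∈ I.T hs D₃, (-1 : F₂) ^ (D₃ P)) :=
      red_prod _ fun P hP => red_zpow I.hπ (hsp P hP).2.2.1 (by simp) _
    rw [prod_zpow_const (by simp), hsum, zpow_zero] at h3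
    have h4 : ∏ P ∈ I.T hs D₃, (algebraMap K F ((I.C s hs).v (I.nd s hs) P)⁻¹ *
        ((I.C s hs).y - algebraMap K F ((I.C s hs).v (I.nd s hs) P))) ^ (D₃ P) = algebraMap K F (I.b hs D₃)⁻¹ * h := by
      rw [hh, LOInst.b, Coord.b, Finset.prod_congr rfl fun P _ => mul_zpow _ _ _,
        Finset.prod_mul_distrib, ← Finset.prod_inv_distrib, map_prod]
      congr 1
      refine Finset.prod_congr rfl fun P _ => ?_
      rw [← map_zpow₀, inv_zpow]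
    rwa [h4] at h3
  -- `b` is a unit
  have hbu : ∃ h : I.b hs D₃ ∈ A, π ⟨_, h⟩ ≠ 0 := by
    obtain ⟨hd, hd0⟩ := (I.C s hs).slope (I.nd s hs) I.hπ I.arch I.disc₁.mem I.disc₁.res hqne H3.ne_zero (m : ℤ) D₃
      (fun P _ => (H3.div_eq P).symm) (I.T_ann hs D₃) (I.T_zero hs D₃) (c₁ := 1) (c₂ := 1)
      (u₁ := 1) (u₂ := 1)
      (by rw [map_one, one_mul]; exact H3.red.1) one_ne_zero
      (by rw [map_one, one_mul]; exact H3.red.2) one_ne_zero
    have ho : o X.R₁ (I.nd s hs).s₁ f₃ = 0 := by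
      rw [o_eq' _ I.hπ H3.red.1 one_ne_zero, Place.ord_one]
    refine unit_of_pow (A := A) (π := π) I.hπ hm.ne' ?_
    have e1 : (1 : K) / 1 * ((I.C s hs).b (I.nd s hs) (I.T hs D₃) D₃) ^ (m : ℤ) *
        (q : K) ^ ((I.C s hs).w * (o X.R₁ (I.nd s hs).s₁ f₃ - m * ∑ P ∈ I.T hs D₃, D₃ P)) = (I.b hs D₃) ^ m := by
      rw [ho, hsum, mul_zero, sub_zero, mul_zero, zpow_zero, mul_one, div_one, one_mul,
        zpow_natCast]
      rfl
    rw [← e1]
    exact ⟨hd, hd0⟩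
  obtain ⟨hbA, hb0⟩ := hbu
  have hbne := I.b_ne_zero hs D₃
  have hh2 : X.R₂.Red h (algebraMap k F₂ (π ⟨_, hbA⟩)) := by
    have h3 := X.R₂.mul (X.R₂.const ⟨_, hbA⟩) hh2'
    rw [mul_one, ← mul_assoc, ← map_mul, mul_inv_cancel₀ hbne, map_one, one_mul] at h3
    exact h3
  -- `h` is rational over the inertia field
  have hhF : h ∈ F₀ := by
    rw [I.mem_F₀]
    intro g hg
    rw [hh, Finset.smul_prod']
    conv_rhs => rw [← I.prod_T hs hg (hfix g hg)]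
    refine Finset.prod_congr rfl fun P hP => ?_
    rw [SemilinearAut.smul_def, map_zpow₀, ← SemilinearAut.smul_def, smul_sub, I.smul_y hg hs,
      SemilinearAut.smul_algebraMap,
      I.v_smul hs hg (I.T_ann hs D₃ P hP), divisor_smul (hfix g hg)]
  -- the value
  obtain ⟨n, w, hw⟩ := hγ₃.exists_one
  have hval := hγ₃.val_of_one hw hs
  obtain ⟨h', hh', hred⟩ := hw
  have hδ0 : δ s ≠ 0 := by
    intro h0
    have := hδ s hs
    rw [h0, zero_pow hm.ne'] at this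
    exact zero_ne_one this
  rw [hγ₃δ s hs] at hval
  have hord' := I.ord_section H3 hh' hred hs hδ0 hval
  have hh'0 : h' ≠ 0 := RedDatum.ne_zero_of_red hred.1 one_ne_zero
  have hinv : Inv (I.nd s hs).Ann (h' / h) := ⟨div_ne_zero hh'0 hh0, fun Q hQ => by
    rw [ord_div Q hh'0 hh0, hord' Q hQ, hordh Q hQ, sub_self]⟩
  have hbne' : algebraMap k F₂ (π ⟨_, hbA⟩) ≠ 0 := by simpa using hb0
  obtain ⟨c, hc1, hc2⟩ := (I.nd s hs).regs I.hπ I.arch (RedDatum.div I.hπ hred.1 hh1 one_ne_zero)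
    (RedDatum.div I.hπ hred.2 hh2 hbne') hinv.pf
  simp only [div_one] at hc1
  have e1 : c = 1 := hc1.unique (by simpa using val_const (s := (I.nd s hs).s₁) (1 : k))
  have hval' : Fermat.Agent.DR.Mono.Val (I.nd s hs).s₂ w (δ s) := by
    rw [I.nd₂ s hs]; exact hval
  have e2 := hc2.unique (hval'.div (val_const _) hb0)
  rw [e1, eq_div_iff hb0, one_mul] at e2
  refine ⟨h, 1, algebraMap k F₂ (π ⟨_, hbA⟩), 1, hhF, one_ne_zero, hh1, hh2,
    Fermat.Agent.DR.Val.one, ?_, hordh⟩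
  rw [mul_one, ← e2]
  exact Fermat.Agent.DR.Val.const _

end LOInst

end Inst

section Level

open Fermat.Agent.DR.S36

variable {K F F1 FL k κ : Type*} [Field K] [Field F] [Field F1] [Field FL] [Field k]
    [Field κ] [Algebra K F] [Algebra K F1] [Algebra k κ] [Algebra FL F]
    {A : ValuationSubring K} {π : A →+* k} {q : ℕ}
    [IsAlgClosed K] [IsAlgClosed k] [FunctionField K F1] [FunctionField k κ]

/-- **The surjectivity statements of level `qN`.** -/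
theorem levelOne_of_inst (X : Core K F F1 FL k κ A π q)
    (DR : DegenRes K F F1 FL k κ X.toResVals X.R1 X.R2) {m : ℕ} (Y : NodalDatum K F1 k κ κ A π)
    (I : LOInst Y q m DR.F₀) (hR₁ : ∀ f u, Y.R₁.Red f u → X.R1.Red f u)
    (hR₂ : ∀ f u, Y.R₂.Red f u → X.R2.Red f u)
    (hnode : ∀ s : X.S, (X.sp s, X.sq s) ∈ Y.nodes)
    (hinj : Function.Injective fun s : X.S => (X.sp s, X.sq s))
    (hAnn : ∀ s, ∀ P ∈ X.Aα s, P ∈ (I.nd _ (hnode s)).Ann) : LevelOne X DR m where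
  lift v₁ v₂ h1 h2 h3 h4 := by
    obtain ⟨f, D, g₁, g₂, e1, e2, e3, e4, e5, e6, e7, e8⟩ := I.lift_pair h1 h2 h3 h4
    exact ⟨f, D, g₁, g₂, e1, e2, e3, e4, e5, e6, hR₁ _ _ e7, hR₂ _ _ e8⟩
  torus δ hδ := by
    classical
    let δ' : Place k κ × Place k κ → k := fun t =>
      if h : ∃ s : X.S, (X.sp s, X.sq s) = t then δ h.choose else 1
    have hδ' : ∀ s : X.S, δ' (X.sp s, X.sq s) = δ s := by
      intro s
      have h : ∃ s' : X.S, (X.sp s', X.sq s') = (X.sp s, X.sq s) := ⟨s, rfl⟩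
      simp only [δ', dif_pos h]
      congr 1
      exact hinj h.choose_spec
    obtain ⟨f, D, h1, h2, h3, h4, h5, h6, h7⟩ := I.torus_node δ' (by
      intro t _
      by_cases h : ∃ s : X.S, (X.sp s, X.sq s) = t
      · simp only [δ', dif_pos h]
        exact hδ _
      · simp only [δ', dif_neg h]
        exact one_pow m)
    refine ⟨f, D, h1, h2, h3, h4, hR₁ _ _ h5, hR₂ _ _ h6, fun s => ?_⟩
    obtain ⟨h, r₁, r₂, a, g1, g2, g3, g4, g5, g6, g7⟩ := h7 _ (hnode s)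
    rw [hδ'] at g6
    exact ⟨h, r₁, r₂, a, g1, g2, hR₁ _ _ g3, hR₂ _ _ g4, g5, g6,
      fun P hP => g7 P (hAnn s P hP)⟩

end Level

end Fermat.Agent.RT8
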