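import Fermat.Agent.RT8.LOMod
import Fermat.Agent.RT8.LevelOne
import Fermat.Agent.DR.S36.Build3

/-!
# RT8: the instance of `OldData` and `LevelOne` for the modular curves
-/

set_option autoImplicit false
set_option linter.unusedSectionVars false

noncomputable section

open AlgebraicCurve ModularCurve Fermat.Agent.RR Fermat.Agent.JRED

namespace Fermat.Agent.RT8

open Fermat.Agent.DR Fermat.Agent.DR.Mod Fermat.Agent.DR.Mod2 Fermat.Agent.DR.ModGal
  Fermat.Agent.DR.S36
open Fermat.Agent.JRED.ESGalois Fermat.Agent.JRED.ESSemi Fermat.Agent.Q2.Ord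
open S36.L S36.Unit
open Fermat.Agent.Q2 (Ctx)

local notation "ℚbar" => AlgebraicClosure ℚ

variable {A : ValuationSubring ℚbar} {k : Type} [Field k]
  {N q : ℕ} [NeZero N] [hq : Fact q.Prime] [hchar : CharP k q] [IsAlgClosed k]
  {π : A →+* k}
  {w₁ : laurentBaseChange ℚbar (modularFunctionFieldFull (N * q)) ≃ₐ[ℚbar]
      laurentBaseChange ℚbar (modularFunctionFieldFull (N * q))}
  {w₂ : laurentBaseChange ℚbar (modularFunctionFieldFull (N * q * q)) ≃ₐ[ℚbar]
      laurentBaseChange ℚbar (modularFunctionFieldFull (N * q * q))}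
  (c : Ctx π w₁ w₂) {L : Type} [Field L] [Algebra L ℚbar] [IsInertiaField A L]
  [FunctionField ℚbar (modularFunctionFieldBar (N * q * q))]
  [FunctionField ℚbar (modularFunctionFieldBar (N * q))]
  [FunctionField ℚbar (modularFunctionFieldBar N)]
  [FunctionField k (modularFunctionFieldFullC k N)]
  {X : NodalDatum ℚbar (modularFunctionFieldBar (N * q)) k
      (modularFunctionFieldFullC k N) (modularFunctionFieldFullC k N) A π}
  {r : Place ℚbar (modularFunctionFieldBar N) → Place k (modularFunctionFieldFullC k N)}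
  (hdeg : DegreeInput N k) (hgood : GoodReduction N k)
  (hr : PlaceRed (hdeg.redDatum c.S.surj) r) (hX : IsModularNodal c.S X)
  (hα : (heckeAlphaBar ℚbar (N * q) q).toRingHom.IsIntegral)
  (hβ : (heckeBetaBar ℚbar (N * q) q).toRingHom.IsIntegral)

theorem degree_pullbackAlong_zero {M M' : ℕ} [NeZero M] [NeZero M']
    [HasPrincipalDivisors ℚbar (modularFunctionFieldBar M')]
    (φ : modularFunctionFieldBar M →ₐ[ℚbar] modularFunctionFieldBar M')
    (hφ : φ.toRingHom.IsIntegral) (D : Divisor ℚbar (modularFunctionFieldBar M))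
    (hD : Divisor.degree D = 0) : Divisor.degree (Divisor.pullbackAlong φ hφ D) = 0 := by
  have i1 := Fermat.Agent.Jan.DegreeWiring.isFF1_modular' ℚbar M
  have h1 : FundamentalIdentityAlong ℚbar φ hφ :=
    Fermat.FF.Rel.fundamentalIdentityAlong _ _ (finiteAlong_modular ℚbar φ)
  exact Divisor.pullbackAlong_mem_degZero φ hφ h1 hD

theorem dvd_ord_frobSemi {k : Type} [Field k] [IsAlgClosed k] {M q : ℕ} [Fact q.Prime] [CharP k q]
    {m : ℤ} {v : modularFunctionFieldFullC k M}
    (h : ∀ P : Place k (modularFunctionFieldFullC k M), m ∣ P.ord v)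
    (P : Place k (modularFunctionFieldFullC k M)) : m ∣ P.ord (frobSemi k M q • v) := by
  have h1 := SemilinearAut.ord_smul (frobSemi k M q) ((frobSemi k M q)⁻¹ • P) v
  rw [smul_inv_smul] at h1
  rw [h1]
  exact h _

/-- **`OldData` for the modular curves.** -/
def oldData (hM : Rigid N) (h1 : LocalGen (L := L) c hdeg hgood hr hα hβ hX)
    (h2 : IsRigid (L := L) c hdeg hgood hr hα hβ hX) :
    letI := algInc L (N * q * q)
    OldData (coreOf c hdeg hgood hr hX hα hβ hM h1 h2) :=
  letI := algInc L (N * q * q)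
  { DR := c.degenRes L
    pbα := Divisor.pullbackAlong (heckeAlphaBar ℚbar (N * q) q) hα
    pbβ := Divisor.pullbackAlong (heckeBetaBar ℚbar (N * q) q) hβ
    eα := fun P => P.ramificationIndexAlong (heckeAlphaBar ℚbar (N * q) q)
    eβ := fun P => P.ramificationIndexAlong (heckeBetaBar ℚbar (N * q) q)
    pbα_apply := fun D P => Divisor.pullbackAlong_apply _ hα D P
    pbβ_apply := fun D P => Divisor.pullbackAlong_apply _ hβ D P
    ord_α := fun P f => Place.ord_restrictAlong _ hα P f
    ord_β := fun P f => Place.ord_restrictAlong _ hβ P f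
    deg_α := fun D hD => degree_pullbackAlong_zero _ hα D hD
    deg_β := fun D hD => degree_pullbackAlong_zero _ hβ D hD
    fr := (ctxNodes c L hdeg hgood hr hX hα hβ).fr
    fr_fr := (ctxNodes c L hdeg hgood hr hX hα hβ).fr_fr
    Aβ_eq := fun _ => rfl
    sq_eq := fun _ => rfl
    Φ_algebraMap := fun a => (PhiFull k q N).commutes a
    ord_Φ := (ctxCoords c hdeg hgood hr hX hα hβ hM).ord_Φ
    Φ_φ := fun v => PhiFull_frobSemi k N q v
    ord_φ := fun _ _ h P => dvd_ord_frobSemi h P }

/-- **`LevelOne` for the modular curves.** -/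
theorem levelOne_modular (hM : Rigid N) (h1 : LocalGen (L := L) c hdeg hgood hr hα hβ hX)
    (h2 : IsRigid (L := L) c hdeg hgood hr hα hβ hX) {m : ℕ} (hmk : (m : k) ≠ 0) :
    letI := algInc L (N * q * q)
    LevelOne (coreOf c hdeg hgood hr hX hα hβ hM h1 h2)
      (oldData c hdeg hgood hr hX hα hβ hM h1 h2).DR m := by
  let := algInc L (N * q * q)
  obtain ⟨I, hI⟩ := exists_loInst_ann c.S c.hqN hdeg hgood hr hM c.hA hX L hmk
  refine levelOne_of_inst (coreOf c hdeg hgood hr hX hα hβ hM h1 h2)
    (oldData c hdeg hgood hr hX hα hβ hM h1 h2).DR X I ?_ ?_ ?_ ?_ ?_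
  · intro f u h
    rw [hX.eq₁] at h
    exact h
  · intro f u h
    rw [hX.eq₂] at h
    exact h
  · intro s
    exact s.2
  · intro s s' h
    exact Subtype.ext h
  · intro s P hP
    have h3 : P ∈ (modMono c.S c.hqN hdeg hgood hr).Ann s.1.1 := hP
    rw [← hI s.1 s.2] at h3
    exact h3

end Fermat.Agent.RT8
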