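import Fermat.Agent.RT8.OldMain
import Fermat.Agent.RT8.OldInst
import Fermat.Agent.RT8.NormVal
import Fermat.Agent.RT8.L2.Gen
import Fermat.Agent.DR.S36.Final

/-!
# RT8: the theorem OLD for the modular curves, and `L2Odd`
-/

set_option autoImplicit false
set_option linter.unusedSectionVars false

noncomputable section

open AlgebraicCurve ModularCurve Fermat.Agent.RR Fermat.Agent.JRED

namespace Fermat.Agent.RT8

open Fermat.Agent.DR Fermat.Agent.DR.Mod Fermat.Agent.DR.Mod2 Fermat.Agent.DR.ModGal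
  Fermat.Agent.DR.S36
open S36.L S36.Unit
open Fermat.Agent.Q2 (Ctx)
open Fermat.Agent.Jan.HeckeInputs (heckeAlphaBarIntegral heckeBetaBarIntegral)

local notation "ℚbar" => AlgebraicClosure ℚ

section

variable {A : ValuationSubring ℚbar} {k : Type} [Field k]
  {N q : ℕ} [NeZero N] [hq : Fact q.Prime] [hchar : CharP k q] [IsAlgClosed k]
  {π : A →+* k}
  {w₁ : laurentBaseChange ℚbar (modularFunctionFieldFull (N * q)) ≃ₐ[ℚbar]
      laurentBaseChange ℚbar (modularFunctionFieldFull (N * q))}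
  {w₂ : laurentBaseChange ℚbar (modularFunctionFieldFull (N * q * q)) ≃ₐ[ℚbar]
      laurentBaseChange ℚbar (modularFunctionFieldFull (N * q * q))}
  (c : Ctx π w₁ w₂) {L : Type} [Field L] [Algebra L ℚbar] [IsInertiaField A L]
  [FunctionField ℚbar (modularFunctionFieldBar (N * q * q))]
  [FunctionField ℚbar (modularFunctionFieldBar (N * q))]
  [FunctionField ℚbar (modularFunctionFieldBar N)]
  [FunctionField k (modularFunctionFieldFullC k N)]
  {X : NodalDatum ℚbar (modularFunctionFieldBar (N * q)) k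
      (modularFunctionFieldFullC k N) (modularFunctionFieldFullC k N) A π}
  {r : Place ℚbar (modularFunctionFieldBar N) → Place k (modularFunctionFieldFullC k N)}
  (hdeg : DegreeInput N k) (hgood : GoodReduction N k)
  (hr : PlaceRed (hdeg.redDatum c.S.surj) r) (hX : IsModularNodal c.S X)
  (hα : (heckeAlphaBar ℚbar (N * q) q).toRingHom.IsIntegral)
  (hβ : (heckeBetaBar ℚbar (N * q) q).toRingHom.IsIntegral)

/-- **Divisibility of the residues away from the supersingular points.** -/
theorem offSS_ptsOf (hM : Rigid N) (h4 : q = 2 ∨ q = 3 ∨ 4 ∣ N)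
    (h1 : LocalGen (L := L) c hdeg hgood hr hα hβ hX)
    (h2 : IsRigid (L := L) c hdeg hgood hr hα hβ hX) {m : ℕ} (hm : m ≠ 0) :
    letI := algInc L (N * q * q)
    OffSS (coreOf c hdeg hgood hr hX hα hβ hM h1 h2) m := by
  let := algInc L (N * q * q)
  have := isDiscreteValuationRing (L := L) hq.out c.hA
  have := charZero_of_algebra L
  intro f D g hf hD hg hg0 i P hP
  exact (ptsOf c hdeg hgood hr hX hα hβ hM h4).dvd_ord (isChart c hdeg hgood (L := L))
    (isChart_inv c hdeg hgood (L := L)) rfl hm hf hD (hg i) (hg0 i) fun s h => hP s h.symm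

end

/-- **OLD** for the modular curves. -/
theorem oldProp {N q p : ℕ} [NeZero N] [NeZero q] [hq : Fact q.Prime] (hqN : ¬ q ∣ N)
    (h4 : 4 ∣ N) (hp : p.Prime) (hpq : p ≠ q) : OldProp N q p := by
  intro A hA x hx hfix ℓ hℓ
  have hM : Rigid N := rigid_of_four h4
  have : NeZero (ℓ : ℕ) := ⟨ℓ.2.ne_zero⟩
  have hsurj : Function.Surjective (IsLocalRing.residue A) := IsLocalRing.residue_surjective
  have i1 : CharP (IsLocalRing.ResidueField A) q := L.charP _ hq.out hA hsurj
  have i2 : IsAlgClosed (IsLocalRing.ResidueField A) := isAlgClosed_of_surjective hsurj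
  obtain ⟨w₁, w₂, ⟨c⟩⟩ := Fermat.Agent.Q2.exists_ctx' hsurj hA hqN
  obtain ⟨L, _, _, hL⟩ := exists_inertiaField (A := A)
  have hdeg : DegreeInput N (IsLocalRing.ResidueField A) := degreeInput' (NeZero.ne N) hqN
  have hgood : GoodReduction N (IsLocalRing.ResidueField A) :=
    goodReduction hsurj hq.out (NeZero.ne N) hqN
  have i3 := functionField_modularBar (N * q * q)
  have i4 := functionField_modularBar (N * q)
  have i5 := functionField_modularBar N
  have i6 := hdeg.functionField'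
  obtain ⟨X, hX, -⟩ := exists_modular_nodalDatum hA hqN c.S hdeg hgood
  obtain ⟨r, hr⟩ := exists_placeRed_modular c.S.surj hdeg hgood
  have hα := heckeAlphaBarIntegral ℚbar (N * q) q Fermat.Agent.Jan.DegreeWiring.jAlg
  have hβ := heckeBetaBarIntegral ℚbar (N * q) q Fermat.Agent.Jan.DegreeWiring.jAlg
  obtain ⟨h1, h2⟩ := geomInput N q hqN hM (Or.inr (Or.inr h4)) A _ _ w₁ w₂ c L X r hdeg hgood hr
    hX hα hβ
  let := algInc L (N * q * q)
  have hqp : Nat.Coprime q p := (Nat.coprime_primes hq.out hp).mpr hpq.symm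
  have hpk : (p : IsLocalRing.ResidueField A) ≠ 0 := by
    rw [Ne, CharP.cast_eq_zero_iff (IsLocalRing.ResidueField A) q]
    exact fun h => hpq ((Nat.prime_dvd_prime_iff_eq hq.out hp).mp h).symm
  have hℓN : ¬ (ℓ : ℕ) ∣ N * q * q := by
    intro h
    rcases ℓ.2.dvd_mul.mp h with h | h
    · exact hℓ h
    · exact hℓ (h.mul_left N)
  exact old_of_core (coreOf c hdeg hgood hr hX hα hβ hM h1 h2)
    (oldData c hdeg hgood hr hX hα hβ hM h1 h2) (fun D => rfl) (fun D => rfl)
    (S36.L.classInput (N * q * q) q) hp.ne_zero hpk hqp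
    (offSS_ptsOf c hdeg hgood hr hX hα hβ hM (Or.inr (Or.inr h4)) h1 h2 hp.ne_zero)
    (levelOne_modular c hdeg hgood hr hX hα hβ hM h1 h2 hpk) ℓ hℓN
    (fun z hz => normInput c ℓ.2 hℓ hz) hx hfix

/-- **`L2Odd`.** -/
theorem l2Odd : L2Odd :=
  L2.l2Odd_of fun N q p _ _ hq _ hqN h4 hp hpq => by
    have : Fact q.Prime := ⟨hq⟩
    exact oldProp hqN h4 hp hpq

end Fermat.Agent.RT8
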