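import Fermat.Agent.RT8.TameA
import Fermat.Agent.RT.Wiring.EDef
import Fermat.Agent.RT.Wiring.Base

/-!
# RT8 (helper29): level lowering at `2` in residue characteristic `≥ 5`, from S36
-/

set_option autoImplicit false
set_option linter.unusedSectionVars false

open Polynomial IsLocalRing CongruenceSubgroup ModularFormClass

namespace Fermat.Agent.RT8.TameA

open Fermat.Agent.CMP Fermat.Agent.CMP.S58Assembly Fermat.Agent.FrobCompare
open Fermat.Agent.CMP.Density Fermat.Agent.RT.Wiring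

local notation "Γℚ" => (AlgebraicClosure ℚ ≃ₐ[ℚ] AlgebraicClosure ℚ)

/-- If a newform `g` of level `M` is congruent to `W` modulo `𝔪 ∋ p`, `p ≥ 5`, then `4 ∥ M` is
impossible. -/
theorem factorization_two_ne_two (h36 : S36Prop) {p : ℕ} [hpf : Fact p.Prime] (hp2 : p ≠ 2)
    (hp3 : p ≠ 3) {W : WeierstrassCurve ℤ} (hΔ : W.Δ ≠ 0) (hss : W.IsSemistableModel)
    (hirr : W.ModRepIsIrreducible p) {M : ℕ} [NeZero M] {g : CuspForm (Gamma0 M) 2}
    (hg : g.IsNewform) (𝔪 : Ideal (integralClosure ℤ ℂ)) (h𝔪 : 𝔪.IsMaximal)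
    (hp𝔪 : (p : integralClosure ℤ ℂ) ∈ 𝔪) (D : Finset ℕ)
    (hcong : ∀ ℓ : ℕ, ℓ.Prime → ℓ ∉ D → ∃ a : integralClosure ℤ ℂ, (a : ℂ) = qCoeff g ℓ ∧
      a - ((W.apOfModel ℓ : ℤ) : integralClosure ℤ ℂ) ∈ 𝔪) : M.factorization 2 ≠ 2 := by
  classical
  have hpp : p.Prime := hpf.out
  let S : Finset ℕ := insert p M.primeFactors
  have hpS : p ∈ S := Finset.mem_insert_self _ _
  have hMS : ∀ q : ℕ, q.Prime → q ∣ M → q ∈ S := fun q hq hqM =>
    Finset.mem_insert_of_mem (Nat.mem_primeFactors.mpr ⟨hq, hqM, NeZero.ne M⟩)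
  let chig := EigenCharOn.eigenCharOn (↑S : Set ℕ) hg.1
  have hchig : ∀ (ℓ : ℕ) (hℓ : ℓ.Prime) (hℓM : ¬ ℓ ∣ M) (hℓS : ℓ ∉ (↑S : Set ℕ)),
      chig (CuspForm.heckeAlgebra.T hℓ hℓM hℓS) = ModularFormClass.qCoeff g ℓ :=
    fun ℓ hℓ hℓM hℓS => EigenCharOn.eigenCharOn_T _ hg.1 hℓ hℓM hℓS
  have hfin : Module.Finite ℤ chig.range := EigenCharOn.finite_range_of_heckeAlgebra chig
  have hRint : ∀ x : chig.range, IsIntegral ℤ (x : ℂ) := fun x => by
    have h1 : IsIntegral ℤ x := Algebra.IsIntegral.isIntegral x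
    exact h1.map chig.range.subtype.toIntAlgHom
  let j : chig.range →+* integralClosure ℤ ℂ := (chig.range.subtype).codRestrict
    (integralClosure ℤ ℂ).toSubring fun x => hRint x
  have hj : ∀ x : chig.range, ((j x : integralClosure ℤ ℂ) : ℂ) = x := fun x => rfl
  let 𝔫 : Ideal chig.range := 𝔪.comap j
  have hp𝔫 : (p : chig.range) ∈ 𝔫 := by
    rw [Ideal.mem_comap, map_natCast]; exact hp𝔪
  have hprime : 𝔫.IsPrime := Ideal.IsPrime.comap j
  have htf : Module.IsTorsionFree ℤ chig.range := inferInstance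
  have hmax : 𝔫.IsMaximal := by
    have hdom : IsDomain (chig.range ⧸ 𝔫) := Ideal.Quotient.isDomain 𝔫
    have hfin : Finite (chig.range ⧸ 𝔫) := by
      have hc : CharP (chig.range ⧸ 𝔫) p := by
        refine (CharP.charP_iff_prime_eq_zero hpf.out).mpr ?_
        rw [← map_natCast (Ideal.Quotient.mk 𝔫), Ideal.Quotient.eq_zero_iff_mem]
        exact hp𝔫
      let _ : Algebra (ZMod p) (chig.range ⧸ 𝔫) := ZMod.algebra _ p
      have : Module.Finite ℤ (chig.range ⧸ 𝔫) := inferInstance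
      have : IsScalarTower ℤ (ZMod p) (chig.range ⧸ 𝔫) := IsScalarTower.of_algebraMap_eq'
        (RingHom.ext_int _ _)
      have : Module.Finite (ZMod p) (chig.range ⧸ 𝔫) :=
        Module.Finite.of_restrictScalars_finite ℤ _ _
      exact Module.finite_of_finite (ZMod p)
    have := Finite.isField_of_domain (chig.range ⧸ 𝔫)
    exact Ideal.Quotient.maximal_of_isField _ this
  obtain ⟨O', i1, i2, i3, i4, i5, i6, i7, i8, i9, hinj, hpO, iota, hiota, -⟩ :=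
    OrderDVR.exists_dvr_of_order p chig.range 𝔫 hp𝔫
  -- the residual comparison
  have hT : ∀ (ℓ : ℕ) (hℓ : ℓ.Prime) (hℓM : ¬ ℓ ∣ M) (hℓS : ℓ ∉ (↑S : Set ℕ)), ℓ ∉ D →
      residue O' ((iota.comp chig.rangeRestrict) (CuspForm.heckeAlgebra.T hℓ hℓM hℓS)) =
        ((W.apOfModel ℓ : ℤ) : ResidueField O') := by
    intro ℓ hℓ hℓM hℓS hℓD
    obtain ⟨a, ha, ham⟩ := hcong ℓ hℓ hℓD
    have h1 : chig.rangeRestrict (CuspForm.heckeAlgebra.T hℓ hℓM hℓS) -
        ((W.apOfModel ℓ : ℤ) : chig.range) ∈ 𝔫 := by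
      rw [Ideal.mem_comap, map_sub, map_intCast]
      convert ham using 2
      apply Subtype.ext
      rw [hj, ha]
      exact hchig ℓ hℓ hℓM hℓS
    rw [← hiota, Ideal.mem_comap, map_sub, map_intCast] at h1
    rw [RingHom.comp_apply, ← sub_eq_zero, ← map_intCast (residue O'), ← map_sub,
      residue_eq_zero_iff]
    exact h1
  let ρE := EllTate.tate W hΔ p
  have hρE := EllTate.isTateOf_tate hΔ hss p
  obtain ⟨hEirr, hEodd⟩ := residual_tate hΔ p hp2 hirr ρE hρE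
  have hcmp : ∀ (O'' : Type) [CommRing O''] [IsDomain O''] [IsDiscreteValuationRing O'']
      [IsAdicComplete (IsLocalRing.maximalIdeal O'') O''] [Finite (IsLocalRing.ResidueField O'')]
      [CharZero O''] [Algebra O' O''] [Module.Finite O' O''] [IsLocalHom (algebraMap O' O'')]
      (ρ : GaloisRepAdic O''),
      (∀ (ℓ : ℕ) (hℓ : ℓ.Prime) (_hℓlam : ℓ ≠ p) (hℓM : ¬ ℓ ∣ M) (hℓS : ℓ ∉ (↑S : Set ℕ)),
        ∀ A : ValuationSubring (AlgebraicClosure ℚ), A.LiesOverPrime ℓ →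
          ∀ σ : AlgebraicClosure ℚ ≃ₐ[ℚ] AlgebraicClosure ℚ, A.IsFrobeniusAt σ ℓ →
            LinearMap.charpoly (ρ.ρ σ) =
              X ^ 2 - C (algebraMap O' O'' ((iota.comp chig.rangeRestrict)
                (CuspForm.heckeAlgebra.T hℓ hℓM hℓS))) * X + C ((ℓ : O''))) →
      ∀ σ : Γℚ, (LinearMap.charpoly (ρ.residual.ρ σ)).map (RingHom.id _) =
          (LinearMap.charpoly (ρE.residual.ρ σ)).map
            (ResidueField.map ((algebraMap O' O'').comp (algebraMap ℤ_[p] O'))) := by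
    intro O'' _ _ _ _ _ _ _ _ _ ρ hρ
    refine residual_charpoly_map_eq frobDensity _ _ ρ.residual ρE.residual
      (S ∪ D ∪ {p} ∪ M.primeFactors ∪ W.Δ.natAbs.primeFactors) ?_
    intro ℓ hℓ hℓS A hA τ hτ
    simp only [Finset.mem_union, Finset.mem_singleton, not_or] at hℓS
    obtain ⟨⟨⟨⟨hS, hD⟩, hlam⟩, hM⟩, hΔ'⟩ := hℓS
    have hℓM : ¬ ℓ ∣ M := fun h => hM (Nat.mem_primeFactors.mpr ⟨hℓ, h, NeZero.ne M⟩)
    have hℓΔ : ¬ (ℓ : ℤ) ∣ W.Δ := fun h => hΔ' (Nat.mem_primeFactors.mpr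
      ⟨hℓ, Int.natCast_dvd.mp h, Int.natAbs_ne_zero.mpr hΔ⟩)
    have hS' : ℓ ∉ (↑S : Set ℕ) := fun h => hS (Finset.mem_coe.mp h)
    rw [Polynomial.map_id, charpoly_residual, charpoly_residual, hρ ℓ hℓ hlam hℓM hS' A hA τ hτ,
      hρE.charpoly_frob ℓ hℓ hlam hℓΔ A hA τ hτ, map_quad, map_quad]
    simp only [Polynomial.map_add, Polynomial.map_sub, Polynomial.map_mul, Polynomial.map_pow,
      Polynomial.map_X, Polynomial.map_C, map_natCast]
    have h1 : residue O'' (algebraMap O' O'' ((iota.comp chig.rangeRestrict)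
        (CuspForm.heckeAlgebra.T hℓ hℓM hS'))) = ((W.apOfModel ℓ : ℤ) : ResidueField O'') := by
      have h2 := congrArg (ResidueField.map (algebraMap O' O'')) (hT ℓ hℓ hℓM hS' hD)
      rw [map_intCast] at h2
      rw [← h2]
      rfl
    rw [h1, Polynomial.map_natCast]
  obtain ⟨O'', j1, j2, j3, j4, j5, j6, j7, j8, j9, hinj', ρ, hρ, hρq⟩ :=
    h36 hg p S O' hpO hp2 chig hchig iota hpS hMS (by
      intro O'' _ _ _ _ _ _ _ _ _ _ ρ hρ
      have hcr := hcmp O'' ρ hρ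
      refine ⟨BN2.isAbsolutelyIrreducible_of_charpoly_eq _ _ _ _ hcr hEirr, ?_⟩
      intro c hc hc1
      have h1 := BN2.det_eq_of_charpoly_map_eq ρ.residual.finrank_eq ρE.residual.finrank_eq
        _ _ _ _ (hcr c)
      rw [hEodd c hc hc1, map_neg, map_one, RingHom.id_apply] at h1
      exact h1)
  intro hfac
  refine hρq 2 Nat.prime_two hp2.symm hfac ?_
  have hcr := hcmp O'' ρ (fun ℓ hℓ _ hℓM hℓS => hρ ℓ hℓ hℓM hℓS)
  have hpO'' : (p : O'') ∈ maximalIdeal O'' := by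
    have h1 : algebraMap O' O'' (p : O') ∈ maximalIdeal O'' := by
      rw [mem_maximalIdeal, mem_nonunits_iff]
      intro h
      exact (mem_nonunits_iff.mp ((mem_maximalIdeal _).mp hpO)) (isUnit_of_map_unit _ _ h)
    rwa [map_natCast] at h1
  intro P hP
  refine charpoly_eq ρ hpp hp2 hp3 hpO'' hP fun σ hσ => ?_
  have h1 := hcr σ
  rw [Polynomial.map_id, charpoly_residual ρE, hρE.unip 2 Nat.prime_two hp2.symm P hP σ hσ] at h1
  rw [h1]
  simp only [Polynomial.map_pow, Polynomial.map_sub, Polynomial.map_X, Polynomial.map_one]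

/-- **Level lowering at `2` in residue characteristic `≥ 5`.** -/
theorem residual_two (h36 : S36Prop) {p : ℕ} (hp : p.Prime) (hp2 : p ≠ 2) (hp3 : p ≠ 3)
    {W : WeierstrassCurve ℤ} (hΔ : W.Δ ≠ 0) (hss : W.IsSemistableModel)
    (hirr : W.ModRepIsIrreducible p) {N : ℕ} (hN : 0 < N) (h2N : ¬ 2 ∣ N)
    (hmod : W.IsResiduallyModularOfLevel p (4 * N)) : W.IsResiduallyModularOfLevel p (2 * N) := by
  have : Fact p.Prime := ⟨hp⟩
  obtain ⟨f, 𝔪, hf, h𝔪, hp𝔪, hfa⟩ := hmod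
  have h4N : 4 * N ≠ 0 := by positivity
  obtain ⟨M, hM, g, hg, hgf⟩ := Oldform.exists_isNewform h4N hf
  have hM0 : NeZero M := ⟨fun h => h4N (by rw [h] at hM; exact zero_dvd_iff.mp hM)⟩
  have hfac := factorization_two_ne_two h36 hp2 hp3 hΔ hss hirr hg 𝔪 h𝔪 hp𝔪
    ((4 * N).primeFactors ∪ {p} ∪ W.Δ.natAbs.primeFactors) (by
      intro ℓ hℓ hℓS
      simp only [Finset.mem_union, Finset.mem_singleton, not_or] at hℓS
      obtain ⟨⟨h1, h2⟩, h3⟩ := hℓS
      have hℓN : ¬ ℓ ∣ 4 * N := fun h => h1 (Nat.mem_primeFactors.mpr ⟨hℓ, h, h4N⟩)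
      have hgood : W.IsGoodPrimeFor ℓ := fun h => h3 (Nat.mem_primeFactors.mpr
        ⟨hℓ, Int.natCast_dvd.mp h, Int.natAbs_ne_zero.mpr hΔ⟩)
      obtain ⟨a, ha, ha'⟩ := hfa ℓ hℓ hgood hℓN h2
      exact ⟨a, by rw [ha, hgf ℓ hℓ hℓN], ha'⟩)
  -- `M ∣ 2 * N`
  have hM2 : M ∣ 2 * N := by
    have h2N0 : 2 * N ≠ 0 := by positivity
    rw [← Nat.factorization_le_iff_dvd (NeZero.ne M) h2N0]
    intro q
    have h1 := (Nat.factorization_le_iff_dvd (NeZero.ne M) h4N).mpr hM q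
    rw [Nat.factorization_mul (by norm_num) hN.ne', Finsupp.add_apply] at h1 ⊢
    have h4 : (4 : ℕ).factorization q = if q = 2 then 2 else 0 := by
      rw [show (4 : ℕ) = 2 ^ 2 by norm_num, Nat.Prime.factorization_pow Nat.prime_two,
        Finsupp.single_apply]
      simp only [eq_comm]
    have h2 : (2 : ℕ).factorization q = if q = 2 then 1 else 0 := by
      rw [Nat.Prime.factorization Nat.prime_two, Finsupp.single_apply]
      simp only [eq_comm]
    rw [h4] at h1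
    rw [h2]
    by_cases hq : q = 2
    · subst hq
      rw [if_pos rfl] at h1 ⊢
      have h5 : N.factorization 2 = 0 := Nat.factorization_eq_zero_of_not_dvd h2N
      omega
    · rw [if_neg hq] at h1 ⊢
      exact h1
  obtain ⟨f', hf', hf'a⟩ := Oldform.exists_isNormalizedEigenform_of_dvd' (N := 2 * N)
    (by positivity) hM2 hg.1
  refine ⟨f', 𝔪, hf', h𝔪, hp𝔪, fun ℓ hℓ hgood hℓN hℓp => ?_⟩
  have hℓ4 : ¬ ℓ ∣ 4 * N := by
    intro h
    rcases (Nat.Prime.dvd_mul hℓ).mp h with h | h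
    · have h4 : ℓ ∣ 2 ^ 2 := h
      exact hℓN (dvd_mul_of_dvd_left (hℓ.dvd_of_dvd_pow h4) _)
    · exact hℓN (dvd_mul_of_dvd_right h 2)
  obtain ⟨a, ha, ha'⟩ := hfa ℓ hℓ hgood hℓ4 hℓp
  exact ⟨a, by rw [ha, hf'a ℓ hℓ hℓN, hgf ℓ hℓ hℓ4], ha'⟩

end Fermat.Agent.RT8.TameA
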