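import Fermat.Agent.RT8.TwoStep
import Fermat.Agent.L9.Descend
import Fermat.Agent.S21
import Fermat.Agent.Oldform

/-!
# RT8 (helper29): mod `3` level lowering from `4N` to `2N`, `N` odd
-/

set_option autoImplicit false
set_option linter.unusedSectionVars false

noncomputable section

open CongruenceSubgroup TensorProduct
open scoped MatrixGroups OnePoint

namespace Fermat.Agent.RT8.Two

open Fermat.Agent.LR Fermat.Agent.LR.PS Fermat.Agent.LR.EigenLift Fermat.Agent.LR.Asm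
  Fermat.Agent.LR.Core Fermat.Agent.RT Fermat.Agent.L9

theorem hop_mem_sgn {M ℓ : ℕ} (hℓ : ℓ.Prime) {x : Pairs ℤ} (hx : x ∈ sgnMS ℤ 1 (Gamma0 M)) :
    hop ℤ M ℓ x ∈ sgnMS ℤ 1 (Gamma0 M) := by
  rw [mem_sgnMS] at hx ⊢
  refine ⟨hop_mem hℓ hx.1, ?_⟩
  by_cases h : ℓ ∣ M
  · rw [hop_of_dvd h, ← heckeU_slash_jMat hx.1 hℓ.ne_zero, hx.2, map_smul]
  · rw [hop_of_not_dvd h, ← heckeT_slash_jMat hx.1 hℓ.ne_zero, hx.2, map_smul]

theorem slash_jMat_slash_jMat {R : Type*} [CommRing R] (x : Pairs R) :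
    slash jMat (slash jMat x) = x := by
  rw [← slash_mul]
  have : (jMat * jMat : GL (Fin 2) ℚ) = 1 := by
    apply Units.ext
    rw [Units.val_mul, val_jMat]
    ext i j; fin_cases i <;> fin_cases j <;> simp
  rw [this, slash_one]

theorem exists_toPairs_plus {N : ℕ} [NeZero N] {x : Pairs ℂ} (hx : x ∈ MS (Gamma0 N) ℂ) :
    ∃ u : ℂ ⊗[ℤ] (sgnMS ℤ 1 (Gamma0 N)), toPairs (sgnMS ℤ 1 (Gamma0 N)) u = x + slash jMat x := by
  have hfi : (Gamma0 N).FiniteIndex := (Gamma0_is_congruence N).finiteIndex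
  obtain ⟨n, w, y, -, hy, hxy⟩ := exists_int_decomp hx
  have hmem : ∀ i, y i + slash jMat (y i) ∈ sgnMS ℤ 1 (Gamma0 N) := fun i =>
    mem_sgnMS.mpr ⟨add_mem (hy i) (slash_jMat_mem (hy i)), by
      rw [map_add, slash_jMat_slash_jMat, Int.cast_one, one_smul, add_comm]⟩
  refine ⟨∑ i, w i ⊗ₜ (⟨y i + slash jMat (y i), hmem i⟩ : sgnMS ℤ 1 (Gamma0 N)), ?_⟩
  rw [map_sum, hxy, map_sum, ← Finset.sum_add_distrib]
  refine Finset.sum_congr rfl fun i _ => ?_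
  rw [toPairs_tmul, map_add, mapCoeff_slash, map_smul, smul_add]

/-- From an eigenform to a symbol in the plus part which is a mod `p` eigenvector. -/
theorem exists_mod_p_symbol_plus {p N : ℕ} (hp : p.Prime) (hN : 0 < N)
    (f : CuspForm (Gamma0 N) 2) (𝔪 : Ideal (integralClosure ℤ ℂ))
    (hf : f.IsNormalizedEigenform) (hmax : 𝔪.IsMaximal) (hpm : (p : integralClosure ℤ ℂ) ∈ 𝔪)
    (a : ℕ → ℤ) (I : Set ℕ) (hI : ∀ ℓ ∈ I, ℓ.Prime ∧ ¬ ℓ ∣ N)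
    (hcong : ∀ ℓ ∈ I, ∃ b : integralClosure ℤ ℂ, (b : ℂ) = ModularFormClass.qCoeff f ℓ ∧
      b - ((a ℓ : ℤ) : integralClosure ℤ ℂ) ∈ 𝔪) :
    ∃ v ∈ sgnMS ℤ 1 (Gamma0 N), (¬ ∃ w ∈ sgnMS ℤ 1 (Gamma0 N), v = (p : ℤ) • w) ∧
      ∀ ℓ ∈ I, ∃ w ∈ sgnMS ℤ 1 (Gamma0 N), heckeT ℓ v - a ℓ • v = (p : ℤ) • w := by
  have hN0 : NeZero N := ⟨hN.ne'⟩
  have hfi : (Gamma0 N).FiniteIndex := (Gamma0_is_congruence N).finiteIndex
  set H := sgnMS ℤ 1 (Gamma0 N) with hHdef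
  have hle : H ≤ MS (Gamma0 N) ℤ := inf_le_left
  have hH : ∀ ℓ : PrimeIdx, ∀ x ∈ H, hop ℤ N ℓ.1 x ∈ H := fun ℓ x hx => hop_mem_sgn ℓ.2 hx
  set t := opFam N H hH with ht
  have hcomm := opFam_commute hH hle
  have hfinH : Module.Finite ℤ H := finite_of_le hle
  have hfreeH : Module.Free ℤ H := free_of_le hle
  obtain ⟨u, hu⟩ := exists_toPairs_plus (perSym_mem f)
  have hu0 : u ≠ 0 := by
    intro h
    rw [h, map_zero] at hu
    have h1 := (eq_zero_of_isBoundary (N := N) f f (by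
      rw [← hu]
      exact ⟨0, fun _ _ _ => rfl, fun a b => by simp⟩)).1
    exact hf.ne_zero h1
  let lam : PrimeIdx → integralClosure ℤ ℂ := fun ℓ =>
    ⟨ModularFormClass.qCoeff f ℓ.1, EigenCharacter.isIntegral_qCoeff hf ℓ.2⟩
  have heig : ∀ ℓ : PrimeIdx, (t ℓ).baseChange ℂ u = (lam ℓ : ℂ) • u := by
    intro ℓ
    apply toPairs_injective (Γ := Gamma0 N) hle
    have e1 : hop ℂ N ℓ.1 (slash jMat (perSym N f)) = slash jMat (hop ℂ N ℓ.1 (perSym N f)) := by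
      by_cases h : ℓ.1 ∣ N
      · rw [hop_of_dvd h, heckeU_slash_jMat (perSym_mem f) ℓ.2.ne_zero]
      · rw [hop_of_not_dvd h, heckeT_slash_jMat (perSym_mem f) ℓ.2.ne_zero]
    rw [ht, toPairs_opFam, map_smul, hu, map_add, e1, hop_complex, symOp_perSym_eigenform hf ℓ.2,
      map_smul, smul_add]
  obtain ⟨v, hv, key⟩ := exists_mod_p_vector t hcomm hp hu0 (fun i => ⟨_, heig i⟩) 𝔪 hmax hpm
  refine ⟨v.1, v.2, ?_, fun ℓ hℓ => ?_⟩
  · rintro ⟨w, hw, hvw⟩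
    exact hv ⟨⟨w, hw⟩, Subtype.ext hvw⟩
  · obtain ⟨b, hb, hb'⟩ := hcong ℓ hℓ
    set i : PrimeIdx := ⟨ℓ, (hI ℓ hℓ).1⟩ with hi
    have hlam : lam i = b := Subtype.ext hb.symm
    obtain ⟨w, hw⟩ := key (t i - algebraMap ℤ (Module.End ℤ H) (a ℓ))
      (sub_mem (Algebra.subset_adjoin (Set.mem_range_self i)) (Subalgebra.algebraMap_mem _ _))
      (lam i - ((a ℓ : ℤ) : integralClosure ℤ ℂ)) (by
        have h2 : (algebraMap ℤ (Module.End ℤ H) (a ℓ)).baseChange ℂ =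
            algebraMap ℤ (Module.End ℂ (ℂ ⊗[ℤ] H)) (a ℓ) :=
          (Module.End.baseChangeHom ℤ ℂ H).commutes (a ℓ)
        rw [LinearMap.baseChange_sub, LinearMap.sub_apply, h2, heig, eq_intCast,
          Module.End.intCast_apply]
        change _ = ((lam i : ℂ) - (((a ℓ : ℤ) : integralClosure ℤ ℂ) : ℂ)) • u
        push_cast
        rw [sub_smul, Int.cast_smul_eq_zsmul]) (by rw [hlam]; exact hb')
    refine ⟨w.1, w.2, ?_⟩
    have h2 := congrArg Subtype.val hw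
    have h3 : (((t i - algebraMap ℤ (Module.End ℤ H) (a ℓ)) v : H) : Pairs ℤ) =
      hop ℤ N ℓ v.1 - a ℓ • v.1 := by
      rw [eq_intCast, LinearMap.sub_apply, Module.End.intCast_apply]
      rfl
    rw [hop_of_not_dvd (hI ℓ hℓ).2] at h3
    rw [← h3]
    exact h2

/-- **Mod `3` level lowering at `2`.** -/
theorem residual_two {W : WeierstrassCurve ℤ} (hΔ : W.Δ ≠ 0) (hirr : W.ModRepIsIrreducible 3)
    {N : ℕ} (hN : 0 < N) (h2N : ¬ 2 ∣ N) (hmod : W.IsResiduallyModularOfLevel 3 (4 * N))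
    {r : ℕ} (hr : r.Prime) (hr3 : r % 3 = 2) (hr2 : r ≠ 2) :
    W.IsResiduallyModularOfLevel 3 (2 * (N * r)) := by
  have h3F : Fact (Nat.Prime 3) := ⟨Nat.prime_three⟩
  set X := N * r with hXdef
  have hX0 : 0 < X := Nat.mul_pos hN hr.pos
  have hXne : NeZero X := ⟨hX0.ne'⟩
  have hX2 : ¬ 2 ∣ X := by
    intro h
    rcases (Nat.Prime.dvd_mul Nat.prime_two).mp h with h | h
    · exact h2N h
    · exact hr2 ((Nat.prime_dvd_prime_iff_eq Nat.prime_two hr).mp h).symm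
  have hmodX : W.IsResiduallyModularOfLevel 3 (4 * X) :=
    Oldform.isResiduallyModularOfLevel_of_dvd (by positivity) ⟨r, by rw [hXdef]; ring⟩ hmod
  obtain ⟨f, 𝔪, hf, hmax, h3m, hcong⟩ := hmodX
  set L : Set ℕ := {ℓ | ℓ.Prime ∧ W.IsGoodPrimeFor ℓ ∧ ¬ ℓ ∣ 3 * (4 * X)} with hLdef
  have hL : ∀ ℓ ∈ L, ℓ.Prime ∧ ¬ ℓ ∣ 4 * X ∧ ℓ ≠ 3 := by
    rintro ℓ ⟨hℓ, -, hn⟩
    exact ⟨hℓ, fun hd => hn (dvd_mul_of_dvd_right hd 3), by rintro rfl; exact hn (dvd_mul_right 3 _)⟩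
  obtain ⟨v, hv, hvnot, hvL⟩ := exists_mod_p_symbol_plus Nat.prime_three (N := 4 * X)
    (by positivity) f 𝔪 hf hmax h3m W.apOfModel L (fun ℓ hℓ => ⟨(hL ℓ hℓ).1, (hL ℓ hℓ).2.1⟩)
    (fun ℓ hℓ => hcong ℓ hℓ.1 hℓ.2.1 (hL ℓ hℓ).2.1 (hL ℓ hℓ).2.2)
  set φ := Int.castRingHom (ZMod 3) with hφ
  have hzero : ∀ w : Pairs ℤ, mapCoeff φ (((3 : ℕ) : ℤ) • w) = 0 := fun w => by
    funext c d
    simp only [mapCoeff_apply, Pi.smul_apply, smul_eq_mul, map_mul, Pi.zero_apply]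
    rw [map_natCast]
    rw [show ((3 : ℕ) : ZMod 3) = 0 from three_eq_zero_zmod, zero_mul]
  have hsm : ∀ (c : ℤ) (w : Pairs ℤ), mapCoeff φ (c • w) = (c : ZMod 3) • mapCoeff φ w :=
    fun c w => by
      funext d e
      simp only [mapCoeff_apply, Pi.smul_apply, smul_eq_mul, map_mul]
      rfl
  have hx0 : mapCoeff φ v ≠ 0 := fun h => by
    obtain ⟨w, hw, hvw⟩ := exists_div_of_mapCoeff (mem_sgnMS.mp hv).1 h
    refine hvnot ⟨w, mem_sgnMS.mpr ⟨hw, ?_⟩, hvw⟩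
    have h1 := (mem_sgnMS.mp hv).2
    rw [hvw, map_smul, Int.cast_one, one_smul] at h1
    rw [Int.cast_one, one_smul]
    exact smul_right_injective (Pairs ℤ) (by norm_num : (((3 : ℕ) : ℤ)) ≠ 0) h1
  have hxm : mapCoeff φ v ∈ sgnMS (ZMod 3) 1 (Gamma0 (4 * X)) := by
    rw [mem_sgnMS]
    refine ⟨mapCoeff_mem φ (mem_sgnMS.mp hv).1, ?_⟩
    rw [← mapCoeff_slash, (mem_sgnMS.mp hv).2, Int.cast_one, one_smul, Int.cast_one, one_smul]
  obtain ⟨y, hy, hy0, hyT⟩ := exists_level_two hX2 hr hr3 (Dvd.intro_left N rfl) L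
    (fun ℓ hℓ => ⟨(hL ℓ hℓ).1, (hL ℓ hℓ).2.1⟩) (fun ℓ => ((W.apOfModel ℓ : ℤ) : ZMod 3)) hxm hx0
    (fun ℓ hℓ => by
      obtain ⟨w, -, hw⟩ := hvL ℓ hℓ
      have h1 := congrArg (mapCoeff φ) hw
      rw [hzero, map_sub, mapCoeff_heckeT, hsm] at h1
      exact sub_eq_zero.mp h1)
  have h2X : NeZero (2 * X) := ⟨by positivity⟩
  have hfi : (Gamma0 (2 * X)).FiniteIndex := (Gamma0_is_congruence (2 * X)).finiteIndex
  have hrX : r ∣ 2 * X := dvd_mul_of_dvd_right (Dvd.intro_left N rfl) 2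
  obtain ⟨z, hz, hzy⟩ := exists_lift_mod_three (Γ := Gamma0 (2 * X)) (Core.neg_one_mem _)
    (U_inv_smul_ne hr hr3 hrX) hy
  have hL2 : ∀ ℓ ∈ L, ℓ.Prime ∧ ¬ ℓ ∣ 2 * X := fun ℓ hℓ => ⟨(hL ℓ hℓ).1, fun h =>
    (hL ℓ hℓ).2.1 (h.trans ⟨2, by ring⟩)⟩
  obtain ⟨g, 𝔪', hg, h𝔪', h3𝔪', hcong'⟩ := exists_eigenform_of_mod_p_symbol Nat.prime_three
    (M := 2 * X) (by positivity) (S21.result _).2 W.apOfModel L hL2 (by
      intro D hD
      obtain ⟨ℓ, hℓ, hℓS, hℓD, hgood, -, ha⟩ := GaloisInput.exists_prime_of_modRepIsIrreducible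
        hΔ Nat.prime_three (by norm_num) (GaloisInput.frobTraceInput W Nat.prime_three) hirr
        Nat.prime_two D hD (3 * (4 * X)).primeFactors
      exact ⟨ℓ, ⟨hℓ, hgood, fun h => hℓS (Nat.mem_primeFactors.mpr ⟨hℓ, h, by positivity⟩)⟩,
        hℓD, ha⟩) hz
    (by
      rintro ⟨w, -, hw⟩
      apply hy0
      rw [← hzy, hw, hzero])
    (fun ℓ hℓ => by
      refine exists_div_of_mapCoeff (sub_mem (heckeT_mem_MS (hL2 ℓ hℓ).1 (hL2 ℓ hℓ).2 hz)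
        ((MS (Gamma0 (2 * X)) ℤ).smul_mem _ hz)) ?_
      rw [map_sub, mapCoeff_heckeT, hsm, ← hφ, hzy, hyT ℓ hℓ, sub_self])
  refine ⟨g, 𝔪', hg, h𝔪', h3𝔪', fun ℓ hℓ hgood hn hℓ3 => hcong' ℓ ⟨hℓ, hgood, fun h => ?_⟩⟩
  rcases (Nat.Prime.dvd_mul hℓ).mp h with h | h
  · exact hℓ3 ((Nat.prime_dvd_prime_iff_eq hℓ Nat.prime_three).mp h)
  · rcases (Nat.Prime.dvd_mul hℓ).mp h with h | h
    · have h4 : ℓ ∣ 2 ^ 2 := h
      exact hn (dvd_mul_of_dvd_left (hℓ.dvd_of_dvd_pow h4) _)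
    · exact hn (dvd_mul_of_dvd_right h 2)

/-- Residual form at `2` for `p = 3`: the level becomes squarefree. -/
theorem lower_two {W : WeierstrassCurve ℤ} (hΔ : W.Δ ≠ 0) (hirr : W.ModRepIsIrreducible 3)
    {N : ℕ} (hN : Squarefree N) (h2N : ¬ 2 ∣ N) (hmod : W.IsResiduallyModularOfLevel 3 (4 * N)) :
    ∃ N' : ℕ, Squarefree N' ∧ W.IsResiduallyModularOfLevel 3 N' := by
  obtain ⟨r, hrN, hr, hr3⟩ := exists_aux_prime (N + 2)
  have hN0 : 0 < N := Nat.pos_of_ne_zero hN.ne_zero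
  have hr2 : r ≠ 2 := by omega
  refine ⟨2 * (N * r), ?_, residual_two hΔ hirr hN0 h2N hmod hr hr3 hr2⟩
  have hrN' : Nat.Coprime N r := ((Nat.Prime.coprime_iff_not_dvd hr).mpr fun h => by
    have := Nat.le_of_dvd hN0 h
    omega).symm
  have h2r : Nat.Coprime 2 (N * r) := Nat.Coprime.mul_right
    ((Nat.Prime.coprime_iff_not_dvd Nat.prime_two).mpr h2N)
    ((Nat.coprime_primes Nat.prime_two hr).mpr (Ne.symm hr2))
  rw [Nat.squarefree_mul h2r, Nat.squarefree_mul hrN']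
  exact ⟨Nat.prime_two.squarefree, hN, hr.squarefree⟩

end Fermat.Agent.RT8.Two
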