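import Fermat.Agent.RT8.LevelOpt
import Fermat.Agent.RT8.TwoMain
import Fermat.Agent.RT8.TameB

/-!
# RT8 (helper29): level optimisation from S38, S39, S36 and the odd case `L2Odd`
-/

set_option autoImplicit false

open Fermat.Agent.RT.Wiring Fermat.Agent.Descent

namespace Fermat.Agent.RT8

/-- The case `q = 2` of level lowering `q² → q`. -/
theorem l2Two (h36 : CMP.S58Assembly.S36Prop) : L2Two := by
  rintro p (rfl | rfl) W hΔ hss hirr N hN0 h2N - hN hres
  · exact Two.lower_two hΔ hirr hN h2N hres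
  · refine ⟨2 * N, ?_, TameA.residual_two h36 (by norm_num) (by norm_num) (by norm_num) hΔ hss hirr
      (Nat.pos_of_ne_zero hN0) h2N hres⟩
    rw [Nat.squarefree_mul ((Nat.Prime.coprime_iff_not_dvd Nat.prime_two).mpr h2N)]
    exact ⟨Nat.prime_two.squarefree, hN⟩

/-- **Level optimisation** from S38, S39, S36 and `L2Odd`. -/
theorem levelOpt (h38 : S38Prop) (h39 : S39Prop) (h36 : CMP.S58Assembly.S36Prop)
    (hodd : L2Odd) : LevelOpt :=
  levelOpt_of h38 h39 hodd (l2Two h36)

end Fermat.Agent.RT8
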