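import Fermat.Agent.RT8.LevelOpt
import Fermat.Agent.RT.Wiring.Top

/-!
# RT8 (helper29): S59 for squarefree residual levels

`s59sqf_of : S38Prop → S39Prop → MLT → S35Prop → S36Prop → S59Sqf`: the version of S59 where the
residual modularity is given at a *squarefree* level.  No residual form of Carayol's theorem is
needed.  This is the version used for S01 (residual modularity from route P2 and from the 3-5
switch, both of squarefree level).
-/

set_option autoImplicit false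

open Polynomial IsLocalRing CongruenceSubgroup ModularFormClass

namespace Fermat.Agent.RT8

open Fermat.Agent.CMP Fermat.Agent.CMP.S58Assembly Fermat.Agent.RT.Wiring Fermat.Agent.Descent

/-- S59 with a squarefree residual level. -/
def S59Sqf : Prop :=
  ∀ (p : ℕ) (_hp : p = 3 ∨ p = 5)
    (W : WeierstrassCurve ℤ) (_hΔ : W.Δ ≠ 0) (_hW : W.IsSemistableModel)
    (_hirr : W.ModRepIsIrreducible p)
    (M₀ : ℕ) (_hM₀ : Squarefree M₀) (_hres₀ : W.IsResiduallyModularOfLevel p M₀),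
    Mlc1IsModularModelOfExactConductorLevel W

theorem s59sqf_of_level (hLevel : LevelOptSqf) (hMLT : MLT) (h35 : S35Prop) (h36 : S36Prop) :
    S59Sqf := by
  intro p hp W hΔ hW hirr M₀ hM₀ hres₀
  have hprime : p.Prime := by
    rcases hp with rfl | rfl
    · exact Nat.prime_three
    · exact Nat.prime_five
  have hp2 : p ≠ 2 := by
    rcases hp with rfl | rfl <;> norm_num
  have hpf : Fact p.Prime := ⟨hprime⟩
  have hN1 : NeZero (Nmin W p) := ⟨(Nmin_pos hprime).ne'⟩
  have hN2 : NeZero (Nsig W p) := ⟨(Nsig_pos hprime).ne'⟩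
  have hres := hLevel p hprime hp2 W hΔ hW hirr M₀ hM₀ hres₀
  obtain ⟨𝒪, i1, i2, i3, i4, i5, i6, i7, i8, i9, hinj, hpO, hζ, χ₀, hχ₀⟩ :=
    exists_base p W hres (Sbad W p) p_mem_Sbad fun q hq h => (mem_Sbad hΔ).mpr (Or.inr ⟨hq, h⟩)
  obtain ⟨χ, hχ⟩ := hMLT p hp W hΔ hW hirr 𝒪 hpO hζ χ₀ hχ₀
  exact mlc1_of_char h35 h36 hW hΔ p hp2 hirr (not_sq_p_dvd_Nsig hprime)
    (fun q hq => not_cube_dvd_Nsig hprime hq) (Sbad W p)
    (fun ℓ hℓ h => mem_Sbad_of_dvd_Nsig hprime hℓ h) χ hχ

theorem s59sqf_of (h38 : S38Prop) (h39 : S39Prop) (hMLT : MLT) (h35 : S35Prop)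
    (h36 : S36Prop) : S59Sqf :=
  s59sqf_of_level (levelOptSqf_of h38 h39) hMLT h35 h36

end Fermat.Agent.RT8
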