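import Fermat.Agent.RT8.Final
import Fermat.Agent.RT8.OldFinal
import Fermat.Agent.DR.S36.Final

/-!
# Level optimisation from S38 and S39 only
-/

set_option autoImplicit false

namespace Fermat.Agent.RT8

open Fermat.Agent.Descent

/-- **Level optimisation** from S38 and S39. -/
theorem levelOptFull (h38 : S38Prop) (h39 : S39Prop) : RT.Wiring.LevelOpt :=
  levelOpt h38 h39 DR.S36.s36Prop l2Odd

end Fermat.Agent.RT8
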