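import Fermat.Agent.RT.Wiring.Levels
import Fermat.Agent.Descent.Modular
import Fermat.Agent.LOC.TateRam
import Fermat.Agent.Oldform

/-!
# RT8 (helper29): level optimisation, bookkeeping

* `levelOptSqf_of (h38) (h39) : LevelOptSqf` : from a residually modular semistable curve of
  *squarefree* level to the minimal level `Nmin W p`.  This is enough for S01.
* `levelOpt_of (h38) (h39) (hodd : L2Odd) (htwo : L2Two) : LevelOpt` : the general case.
-/

set_option autoImplicit false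

open WeierstrassCurve WeierstrassCurve.Affine WeierstrassCurve.Affine.Point
open Fermat.Agent.RT.Wiring Fermat.Agent.Descent

namespace Fermat.Agent.RT8

/-- Level optimisation from a squarefree level. -/
def LevelOptSqf : Prop :=
  ∀ (p : ℕ), p.Prime → p ≠ 2 → ∀ W : WeierstrassCurve ℤ, W.Δ ≠ 0 → W.IsSemistableModel →
    W.ModRepIsIrreducible p → ∀ M₀ : ℕ, Squarefree M₀ → W.IsResiduallyModularOfLevel p M₀ →
    W.IsResiduallyModularOfLevel p (Nmin W p)

/-- Residual form of Carayol's theorem at an odd prime `q ≠ p`; the level is divisible by `4`. -/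
def L2Odd : Prop :=
  ∀ (p : ℕ), p = 3 ∨ p = 5 → ∀ W : WeierstrassCurve ℤ, W.Δ ≠ 0 → W.IsSemistableModel →
    W.ModRepIsIrreducible p → ∀ (q : ℕ), q.Prime → q ≠ p → q ≠ 2 → ∀ (N : ℕ), N ≠ 0 → ¬ q ∣ N →
    4 ∣ N → ¬ p ^ 2 ∣ N →
    W.IsResiduallyModularOfLevel p (q ^ 2 * N) → W.IsResiduallyModularOfLevel p (q * N)

/-- Residual form of Carayol's theorem at `2` (with possible auxiliary primes in the level). -/
def L2Two : Prop :=
  ∀ (p : ℕ), p = 3 ∨ p = 5 → ∀ W : WeierstrassCurve ℤ, W.Δ ≠ 0 → W.IsSemistableModel →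
    W.ModRepIsIrreducible p → ∀ (N : ℕ), N ≠ 0 → ¬ 2 ∣ N → ¬ p ^ 2 ∣ N → Squarefree N →
    W.IsResiduallyModularOfLevel p (4 * N) →
      ∃ N' : ℕ, Squarefree N' ∧ W.IsResiduallyModularOfLevel p N'

/-- One step of level lowering. -/
theorem lower_step (h38 : S38Prop) (h39 : S39Prop) {p : ℕ} (hp : p.Prime) (hp2 : p ≠ 2)
    {W : WeierstrassCurve ℤ} (hΔ : W.Δ ≠ 0) (hss : W.IsSemistableModel)
    (hirr : W.ModRepIsIrreducible p) {N : ℕ} (hN : Squarefree N)
    (hmod : W.IsResiduallyModularOfLevel p N) {q : ℕ} (hq : q.Prime) (hqN : q ∣ N)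
    (hqm : ¬ q ∣ Nmin W p) : W.IsResiduallyModularOfLevel p (N / q) := by
  have hpF : Fact p.Prime := ⟨hp⟩
  have hell := EllTorsion.isElliptic_map_of_Δ_ne_zero hΔ
  have hac : Algebra.IsAlgebraic ℚ (AlgebraicClosure ℚ) := EllTorsion.isAlgClosure_rat.isAlgebraic
  have hcard : Nat.card (Submodule.torsionBy ℤ
      ((W.map (Int.castRingHom ℚ))⁄(AlgebraicClosure ℚ)).Point p) = p ^ 2 :=
    EllTorsion.card_torsionBy_rat _ hp.ne_zero
  have hker := EllTorsion.galoisRepModuleEnd_factorsThroughFiniteLevel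
    (W.map (Int.castRingHom ℚ)) hp.ne_zero
  have hN0 : N ≠ 0 := hN.ne_zero
  have hqq : ¬ q ^ 2 ∣ N := fun h => by
    have := hN q (by rwa [sq] at h)
    exact hq.one_lt.ne' (Nat.isUnit_iff.mp this)
  rw [dvd_Nmin_iff hp hq, mem_Sram hΔ, not_or] at hqm
  have hdvd : p ∣ padicValInt q W.Δ := by
    by_cases hqΔ : (q : ℤ) ∣ W.Δ
    · by_cases hqp : q = p
      · subst hqp
        by_contra hcon
        exact hqm.1 ⟨rfl, hqΔ, hcon⟩
      · by_contra hcon
        exact hqm.2 ⟨hq, hqΔ, hqp, hcon⟩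
    · rw [padicValInt.eq_zero_of_not_dvd hqΔ]
      exact dvd_zero p
  by_cases hqp : q = p
  · subst hqp
    refine h39 W hΔ hq hp2 hss hirr ?_ (Nat.pos_of_ne_zero hN0) hqN hqq hmod
    have h2 : padicValRat q (W.map (Int.castRingHom ℚ)).Δ = padicValInt q W.Δ := by
      rw [WeierstrassCurve.map_Δ]
      exact padicValRat.of_int
    rw [WeierstrassCurve.IsPeuRamifieeAt, h2]
    exact_mod_cast hdvd
  · refine h38 p hp2 W hΔ hss hcard hker hirr N q hq hqp hqN hqq hN ?_ hmod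
    have hur : GaloisRepUnramifiedAt ℚ (AlgebraicClosure ℚ) (W.map (Int.castRingHom ℚ)) p q :=
      galoisRepUnramifiedAt_of_dvd W hΔ hq (fun h => hss q hq h)
        (fun h => hqp ((Nat.prime_dvd_prime_iff_eq hq hp).mp h)) hdvd
    intro V hV σ hσ
    exact LinearMap.ext fun x => hur V hV σ hσ x

/-- **Level optimisation from a squarefree level**, from S38 and S39. -/
theorem levelOptSqf_of (h38 : S38Prop) (h39 : S39Prop) : LevelOptSqf := by
  intro p hp hp2 W hΔ hss hirr M₀ hM₀ hres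
  induction M₀ using Nat.strong_induction_on with
  | _ N ih =>
  have hN0 : N ≠ 0 := hM₀.ne_zero
  by_cases hex : ∃ q : ℕ, q.Prime ∧ q ∣ N ∧ ¬ q ∣ Nmin W p
  · obtain ⟨q, hq, hqN, hqm⟩ := hex
    exact ih (N / q) (Nat.div_lt_self (Nat.pos_of_ne_zero hN0) hq.one_lt)
      (hM₀.squarefree_of_dvd (Nat.div_dvd_of_dvd hqN))
      (lower_step h38 h39 hp hp2 hΔ hss hirr hM₀ hres hq hqN hqm)
  · push Not at hex
    have hdvd : N ∣ Nmin W p := by
      rw [← Nat.prod_primeFactors_of_squarefree hM₀]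
      exact Finset.prod_primes_dvd _ (fun q hq => (Nat.prime_of_mem_primeFactors hq).prime)
        fun q hq => hex q (Nat.prime_of_mem_primeFactors hq) (Nat.dvd_of_mem_primeFactors hq)
    exact Oldform.isResiduallyModularOfLevel_of_dvd (Nmin_pos hp).ne' hdvd hres

/-- Removing the squares of the odd primes `q ≠ p` from a level with `4 ∥ M`. -/
theorem remove_odd (hodd : L2Odd) {p : ℕ} (hp : p = 3 ∨ p = 5) {W : WeierstrassCurve ℤ}
    (hΔ : W.Δ ≠ 0) (hss : W.IsSemistableModel) (hirr : W.ModRepIsIrreducible p) :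
    ∀ M : ℕ, M ≠ 0 → 4 ∣ M → ¬ 8 ∣ M → ¬ p ^ 2 ∣ M → (∀ q : ℕ, q.Prime → q ≠ p → ¬ q ^ 3 ∣ M) →
      W.IsResiduallyModularOfLevel p M →
      ∃ N : ℕ, Squarefree N ∧ ¬ 2 ∣ N ∧ W.IsResiduallyModularOfLevel p (4 * N) := by
  have hpp : p.Prime := by rcases hp with rfl | rfl <;> norm_num
  have hp2 : p ≠ 2 := by rcases hp with rfl | rfl <;> norm_num
  intro M
  induction M using Nat.strong_induction_on with
  | _ M ih =>
  intro hM0 h4 h8 hpM hcube hres
  by_cases hex : ∃ q : ℕ, q.Prime ∧ q ≠ 2 ∧ q ≠ p ∧ q ^ 2 ∣ M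
  · obtain ⟨q, hq, hq2, hqp, hqM⟩ := hex
    obtain ⟨N, rfl⟩ := hqM
    have hN0 : N ≠ 0 := fun h => hM0 (by rw [h, mul_zero])
    have hqN : ¬ q ∣ N := by
      rintro ⟨k, rfl⟩
      exact hcube q hq hqp ⟨k, by ring⟩
    have hcop : Nat.Coprime 2 q := (Nat.coprime_primes Nat.prime_two hq).mpr (Ne.symm hq2)
    have h4N : 4 ∣ N := by
      have hc : Nat.Coprime 4 (q ^ 2) := by
        have := (hcop.pow 2 2)
        simpa using this
      exact hc.dvd_of_dvd_mul_left h4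
    have hpN : ¬ p ^ 2 ∣ N := fun h => hpM (Dvd.dvd.mul_left h _)
    have hres' := hodd p hp W hΔ hss hirr q hq hqp hq2 N hN0 hqN h4N hpN hres
    have hdvd : q * N ∣ q ^ 2 * N := ⟨q, by ring⟩
    refine ih (q * N) ?_ (mul_ne_zero hq.ne_zero hN0) (Dvd.dvd.mul_left h4N _)
      (fun h => h8 (h.trans hdvd)) (fun h => hpM (h.trans hdvd))
      (fun r hr hrp h => hcube r hr hrp (h.trans hdvd)) hres'
    have hNpos := Nat.pos_of_ne_zero hN0
    have h1 : 1 < q := hq.one_lt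
    nlinarith [Nat.mul_pos hq.pos hNpos]
  · push Not at hex
    obtain ⟨N, rfl⟩ := h4
    have hN0 : N ≠ 0 := fun h => hM0 (by rw [h, mul_zero])
    have h2N : ¬ 2 ∣ N := by
      rintro ⟨k, rfl⟩
      exact h8 ⟨k, by ring⟩
    refine ⟨N, ?_, h2N, hres⟩
    rw [Nat.squarefree_iff_prime_squarefree]
    intro q hq h
    rw [← sq] at h
    have h' : q ^ 2 ∣ 4 * N := Dvd.dvd.mul_left h _
    by_cases hq2 : q = 2
    · subst hq2
      exact h2N ((dvd_pow_self 2 two_ne_zero).trans h)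
    · by_cases hqp : q = p
      · subst hqp; exact hpM h'
      · exact hex q hq hq2 hqp h'

/-- **Level optimisation**, from S38, S39 and the two residual forms of Carayol's theorem. -/
theorem levelOpt_of (h38 : S38Prop) (h39 : S39Prop) (hodd : L2Odd) (htwo : L2Two) : LevelOpt := by
  intro p hp W hΔ hss hirr M₀ hM₀0 hres hpM hcube
  have hpp : p.Prime := by rcases hp with rfl | rfl <;> norm_num
  have hp2 : p ≠ 2 := by rcases hp with rfl | rfl <;> norm_num
  have hM0 : M₀ ≠ 0 := NeZero.ne M₀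
  -- raise the level at `2`
  set M₁ := Nat.lcm M₀ 4 with hM₁
  have hM₁0 : M₁ ≠ 0 := Nat.lcm_ne_zero hM0 (by norm_num)
  have hres₁ : W.IsResiduallyModularOfLevel p M₁ :=
    Oldform.isResiduallyModularOfLevel_of_dvd hM₁0 (Nat.dvd_lcm_left _ _) hres
  have hfac : ∀ r : ℕ, M₁.factorization r = max (M₀.factorization r) ((4 : ℕ).factorization r) := by
    intro r
    rw [hM₁, Nat.factorization_lcm hM0 (by norm_num)]
    rfl
  have h4f : ∀ r : ℕ, (4 : ℕ).factorization r = if r = 2 then 2 else 0 := by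
    intro r
    rw [show (4 : ℕ) = 2 ^ 2 by norm_num, Nat.Prime.factorization_pow Nat.prime_two,
      Finsupp.single_apply]
    simp only [eq_comm]
  have hcube₁ : ∀ q : ℕ, q.Prime → q ≠ p → ¬ q ^ 3 ∣ M₁ := by
    intro q hq hqp
    rw [hq.pow_dvd_iff_le_factorization hM₁0, hfac, h4f]
    have := mt (hq.pow_dvd_iff_le_factorization hM0).mpr (hcube q hq hqp)
    split_ifs <;> omega
  have hpM₁ : ¬ p ^ 2 ∣ M₁ := by
    rw [hpp.pow_dvd_iff_le_factorization hM₁0, hfac, h4f, if_neg hp2]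
    have := mt (hpp.pow_dvd_iff_le_factorization hM0).mpr hpM
    omega
  have h8 : ¬ 8 ∣ M₁ := by
    have := hcube₁ 2 Nat.prime_two (Ne.symm hp2)
    simpa using this
  obtain ⟨N, hN, h2N, hres₂⟩ := remove_odd hodd hp hΔ hss hirr M₁ hM₁0 (Nat.dvd_lcm_right _ _) h8
    hpM₁ hcube₁ hres₁
  have hpN : ¬ p ^ 2 ∣ N := fun h => by
    have := hN p (by rwa [sq] at h)
    exact hpp.one_lt.ne' (Nat.isUnit_iff.mp this)
  obtain ⟨N', hN', hres₃⟩ := htwo p hp W hΔ hss hirr N hN.ne_zero h2N hpN hN hres₂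
  exact levelOptSqf_of h38 h39 p hpp hp2 W hΔ hss hirr N' hN' hres₃

end Fermat.Agent.RT8
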