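import Fermat.Agent.DR.Mono.SpecInertia
import Fermat.Agent.DR.Nodal.Count

/-!
# RT8: the inputs of level `qN` for the surjectivity statements (`LevelOne`)

`X` is the nodal datum of level `qN`, `F₀` the field of functions rational over the inertia
field, `G` the group of semilinear automorphisms given by the inertia group.
-/

set_option autoImplicit false

noncomputable section

open AlgebraicCurve Fermat.Agent.RR Fermat.Agent.JRED

namespace Fermat.Agent.RT8

open Fermat.Agent.DR Fermat.Agent.DR.Mono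

variable {K F k F₁ F₂ : Type*} [Field K] [Field F] [Algebra K F] [Field k] [Field F₁] [Field F₂]
  [Algebra k F₁] [Algebra k F₂] [IsAlgClosed K] [IsAlgClosed k] [FunctionField K F]
  [FunctionField k F₁] [FunctionField k F₂] {A : ValuationSubring K} {π : A →+* k}

/-- The inputs of level `qN`. -/
structure LOInst (X : NodalDatum K F k F₁ F₂ A π) (q m : ℕ) (F₀ : Subfield F) where
  hπ : Function.Surjective π
  arch : Arch π
  hq : q.Prime
  charP : CharP k q
  hmk : (m : k) ≠ 0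
  /-- the inertia group acting on `F` -/
  G : Subgroup (SemilinearAut K F)
  inert : ∀ g ∈ G, InertiaAut X.R₁ X.R₂ g
  poles : ∀ g ∈ G, g • polesOf (K := K) X.x = polesOf (K := K) X.x
  mem_F₀ : ∀ f : F, f ∈ F₀ ↔ ∀ g ∈ G, g • f = f
  disc₁ : DiscData X.R₁ F₀ (q : K)
  disc₂ : DiscData X.R₂ F₀ (q : K)
  /-- nodes with coordinates of width one -/
  nd : ∀ s ∈ X.nodes, Node X.R₁ X.R₂ q
  nd₁ : ∀ s (hs : s ∈ X.nodes), (nd s hs).s₁ = s.1
  nd₂ : ∀ s (hs : s ∈ X.nodes), (nd s hs).s₂ = s.2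
  ann : ∀ s (hs : s ∈ X.nodes), ∀ g ∈ G, ∀ P ∈ (nd s hs).Ann, g • P ∈ (nd s hs).Ann
  pf_x : ∀ s (hs : s ∈ X.nodes), PF (nd s hs).Ann X.x
  C : ∀ s (hs : s ∈ X.nodes), Coord (nd s hs).toPlacePair (q : K)
  C_mem : ∀ s (hs : s ∈ X.nodes), (C s hs).y ∈ F₀
  C_w : ∀ s (hs : s ∈ X.nodes), (C s hs).w = 1
  /-- a class fixed by `G` contains a divisor fixed by `G` -/
  fixedDiv : ∀ x : Pic0 K F, (∀ g ∈ G, g • x = x) →
    ∃ D : Divisor.degZero (K := K) (F := F), Pic0.mk D = x ∧ ∀ g ∈ G, g • (D : Divisor K F) = D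
  /-- a principal divisor fixed by `G` is the divisor of a function in `F₀` -/
  fixedFun : ∀ D : Divisor K F, (∀ g ∈ G, g • D = D) → D.IsPrincipal →
    ∃ f ∈ F₀, f ≠ 0 ∧ ∀ P, D P = P.ord f
  /-- every pair of functions is the reduction of an element of `F₀` -/
  lift : ∀ u : F₁ × F₂, ∃ f ∈ F₀, Red₂ X.R₁ X.R₂ f u
  hJ : m ^ (2 * genusFF K F) ≤ Nat.card (Pic0.torsion K F m)
  h₁ : Nat.card (Pic0.torsion k F₁ m) = m ^ (2 * genusFF k F₁)
  h₂ : Nat.card (Pic0.torsion k F₂ m) = m ^ (2 * genusFF k F₂)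

end Fermat.Agent.RT8
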