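import Fermat.Agent.DR.Nodal.Count
import Fermat.Agent.DR.S35.TorsionLift

/-!
# `#Pic⁰(F)[m] = m ^ (2 g)` for general `m`
-/

set_option autoImplicit false

noncomputable section

open AlgebraicCurve Fermat.Agent.RR Fermat.Agent.JRED

namespace Fermat.Agent.RT8

section Group

variable {M : Type*} [AddCommGroup M]

/-- `M[ab] ≃ M[a] × M[b]` for coprime `a`, `b`. -/
theorem natCard_nsmul_coprime {a b : ℕ} (h : a.Coprime b) :
    Nat.card {x : M // (a * b) • x = 0} =
      Nat.card {x : M // a • x = 0} * Nat.card {x : M // b • x = 0} := by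
  rw [← Nat.card_prod]
  have hbez : (a : ℤ) * Int.gcdA a b + (b : ℤ) * Int.gcdB a b = 1 := by
    have h1 := Int.gcd_eq_gcd_ab (a : ℤ) b
    rw [Int.gcd_natCast_natCast, h.gcd_eq_one] at h1
    exact_mod_cast h1.symm
  obtain ⟨u, hu⟩ : ∃ u, u = Int.gcdA a b := ⟨_, rfl⟩
  obtain ⟨v, hv⟩ : ∃ v, v = Int.gcdB a b := ⟨_, rfl⟩
  rw [← hu, ← hv] at hbez
  have hz : ∀ (n : ℕ) (x : M), n • x = (n : ℤ) • x := fun n x => (natCast_zsmul x n).symm
  have key : ∀ y z : M, a • y = 0 → b • z = 0 → b • (v • y + u • z) = y ∧ a • (v • y + u • z) = z := by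
    intro y z hy hz'
    rw [hz] at hy hz'
    rw [hz, hz, smul_add, smul_add]
    have e1 : ((b : ℤ) • v • y) = y := by
      have : ((b : ℤ) * v) • y = y := by
        have h2 : (b : ℤ) * v = 1 - u * a := by linarith
        rw [h2, sub_smul, one_smul, mul_smul, hy, smul_zero, sub_zero]
      rwa [mul_smul] at this
    have e2 : ((b : ℤ) • u • z) = 0 := by rw [smul_comm, hz', smul_zero]
    have e3 : ((a : ℤ) • v • y) = 0 := by rw [smul_comm, hy, smul_zero]
    have e4 : ((a : ℤ) • u • z) = z := by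
      have : ((a : ℤ) * u) • z = z := by
        have h2 : (a : ℤ) * u = 1 - v * b := by linarith
        rw [h2, sub_smul, one_smul, mul_smul, hz', smul_zero, sub_zero]
      rwa [mul_smul] at this
    rw [e1, e2, e3, e4, add_zero, zero_add]
    exact ⟨rfl, rfl⟩
  refine Nat.card_congr ⟨fun x => (⟨b • x.1, by rw [← mul_smul]; exact x.2⟩,
    ⟨a • x.1, by rw [← mul_smul, mul_comm]; exact x.2⟩),
    fun p => ⟨v • p.1.1 + u • p.2.1, ?_⟩, ?_, ?_⟩
  · rw [mul_smul, (key _ _ p.1.2 p.2.2).1, p.1.2]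
  · rintro ⟨x, hx⟩
    apply Subtype.ext
    show v • b • x + u • a • x = x
    rw [hz, hz, ← mul_smul, ← mul_smul, ← add_smul]
    have : v * b + u * a = 1 := by linarith
    rw [this, one_smul]
  · rintro ⟨⟨y, hy⟩, ⟨z, hz'⟩⟩
    have := key y z hy hz'
    exact Prod.ext (Subtype.ext this.1) (Subtype.ext this.2)

end Group

section Pic

variable {K F : Type*} [Field K] [Field F] [Algebra K F]

theorem natCard_torsion_eq (m : ℕ) :
    Nat.card (Pic0.torsion K F m) = Nat.card {x : Pic0 K F // m • x = 0} :=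
  Nat.card_congr (Equiv.subtypeEquivRight fun _ => Fermat.Agent.DR.mem_torsion')

/-- The number of `m`-torsion classes from the prime power case. -/
theorem natCard_torsion_of_primePow {g : ℕ} (m : ℕ) (hm : m ≠ 0)
    (h : ∀ p n : ℕ, p.Prime → p ∣ m → Nat.card (Pic0.torsion K F (p ^ n)) = p ^ (2 * g * n)) :
    Nat.card (Pic0.torsion K F m) = m ^ (2 * g) := by
  induction m using Nat.recOnPosPrimePosCoprime with
  | prime_pow p n hp hn =>
    rw [h p n hp (dvd_pow_self p hn.ne'), ← pow_mul, mul_comm n]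
  | zero => exact absurd rfl hm
  | one =>
    rw [one_pow, natCard_torsion_eq]
    have : Unique {x : Pic0 K F // 1 • x = 0} :=
      ⟨⟨⟨0, smul_zero _⟩⟩, fun x => Subtype.ext (by have := x.2; rwa [one_smul] at this)⟩
    exact Nat.card_unique
  | coprime a b ha hb hab iha ihb =>
    have iha' := iha (by omega) fun p n hp hpa => h p n hp (hpa.mul_right b)
    have ihb' := ihb (by omega) fun p n hp hpb => h p n hp (hpb.mul_left a)
    rw [natCard_torsion_eq] at iha' ihb' ⊢
    rw [natCard_nsmul_coprime hab, iha', ihb', mul_pow]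

end Pic

section Residue

open Fermat.Agent.DR.S35

local notation "Qbar" => AlgebraicClosure ℚ

variable {A : ValuationSubring Qbar} {k : Type} [Field k] {π : A →+* k} {q : ℕ}

theorem natCard_torsion_res (hπ : Function.Surjective π) (hq : q.Prime)
    (hA : A.LiesOverPrime q) [CharP k q] [IsAlgClosed k] (F : Type*) [Field F] [Algebra k F]
    [FunctionField k F] {m : ℕ} (hm : (m : k) ≠ 0) :
    Nat.card (Pic0.torsion k F m) = m ^ (2 * genusFF k F) := by
  refine natCard_torsion_of_primePow m (fun h => hm (by rw [h, Nat.cast_zero]))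
    fun p n hp hpm => card_torsion_res hπ hq hA F hp (fun h => hm ?_) n
  rw [CharP.cast_eq_zero_iff k q, ← h]
  exact hpm

theorem natCard_torsion_bar (F : Type*) [Field F] [Algebra Qbar F]
    [FunctionField Qbar F] {m : ℕ} (hm : m ≠ 0) :
    Nat.card (Pic0.torsion Qbar F m) = m ^ (2 * genusFF Qbar F) :=
  natCard_torsion_of_primePow m hm fun _ n hp _ => card_torsion_bar F hp n

end Residue

end Fermat.Agent.RT8
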