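import Fermat.Agent.RT8.LOInst
import Fermat.Agent.RT8.TorsCard
import Fermat.Agent.DR.Mod.SepMod
import Fermat.Agent.DR.Mod.SpanF0
import Fermat.Agent.DR.S36.SSUnit

/-!
# RT8: the modular instance of `LOInst`
-/

set_option autoImplicit false
set_option linter.unusedSectionVars false

noncomputable section

open AlgebraicCurve Fermat.Agent.RR Fermat.Agent.JRED ModularCurve IntermediateField

namespace Fermat.Agent.RT8

open Fermat.Agent.DR Fermat.Agent.DR.Mono Fermat.Agent.DR.Mod Fermat.Agent.DR.S36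
  Fermat.Agent.DR.S36.L Fermat.Agent.DR.ModGal
open Fermat.Agent.JRED.ESGalois Fermat.Agent.JRED.ESSemi Fermat.Agent.JAN.AnFun Fermat.Agent.DR.Mod2
  Fermat.Agent.Q2.Ord Fermat.Agent.DR.S36.Unit

section Abstract

variable {K F k F₁ F₂ : Type*} [Field K] [Field F] [Algebra K F] [Field k] [Field F₁] [Field F₂]
  [Algebra k F₁] [Algebra k F₂] [IsAlgClosed K] [IsAlgClosed k] [FunctionField K F]
  [FunctionField k F₁] [FunctionField k F₂] {A : ValuationSubring K} {π : A →+* k}

/-- `LOInst` from data for reductions `R₁`, `R₂` propositionally equal to those of `X`. -/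
theorem nonempty_loInst (X : NodalDatum K F k F₁ F₂ A π) (q m : ℕ) (F₀ : Subfield F)
    (R₁ : RedDatum K F k F₁ A π) (R₂ : RedDatum K F k F₂ A π) (e₁ : R₁ = X.R₁) (e₂ : R₂ = X.R₂)
    (hπ : Function.Surjective π) (arch : Arch π) (hq : q.Prime) (charP : CharP k q)
    (hmk : (m : k) ≠ 0) (G : Subgroup (SemilinearAut K F))
    (inert : ∀ g ∈ G, InertiaAut R₁ R₂ g)
    (poles : ∀ g ∈ G, g • polesOf (K := K) X.x = polesOf (K := K) X.x)
    (mem_F₀ : ∀ f : F, f ∈ F₀ ↔ ∀ g ∈ G, g • f = f)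
    (disc₁ : DiscData R₁ F₀ (q : K)) (disc₂ : DiscData R₂ F₀ (q : K))
    (nd : ∀ s ∈ X.nodes, Node R₁ R₂ q)
    (nd₁ : ∀ s (hs : s ∈ X.nodes), (nd s hs).s₁ = s.1)
    (nd₂ : ∀ s (hs : s ∈ X.nodes), (nd s hs).s₂ = s.2)
    (ann : ∀ s (hs : s ∈ X.nodes), ∀ g ∈ G, ∀ P ∈ (nd s hs).Ann, g • P ∈ (nd s hs).Ann)
    (pf_x : ∀ s (hs : s ∈ X.nodes), PF (nd s hs).Ann X.x)
    (C : ∀ s (hs : s ∈ X.nodes), ∃ C : Coord (nd s hs).toPlacePair (q : K), C.y ∈ F₀ ∧ C.w = 1)
    (fixedDiv : ∀ x : Pic0 K F, (∀ g ∈ G, g • x = x) →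
      ∃ D : Divisor.degZero (K := K) (F := F), Pic0.mk D = x ∧ ∀ g ∈ G, g • (D : Divisor K F) = D)
    (fixedFun : ∀ D : Divisor K F, (∀ g ∈ G, g • D = D) → D.IsPrincipal →
      ∃ f ∈ F₀, f ≠ 0 ∧ ∀ P, D P = P.ord f)
    (lift : ∀ u : F₁ × F₂, ∃ f ∈ F₀, Red₂ X.R₁ X.R₂ f u)
    (hJ : m ^ (2 * genusFF K F) ≤ Nat.card (Pic0.torsion K F m))
    (h₁ : Nat.card (Pic0.torsion k F₁ m) = m ^ (2 * genusFF k F₁))
    (h₂ : Nat.card (Pic0.torsion k F₂ m) = m ^ (2 * genusFF k F₂)) :
    ∃ I : LOInst X q m F₀, ∀ s (hs : s ∈ X.nodes), (I.nd s hs).Ann = (nd s hs).Ann := by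
  subst e₁ e₂
  refine ⟨{
    hπ := hπ, arch := arch, hq := hq, charP := charP, hmk := hmk, G := G, inert := inert
    poles := poles, mem_F₀ := mem_F₀, disc₁ := disc₁, disc₂ := disc₂, nd := nd, nd₁ := nd₁
    nd₂ := nd₂, ann := ann, pf_x := pf_x
    C := fun s hs => (C s hs).choose
    C_mem := fun s hs => (C s hs).choose_spec.1
    C_w := fun s hs => (C s hs).choose_spec.2
    fixedDiv := fixedDiv, fixedFun := fixedFun, lift := lift, hJ := hJ, h₁ := h₁, h₂ := h₂ },
    fun _ _ => rfl⟩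

end Abstract

section Modular

variable {A : ValuationSubring (AlgebraicClosure ℚ)} {k : Type} [Field k] {π : A →+* k}
  {M q : ℕ} [NeZero M] [hq : Fact q.Prime] [IsAlgClosed k] [hchar : CharP k q]
  {w : laurentBaseChange (AlgebraicClosure ℚ) (modularFunctionFieldFull (M * q)) ≃ₐ[AlgebraicClosure ℚ]
      laurentBaseChange (AlgebraicClosure ℚ) (modularFunctionFieldFull (M * q))}
  [FunctionField (AlgebraicClosure ℚ) (modularFunctionFieldBar (M * q))]
  [FunctionField (AlgebraicClosure ℚ) (modularFunctionFieldBar M)]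
  [FunctionField k (modularFunctionFieldFullC k M)]
  {r : Place (AlgebraicClosure ℚ) (modularFunctionFieldBar M) →
    Place k (modularFunctionFieldFullC k M)}
  (S : Setup π w) (hqM : ¬ q ∣ M) (hdeg : DegreeInput M k)
  (hgood : GoodReduction M k) (hr : PlaceRed (hdeg.redDatum S.surj) r)
  {X : NodalDatum (AlgebraicClosure ℚ) (modularFunctionFieldBar (M * q)) k
      (modularFunctionFieldFullC k M) (modularFunctionFieldFullC k M) A π}

variable (A M q) in
/-- The inertia group acting on the function field. -/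
def inertiaG : Subgroup (SemilinearAut (AlgebraicClosure ℚ) (modularFunctionFieldBar (M * q))) :=
  (A.inertiaSubgroupIn ℚ).map (arithmeticGalois (modularFunctionFieldFull (M * q)))

theorem mem_inertiaG {g : SemilinearAut (AlgebraicClosure ℚ) (modularFunctionFieldBar (M * q))} :
    g ∈ inertiaG A M q ↔ ∃ σ ∈ A.inertiaSubgroupIn ℚ,
      arithmeticGalois (modularFunctionFieldFull (M * q)) σ = g := Iff.rfl

include hqM hdeg hgood hr in
/-- Coordinates of width one at the nodes. -/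
theorem exists_coord_width_one (hM : Rigid M) (hA : A.LiesOverPrime q)
    (hX : IsModularNodal S X) (L : Type) [Field L] [Algebra L (AlgebraicClosure ℚ)]
    [IsInertiaField A L]
    {s : Place k (modularFunctionFieldFullC k M) × Place k (modularFunctionFieldFullC k M)}
    (hs : s ∈ X.nodes) :
    ∃ C : Coord ((modMono S hqM hdeg hgood hr).pair s.1) (q : AlgebraicClosure ℚ),
      C.y ∈ F0 L (M * q) ∧ C.w = 1 :=
  exists_coord_one hqM hdeg hgood hr hM (nodeUnit L S hqM) hX hA ⟨s, hs⟩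

/-- a function fixed by inertia up to its divisor -/
theorem exists_fixed_function (L : Type) [Field L] [Algebra L (AlgebraicClosure ℚ)]
    [IsInertiaField A L]
    (D : Divisor (AlgebraicClosure ℚ) (modularFunctionFieldBar (M * q)))
    (hD : ∀ g ∈ inertiaG A M q, g • D = D) (hprin : D.IsPrincipal) :
    ∃ f ∈ F0 L (M * q), f ≠ 0 ∧ ∀ P, D P = P.ord f := by
  obtain ⟨f, hf, -, h⟩ := exists_function (A := A) (L := L) (N := M * q) (D := D)
    (fun σ hσ => hD _ ⟨σ, hσ, rfl⟩) hprin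
  exact ⟨inc L (M * q) f, inc_mem_F0 f, fun h0 => hf (inc_eq_zero.mp h0), h⟩

theorem exists_fixed_div (x : Pic0 (AlgebraicClosure ℚ) (modularFunctionFieldBar (M * q)))
    (hx : ∀ g ∈ inertiaG A M q, g • x = x) :
    ∃ D : Divisor.degZero (K := AlgebraicClosure ℚ) (F := modularFunctionFieldBar (M * q)),
      Pic0.mk D = x ∧ ∀ g ∈ inertiaG A M q,
        g • (D : Divisor (AlgebraicClosure ℚ) (modularFunctionFieldBar (M * q))) = D :=
  exists_fixed_mk (inertiaG A M q : Set _) (cuspPlace (M * q))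
    (by
      rintro _ ⟨σ, -, rfl⟩
      exact arithmeticGalois_smul_cuspPlace (M * q) σ) x hx

theorem mem_F0_iff_G (L : Type) [Field L] [Algebra L (AlgebraicClosure ℚ)]
    [IsInertiaField A L] (f : modularFunctionFieldBar (M * q)) :
    f ∈ F0 L (M * q) ↔ ∀ g ∈ inertiaG A M q, g • f = f := by
  rw [mem_F0_iff (A := A)]
  constructor
  · rintro h _ ⟨σ, hσ, rfl⟩
    exact h σ hσ
  · exact fun h σ hσ => h _ ⟨σ, hσ, rfl⟩

theorem exists_lift_F0 (hA : A.LiesOverPrime q) (S : Setup π w) (hX : IsModularNodal S X)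
    (L : Type) [Field L] [Algebra L (AlgebraicClosure ℚ)] [IsInertiaField A L]
    (u : modularFunctionFieldFullC k M × modularFunctionFieldFullC k M) :
    ∃ f ∈ F0 L (M * q), Red₂ X.R₁ X.R₂ f u := by
  obtain ⟨x, hx⟩ := X.approx u
  have hd : L2.DiscPair X.R₁ X.R₂ (F0 L (M * q)) (q : AlgebraicClosure ℚ) := by
    rw [hX.eq₁, hX.eq₂]
    exact discPair_modular S hA L
  exact exists_lift_of_span S.surj (arch_modular hA S.surj) hd (mem_span_F0 L) X.ortho hx

theorem poles_inertia (S : Setup π w) (hX : IsModularNodal S X)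
    (g : SemilinearAut (AlgebraicClosure ℚ) (modularFunctionFieldBar (M * q)))
    (hg : g ∈ inertiaG A M q) : g • polesOf (K := AlgebraicClosure ℚ) X.x =
      polesOf (K := AlgebraicClosure ℚ) X.x := by
  have hExp : ExpChar k q := ExpChar.prime hq.out
  obtain ⟨σ, hσ, rfl⟩ := hg
  obtain ⟨a, ha, -, -⟩ := hX.shift
  exact (isCompat_inertia hq.out S X hX.eq₁ hX.eq₂ ha
    (isResidual_one_of_inertia S.surj hσ)).poles

theorem pf_x_node (hX : IsModularNodal S X)
    {s : Place k (modularFunctionFieldFullC k M) × Place k (modularFunctionFieldFullC k M)}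
    (hs : s ∈ X.nodes) : PF ((modMono S hqM hdeg hgood hr).Ann s.1) X.x := by
  intro P hP
  obtain ⟨a, ha, -, -⟩ := hX.shift
  rw [ha, Nodes.mem_sub_algebraMap_iff]
  have h4 := (modMono S hqM hdeg hgood hr).αx_mem (jRed_mem_of_node hX hs) hP
  rwa [show (modMono S hqM hdeg hgood hr).α (modMono S hqM hdeg hgood hr).x =
      Fermat.Agent.JRED.jL (AlgebraicClosure ℚ) (M * q) from alpha_jBar] at h4

/-- **The modular instance of `LOInst`**, with its annuli. -/
theorem exists_loInst_ann (hM : Rigid M) (hA : A.LiesOverPrime q) (hX : IsModularNodal S X)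
    (L : Type) [Field L] [Algebra L (AlgebraicClosure ℚ)] [IsInertiaField A L] {m : ℕ}
    (hmk : (m : k) ≠ 0) : ∃ I : LOInst X q m (F0 L (M * q)), ∀ s (hs : s ∈ X.nodes),
      (I.nd s hs).Ann = (modMono S hqM hdeg hgood hr).Ann s.1 := by
  have hExp : ExpChar k q := ExpChar.prime hq.out
  refine nonempty_loInst X q m (F0 L (M * q)) (redOne S) (redTwo S) hX.eq₁.symm hX.eq₂.symm
    S.surj (arch_modular hA S.surj) hq.out hchar hmk (inertiaG A M q)
    ?_ (poles_inertia S hX) (mem_F0_iff_G L) (discData_one S hq.out hA)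
    (discData_two S hq.out hA)
    (fun s hs => (modNodeData S hqM hdeg hgood hr hA L (jRed_mem_of_node hX hs)
      (ss_of_node hA hX hs)).toNode) (fun s hs => rfl) ?_ ?_
    (fun s hs => pf_x_node S hqM hdeg hgood hr hX hs)
    (fun s hs => exists_coord_width_one S hqM hdeg hgood hr hM hA hX L hs)
    exists_fixed_div (exists_fixed_function L) (exists_lift_F0 hA S hX L)
    ?_ (natCard_torsion_res S.surj hq.out hA _ hmk) (natCard_torsion_res S.surj hq.out hA _ hmk)
  · rintro _ ⟨σ, hσ, rfl⟩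
    exact inertiaAut_modular S hσ
  · intro s hs
    show (frobSemi k M q)⁻¹ • s.1 = s.2
    rw [inv_smul_eq_iff]
    exact (hX.node s hs).1
  · rintro s hs _ ⟨σ, hσ, rfl⟩ P hP
    exact (mem_Ann_smul_inertia S hqM hdeg hgood hr hσ).mpr hP
  · refine (natCard_torsion_bar _ ?_).ge
    rintro rfl
    exact hmk Nat.cast_zero

include hqM hdeg hgood hr in
/-- **The modular instance of `LOInst`.** -/
theorem exists_loInst (hM : Rigid M) (hA : A.LiesOverPrime q) (hX : IsModularNodal S X)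
    (L : Type) [Field L] [Algebra L (AlgebraicClosure ℚ)] [IsInertiaField A L] {m : ℕ}
    (hmk : (m : k) ≠ 0) : Nonempty (LOInst X q m (F0 L (M * q))) :=
  ⟨(exists_loInst_ann S hqM hdeg hgood hr hM hA hX L hmk).choose⟩

end Modular

end Fermat.Agent.RT8
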