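import Fermat.Agent.RT8.LOInst

/-!
# RT8: specialisable classes of level `qN` are inertia invariant
-/

set_option autoImplicit false
set_option linter.unusedSectionVars false

noncomputable section

open AlgebraicCurve Fermat.Agent.RR Fermat.Agent.JRED

namespace Fermat.Agent.DR.Mono

variable {K F k F₁ F₂ : Type*} [Field K] [Field F] [Algebra K F] [Field k] [Field F₁] [Field F₂]
  [Algebra k F₁] [Algebra k F₂] [HasPrincipalDivisors K F] {A : ValuationSubring K} {π : A →+* k}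
variable {R₁ : RedDatum K F k F₁ A π} {R₂ : RedDatum K F k F₂ A π}

section Tau

variable {q : ℕ} (N : Node R₁ R₂ q) {ϖ : K} (C : Coord N.toPlacePair ϖ)
variable [IsAlgClosed K] [Fermat.FF.IsFF1 K F]
variable [IsAlgClosed k] [hq : Fact q.Prime] [CharP k q]
    [Fermat.FF.IsFF1 k F₁] [Fermat.FF.IsFF1 k F₂] (hπ : Function.Surjective π) (hA : Arch π)
    (hϖ : ϖ ∈ A) (h0 : π ⟨ϖ, hϖ⟩ = 0) (hϖ0 : ϖ ≠ 0)

include hπ hA hϖ h0 hϖ0 in
/-- **Galois action on the product of the values of the coordinate**, general reductions. -/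
theorem Coord.tau_val {g : SemilinearAut K F} (hg : InertiaAut R₁ R₂ g)
    (hAnn : ∀ P ∈ N.Ann, g • P ∈ N.Ann) (hAnn' : ∀ P ∈ N.Ann, g⁻¹ • P ∈ N.Ann)
    (hy : g • C.y = C.y) {h : F} (hh : h ≠ 0) (D : Place K F → ℤ) {T : Finset (Place K F)}
    (hT : ∀ P ∈ T, P ∈ N.Ann) (hT' : ∀ P ∈ N.Ann, P ∉ T → D P = 0)
    (hord : ∀ Q ∈ N.Ann, Q.ord h = D (g⁻¹ • Q) - D Q) {u₁ : F₁} {u₂ : F₂} {ζ₁ ζ₂ : k}
    (h1 : R₁.Red h u₁) (h2 : R₂.Red h u₂) (hv1 : Val N.s₁ u₁ ζ₁) (hv2 : Val N.s₂ u₂ ζ₂) :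
    ∃ hb : SemilinearAut.baseAut g (C.b N T D) / C.b N T D ∈ A,
      π ⟨_, hb⟩ ≠ 0 ∧ ζ₁ * π ⟨_, hb⟩ = ζ₂ := by
  classical
  have hsp := fun P (hP : P ∈ T) =>
    C.value_spec hπ hϖ h0 hϖ0 (hT P hP) (C.v_spec N (hT P hP))
  have hval : ∀ P ∈ T, Val (g • P) C.y (SemilinearAut.baseAut g (C.v N P)) := by
    intro P hP
    have := (C.v_spec N (hT P hP)).smul (g := g)
    rwa [hy] at this
  have hsp' := fun P (hP : P ∈ T) =>
    C.value_spec hπ hϖ h0 hϖ0 (hAnn P (hT P hP)) (hval P hP)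
  have hfac : ∀ P ∈ T, C.y - algebraMap K F (C.v N P) ≠ 0 := fun P hP =>
    Fermat.FF.ne_zero_of_ord_ne_zero P (by rw [(hsp P hP).2.2.2.1]; exact one_ne_zero)
  have hfac' : ∀ P ∈ T, C.y - algebraMap K F (SemilinearAut.baseAut g (C.v N P)) ≠ 0 :=
    fun P hP => Fermat.FF.ne_zero_of_ord_ne_zero (g • P)
      (by rw [(hsp' P hP).2.2.2.1]; exact one_ne_zero)
  set r : Place K F → F := fun P => (C.y - algebraMap K F (SemilinearAut.baseAut g (C.v N P))) /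
    (C.y - algebraMap K F (C.v N P)) with hr
  set c' : Place K F → K := fun P => SemilinearAut.baseAut g (C.v N P) / C.v N P with hc'
  have hr0 : ∀ P ∈ T, r P ≠ 0 := fun P hP => div_ne_zero (hfac' P hP) (hfac P hP)
  set η : F := ∏ P ∈ T, r P ^ D P with hη
  have hη0 : η ≠ 0 := Finset.prod_ne_zero_iff.mpr fun P hP => zpow_ne_zero _ (hr0 P hP)
  -- divisor of `η` on the annulus
  have hordη : ∀ Q ∈ N.Ann, Q.ord η = D (g⁻¹ • Q) - D Q := by
    intro Q hQ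
    rw [hη, ord_prod_zpow Q T _ hr0]
    have e1 : ∀ P ∈ T, D P * Q.ord (r P) =
        D P * Q.ord (C.y - algebraMap K F (SemilinearAut.baseAut g (C.v N P))) -
        D P * Q.ord (C.y - algebraMap K F (C.v N P)) := by
      intro P hP
      rw [hr]
      simp only
      rw [div_eq_mul_inv, Q.ord_mul (hfac' P hP) (inv_ne_zero (hfac P hP)), Q.ord_inv]
      ring
    rw [Finset.sum_congr rfl e1, Finset.sum_sub_distrib]
    congr 1
    · by_cases hQT : g⁻¹ • Q ∈ T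
      · rw [Finset.sum_eq_single (g⁻¹ • Q)]
        · have := (hsp' _ hQT).2.2.2.1
          rw [smul_inv_smul] at this
          rw [this, mul_one]
        · intro P hP hPQ
          rw [(hsp' P hP).2.2.2.2 Q hQ, mul_zero]
          intro h
          exact hPQ (by rw [h, inv_smul_smul])
        · exact fun h => absurd hQT h
      · rw [hT' _ (hAnn' Q hQ) hQT]
        apply Finset.sum_eq_zero
        intro P hP
        rw [(hsp' P hP).2.2.2.2 Q hQ (fun h => hQT (by rw [h, inv_smul_smul]; exact hP)),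
          mul_zero]
    · by_cases hQT : Q ∈ T
      · rw [Finset.sum_eq_single Q]
        · rw [(hsp Q hQT).2.2.2.1, mul_one]
        · intro P hP hPQ
          rw [(hsp P hP).2.2.2.2 Q hQ (Ne.symm hPQ), mul_zero]
        · exact fun h => absurd hQT h
      · rw [hT' Q hQ hQT]
        apply Finset.sum_eq_zero
        intro P hP
        rw [(hsp P hP).2.2.2.2 Q hQ (fun h => hQT (h ▸ hP)), mul_zero]
  -- reductions of `η`
  have hη1 : R₁.Red η 1 := by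
    have h3 : R₁.Red η (∏ P ∈ T, (C.y₁ / C.y₁) ^ D P) :=
      red_prod T fun P hP => red_zpow hπ
        (RedDatum.div hπ (hsp' P hP).2.1 (hsp P hP).2.1 C.y₁_ne)
        (div_ne_zero C.y₁_ne C.y₁_ne) _
    rw [div_self C.y₁_ne] at h3
    simpa using h3
  have hvu : ∀ P ∈ T, ∃ h : c' P ∈ A, π ⟨_, h⟩ ≠ 0 := fun P hP => hg.unit _ (hsp P hP).1
  have hrP : ∀ P (hP : P ∈ T), R₂.Red (r P) (algebraMap k F₂ (π ⟨c' P, (hvu P hP).choose⟩)) := by
    intro P hP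
    have h3 := RedDatum.div hπ (hsp' P hP).2.2.1 (hsp P hP).2.2.1 (by simp)
    have h4 := R₂.mul (R₂.const ⟨c' P, (hvu P hP).choose⟩) h3
    rw [div_self (by simp), mul_one] at h4
    have hv1 : algebraMap K F (C.v N P) ≠ 0 := by simpa using (hsp P hP).1
    have hv2 : algebraMap K F (SemilinearAut.baseAut g (C.v N P)) ≠ 0 := by
      simpa using (hsp P hP).1
    have hv3 := hfac P hP
    have h5 : algebraMap K F (c' P) *
        (algebraMap K F (SemilinearAut.baseAut g (C.v N P))⁻¹ *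
          (C.y - algebraMap K F (SemilinearAut.baseAut g (C.v N P))) /
        (algebraMap K F (C.v N P)⁻¹ * (C.y - algebraMap K F (C.v N P)))) = r P := by
      rw [hc', hr]
      simp only
      rw [map_div₀, map_inv₀, map_inv₀]
      field_simp
    rw [h5] at h4
    exact h4
  -- a common value
  let κ : Place K F → F₂ := fun P =>
    if hP : P ∈ T then algebraMap k F₂ (π ⟨c' P, (hvu P hP).choose⟩) else 1
  have hκ : ∀ P (hP : P ∈ T), κ P = algebraMap k F₂ (π ⟨c' P, (hvu P hP).choose⟩) :=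
    fun P hP => dif_pos hP
  have hκ0 : ∀ P ∈ T, κ P ≠ 0 := by
    intro P hP
    rw [hκ P hP]
    simpa using (hvu P hP).choose_spec
  have hη2 : R₂.Red η (∏ P ∈ T, κ P ^ D P) :=
    red_prod T fun P hP => red_zpow hπ (by rw [hκ P hP]; exact hrP P hP) (hκ0 P hP) _
  have hb2 : R₂.Red (algebraMap K F (SemilinearAut.baseAut g (C.b N T D) / C.b N T D))
      (∏ P ∈ T, κ P ^ D P) := by
    have h3 : R₂.Red (∏ P ∈ T, (algebraMap K F (c' P)) ^ D P) (∏ P ∈ T, κ P ^ D P) :=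
      red_prod T fun P hP => red_zpow hπ
        (by rw [hκ P hP]; exact R₂.const ⟨c' P, (hvu P hP).choose⟩) (hκ0 P hP) _
    have h4 : algebraMap K F (SemilinearAut.baseAut g (C.b N T D) / C.b N T D) =
        ∏ P ∈ T, (algebraMap K F (c' P)) ^ D P := by
      rw [Coord.b, map_prod, ← Finset.prod_div_distrib, map_prod]
      refine Finset.prod_congr rfl fun P _ => ?_
      rw [hc', ← map_zpow₀]
      simp only
      rw [div_zpow, map_zpow₀]
    rw [h4]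
    exact h3
  have hbA := RedDatum.mem_of_red_const hπ hb2
  have hbval := R₂.unique hb2 (R₂.const ⟨_, hbA⟩)
  have hbne : π ⟨_, hbA⟩ ≠ 0 := by
    intro h3
    rw [h3, map_zero] at hbval
    exact Finset.prod_ne_zero_iff.mpr (fun P hP => zpow_ne_zero _ (hκ0 P hP)) hbval
  refine ⟨hbA, hbne, ?_⟩
  rw [hbval] at hη2
  -- apply the node theorem to `h / η`
  have hinv : Inv N.Ann (h / η) := by
    refine ⟨div_ne_zero hh hη0, fun Q hQ => ?_⟩
    rw [div_eq_mul_inv, Q.ord_mul hh (inv_ne_zero hη0), Q.ord_inv, hord Q hQ, hordη Q hQ]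
    ring
  obtain ⟨c, hc1, hc2⟩ := N.regs hπ hA (RedDatum.div hπ h1 hη1 one_ne_zero)
    (RedDatum.div hπ h2 hη2 (by simpa using hbne)) hinv.pf
  rw [div_one] at hc1
  have e1 := hc1.unique hv1
  have e2 := hc2.unique (hv2.div (val_const _) hbne)
  rw [← e1, e2, div_mul_cancel₀ _ hbne]

end Tau

end Fermat.Agent.DR.Mono

namespace Fermat.Agent.RT8

open Fermat.Agent.DR Fermat.Agent.DR.Mono

variable {K F k F₁ F₂ : Type*} [Field K] [Field F] [Algebra K F] [Field k] [Field F₁] [Field F₂]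
  [Algebra k F₁] [Algebra k F₂] {A : ValuationSubring K} {π : A →+* k}

section Const

theorem unit_of_pow (hπ : Function.Surjective π) {m : ℕ} (hm : m ≠ 0) {b : K}
    (h : ∃ h : b ^ m ∈ A, π ⟨_, h⟩ ≠ 0) : ∃ h : b ∈ A, π ⟨_, h⟩ ≠ 0 := by
  obtain ⟨h, h0⟩ := h
  have hb : b ∈ A := by
    by_contra hb
    obtain ⟨hi, hi0⟩ := res_inv_eq_zero hπ hb
    have hbne : b ≠ 0 := by rintro rfl; exact hb A.zero_mem
    have h1 : (⟨b ^ m, h⟩ : A) * ⟨b⁻¹, hi⟩ ^ m = 1 := by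
      apply Subtype.ext
      show b ^ m * b⁻¹ ^ m = 1
      rw [← mul_pow, mul_inv_cancel₀ hbne, one_pow]
    have h2 := congrArg π h1
    rw [map_mul, map_pow, hi0, zero_pow hm, mul_zero, map_one] at h2
    exact zero_ne_one h2
  refine ⟨hb, fun h1 => h0 ?_⟩
  have h2 : (⟨b ^ m, h⟩ : A) = ⟨b, hb⟩ ^ m := Subtype.ext rfl
  rw [h2, map_pow, h1, zero_pow hm]

theorem unit_mul_inv_self (hπ : Function.Surjective π) {b : K} (h : ∃ h : b ∈ A, π ⟨_, h⟩ ≠ 0) :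
    ∃ h : b⁻¹ ∈ A, π ⟨_, h⟩ ≠ 0 := by
  obtain ⟨h, h0⟩ := h
  have h1 := unit_div h h0 A.one_mem hπ
  rw [one_div] at h1
  obtain ⟨h2, h3⟩ := h1
  refine ⟨h2, ?_⟩
  rw [h3]
  have h4 : (⟨1, A.one_mem⟩ : A) = 1 := rfl
  rw [h4, map_one]
  exact one_div_ne_zero h0

theorem unit_mul {a b : K} (ha : ∃ h : a ∈ A, π ⟨_, h⟩ ≠ 0) (hb : ∃ h : b ∈ A, π ⟨_, h⟩ ≠ 0) :
    ∃ h : a * b ∈ A, π ⟨_, h⟩ ≠ 0 := by
  obtain ⟨ha, ha0⟩ := ha
  obtain ⟨hb, hb0⟩ := hb
  refine ⟨mul_mem ha hb, ?_⟩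
  have h : (⟨a * b, mul_mem ha hb⟩ : A) = ⟨a, ha⟩ * ⟨b, hb⟩ := rfl
  rw [h, map_mul]
  exact mul_ne_zero ha0 hb0

theorem unit_pow {a : K} (ha : ∃ h : a ∈ A, π ⟨_, h⟩ ≠ 0) (n : ℕ) :
    ∃ h : a ^ n ∈ A, π ⟨_, h⟩ ≠ 0 := by
  obtain ⟨ha, ha0⟩ := ha
  refine ⟨pow_mem ha n, ?_⟩
  have h : (⟨a ^ n, pow_mem ha n⟩ : A) = ⟨a, ha⟩ ^ n := rfl
  rw [h, map_pow]
  exact pow_ne_zero _ ha0

/-- a power of the uniformiser which is a unit has exponent zero -/
theorem zpow_unit_eq_zero (hπ : Function.Surjective π) {ϖ : K} (hϖ : ϖ ∈ A) (h0 : π ⟨ϖ, hϖ⟩ = 0)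
    {j : ℤ}
    (h : ∃ h : ϖ ^ j ∈ A, π ⟨_, h⟩ ≠ 0) : j = 0 := by
  rcases lt_trichotomy j 0 with hj | hj | hj
  · exfalso
    obtain ⟨h1, h2⟩ := unit_mul_inv_self hπ h
    have h3 : (ϖ ^ j)⁻¹ = ϖ ^ (-j) := (zpow_neg _ _).symm
    apply h2
    have h4 := res_zpow_of_pos hϖ h0 (n := -j) (by omega)
    rw [← h4]
    congr 1
    exact Subtype.ext h3
  · exact hj
  · exfalso
    obtain ⟨h1, h2⟩ := h
    exact h2 (res_zpow_of_pos hϖ h0 hj)

variable {R₁ : RedDatum K F k F₁ A π} {R₂ : RedDatum K F k F₂ A π}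

/-- inertia acts trivially on the residue field -/
theorem inertiaAut_res {g : SemilinearAut K F} (hg : InertiaAut R₁ R₂ g)
    (hπ : Function.Surjective π) {β : K} (hβ : β ∈ A) :
    ∃ h : SemilinearAut.baseAut g β ∈ A, π ⟨_, h⟩ = π ⟨β, hβ⟩ := by
  have h1 := hg.red₁ (R₁.const ⟨β, hβ⟩)
  rw [SemilinearAut.smul_algebraMap] at h1
  have h2 := RedDatum.mem_of_red_const hπ h1
  exact ⟨h2, ((algebraMap k F₁).injective (R₁.unique h1 (R₁.const ⟨_, h2⟩))).symm⟩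

end Const

section Inst

variable [IsAlgClosed K] [IsAlgClosed k] [FunctionField K F]
  [FunctionField k F₁] [FunctionField k F₂]

attribute [local instance] Descent.isFF1_of_functionField

variable {X : NodalDatum K F k F₁ F₂ A π} {q m : ℕ} {F₀ : Subfield F} (I : LOInst X q m F₀)

namespace LOInst

include I

theorem hm : 0 < m := by
  rcases Nat.eq_zero_or_pos m with h | h
  · have := I.hmk
    rw [h, Nat.cast_zero] at this
    exact absurd rfl this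
  · exact h

theorem compat {g : SemilinearAut K F} (hg : g ∈ I.G) : IsCompat X g 1 1 where
  red₁ w u h := by rw [one_smul]; exact (I.inert g hg).red₁ h
  red₂ w u h := by rw [one_smul]; exact (I.inert g hg).red₂ h
  base := rfl
  poles := I.poles g hg
  nodes s hs := by rw [one_smul, one_smul]; exact hs

theorem smul_y {g : SemilinearAut K F} (hg : g ∈ I.G) {s : Place k F₁ × Place k F₂}
    (hs : s ∈ X.nodes) : g • (I.C s hs).y = (I.C s hs).y :=
  (I.mem_F₀ _).mp (I.C_mem s hs) g hg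

theorem ord_x_nonneg {s : Place k F₁ × Place k F₂} (hs : s ∈ X.nodes) {P : Place K F}
    (hP : P ∈ (I.nd s hs).Ann) : polesOf (K := K) X.x P = 0 := by
  rw [polesOf_apply]
  have h := (I.pf_x s hs).ord_nonneg hP
  exact max_eq_right (by omega)

/-- orders of a section with reduction `(1, w)` on the annulus -/
theorem ord_section {D : Divisor K F} {f : F} (H : IsRootDiv X m D f (1, 1)) {n : ℕ} {h : F}
    {w : F₂} (hh : h ∈ riemannRochSpace (n • polesOf (K := K) X.x - D))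
    (hred : Red₂ X.R₁ X.R₂ h (1, w)) {s : Place k F₁ × Place k F₂} (hs : s ∈ X.nodes) {c : k}
    (hc : c ≠ 0) (hw : Fermat.Agent.DR.Val s.2 w c) : ∀ P ∈ (I.nd s hs).Ann, P.ord h = D P := by
  have hh0 : h ≠ 0 := RedDatum.ne_zero_of_red hred.1 one_ne_zero
  obtain ⟨h1, h2⟩ := H.key I.hπ hh hred
  have hG0 : h ^ m / f ≠ 0 := div_ne_zero (pow_ne_zero _ hh0) H.ne_zero
  have hpf : PF (I.nd s hs).Ann (h ^ m / f) := by
    intro P hP
    rw [Fermat.FF.mem_iff_ord P hG0]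
    have h3 := (mem_riemannRochSpace_iff.mp h1 P).resolve_left hG0
    rwa [Finsupp.smul_apply, I.ord_x_nonneg hs hP, smul_zero, neg_zero] at h3
  obtain ⟨hw0, hw1⟩ := hw.ord_eq_zero hc
  have hsum : annSum (I.nd s hs).Ann (h ^ m / f) = 0 := by
    simp only [one_pow, div_one] at h2
    rw [(I.nd s hs).norm _ hG0, o_eq' _ I.hπ h2.1 one_ne_zero,
      o_eq' _ I.hπ h2.2 (pow_ne_zero _ hw0), Place.ord_one, I.nd₂ s hs, ord_pow, hw1]
    ring
  have hinv := inv_of_annSum_eq_zero hG0 hpf hsum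
  intro P hP
  have h3 := hinv.2 P hP
  rw [ord_div P (pow_ne_zero _ hh0) H.ne_zero, ord_pow, ← H.div_eq] at h3
  have hm' : (m : ℤ) ≠ 0 := by exact_mod_cast I.hm.ne'
  exact mul_left_cancel₀ hm' (by linarith)

end LOInst

open Classical in
/-- the support of `D` on the annulus of `s` -/
def LOInst.T {s : Place k F₁ × Place k F₂} (hs : s ∈ X.nodes) (D : Divisor K F) :
    Finset (Place K F) := D.support.filter (· ∈ (I.nd s hs).Ann)

/-- the product of the values of the coordinate -/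
def LOInst.b {s : Place k F₁ × Place k F₂} (hs : s ∈ X.nodes) (D : Divisor K F) : K :=
  (I.C s hs).b (I.nd s hs) (I.T hs D) D

namespace LOInst

theorem mem_T {s : Place k F₁ × Place k F₂} {hs : s ∈ X.nodes} {D : Divisor K F} {P : Place K F} :
    P ∈ I.T hs D ↔ D P ≠ 0 ∧ P ∈ (I.nd s hs).Ann := by
  classical
  rw [LOInst.T, Finset.mem_filter, Finsupp.mem_support_iff]

theorem T_ann {s : Place k F₁ × Place k F₂} (hs : s ∈ X.nodes) (D : Divisor K F) :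
    ∀ P ∈ I.T hs D, P ∈ (I.nd s hs).Ann := fun P hP => (I.mem_T.mp hP).2

theorem T_zero {s : Place k F₁ × Place k F₂} (hs : s ∈ X.nodes) (D : Divisor K F) :
    ∀ P ∈ (I.nd s hs).Ann, P ∉ I.T hs D → D P = 0 := fun _ hP hPT => by
  by_contra h
  exact hPT (I.mem_T.mpr ⟨h, hP⟩)

theorem b_ne_zero {s : Place k F₁ × Place k F₂} (hs : s ∈ X.nodes) (D : Divisor K F) :
    I.b hs D ≠ 0 :=
  (I.C s hs).b_ne_zero (I.nd s hs) I.hπ I.disc₁.mem I.disc₁.res I.disc₁.ne_zero (I.T_ann hs D) D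

theorem slope {s : Place k F₁ × Place k F₂} (hs : s ∈ X.nodes) {f : F} (hf : f ≠ 0)
    {D : Divisor K F} (hD : ∀ P, P.ord f = m * D P) {c₁ c₂ : K} {u₁ : F₁} {u₂ : F₂}
    (h1 : X.R₁.Red (algebraMap K F c₁ * f) u₁) (hu1 : u₁ ≠ 0)
    (h2 : X.R₂.Red (algebraMap K F c₂ * f) u₂) (hu2 : u₂ ≠ 0) (hdvd : (m : ℤ) ∣ s.1.ord u₁) :
    ∃ M : ℤ, ∃ h : c₂ / c₁ * (I.b hs D * (q : K) ^ M) ^ m ∈ A, π ⟨_, h⟩ ≠ 0 := by
  have : Fact q.Prime := ⟨I.hq⟩
  have := I.charP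
  obtain ⟨hd, h3⟩ := (I.C s hs).slope (I.nd s hs) I.hπ I.arch I.disc₁.mem I.disc₁.res
    I.disc₁.ne_zero hf (m : ℤ) D (fun P _ => hD P) (I.T_ann hs D) (I.T_zero hs D) h1 hu1 h2 hu2
  obtain ⟨e, he⟩ := hdvd
  have ho : o X.R₁ (I.nd s hs).s₁ f = m * e := by
    rw [o_eq _ I.hπ h1 hu1, I.nd₁ s hs, he]
  refine ⟨(I.C s hs).w * (e - ∑ P ∈ I.T hs D, D P), ?_⟩
  have e1 : c₂ / c₁ * (I.b hs D * (q : K) ^ (((I.C s hs).w : ℤ) *
      (e - ∑ P ∈ I.T hs D, D P))) ^ m = c₂ / c₁ * ((I.C s hs).b (I.nd s hs) (I.T hs D) D) ^ (m : ℤ) *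
      (q : K) ^ ((I.C s hs).w * (o X.R₁ (I.nd s hs).s₁ f - m * ∑ P ∈ I.T hs D, D P)) := by
    have e2 : (((I.C s hs).w : ℤ) * (e - ∑ P ∈ I.T hs D, D P)) * (m : ℤ) =
        (I.C s hs).w * (m * e - m * ∑ P ∈ I.T hs D, D P) := by ring
    rw [ho, mul_pow, ← zpow_natCast ((q : K) ^ _), ← zpow_mul, LOInst.b, e2, zpow_natCast,
      mul_assoc (c₂ / c₁)]
  rw [e1]
  exact ⟨hd, h3⟩

/-- **Specialisable classes are fixed by inertia.** -/
theorem isPrincipal_smul_sub {D : Divisor K F} {f : F} {u : F₁ × F₂} (H : IsRootDiv X m D f u)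
    (hdvd : ∀ s ∈ X.nodes, (m : ℤ) ∣ s.1.ord u.1) {g : SemilinearAut K F} (hg : g ∈ I.G) :
    Divisor.IsPrincipal (g • D - D) := by
  have : Fact q.Prime := ⟨I.hq⟩
  have := I.charP
  have C := I.compat hg
  have H' := C.inertial_sub I.hπ H
  obtain ⟨γ, hγm, hγ⟩ := H'.exists_gamma I.hπ
  refine H'.isPrincipal_of_gamma_one I.hπ I.hmk (hγ.congr fun s hs => ?_)
  obtain ⟨n, w, hw⟩ := hγ.exists_one
  have hval := hγ.val_of_one hw hs
  obtain ⟨h, hh, hred⟩ := hw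
  have hγ0 : γ s ≠ 0 := by
    intro h0
    have := hγm s hs
    rw [h0, zero_pow I.hm.ne'] at this
    exact zero_ne_one this
  have hord := I.ord_section H' hh hred hs hγ0 hval
  have hh0 : h ≠ 0 := RedDatum.ne_zero_of_red hred.1 one_ne_zero
  have hd : ∀ P ∈ (I.nd s hs).Ann, g • P ∈ (I.nd s hs).Ann := I.ann s hs g hg
  have hd' : ∀ P ∈ (I.nd s hs).Ann, g⁻¹ • P ∈ (I.nd s hs).Ann :=
    I.ann s hs g⁻¹ (I.G.inv_mem hg)
  obtain ⟨hb, hb0, hb1⟩ := (I.C s hs).tau_val (I.nd s hs) I.hπ I.arch I.disc₁.mem I.disc₁.res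
    I.disc₁.ne_zero (I.inert g hg) hd hd' (I.smul_y hg hs) hh0 D (I.T_ann hs D) (I.T_zero hs D)
    (fun Q hQ => by
      rw [hord Q hQ, Finsupp.sub_apply, SemilinearAut.divisor_smul_apply])
    hred.1 hred.2 (ζ₁ := 1) (ζ₂ := γ s) (by simpa using val_const (s := (I.nd s hs).s₁) (1 : k))
    (by rw [I.nd₂ s hs]; exact hval)
  rw [one_mul] at hb1
  rw [← hb1]
  -- `b q ^ M` is a unit
  obtain ⟨M, hM, hM0⟩ := I.slope hs (D := D) H.ne_zero (fun P => (H.div_eq P).symm) (c₁ := 1)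
    (c₂ := 1) (by rw [map_one, one_mul]; exact H.red.1) H.ne₁
    (by rw [map_one, one_mul]; exact H.red.2) H.ne₂ (hdvd s hs)
  have hu := unit_of_pow (A := A) (π := π) I.hπ I.hm.ne' (b := I.b hs D * (q : K) ^ M) (by
    have e : (1 : K) / 1 * (I.b hs D * (q : K) ^ M) ^ m = (I.b hs D * (q : K) ^ M) ^ m := by
      rw [div_one, one_mul]
    rw [← e]
    exact ⟨hM, hM0⟩)
  obtain ⟨hβ, hβ0⟩ := hu
  obtain ⟨hgβ, hgβ1⟩ := inertiaAut_res (I.inert g hg) I.hπ hβ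
  obtain ⟨hq1, hq2⟩ := unit_div hβ hβ0 hgβ I.hπ
  rw [hgβ1, div_self hβ0] at hq2
  rw [← hq2]
  congr 1
  apply Subtype.ext
  have hqM : ((q : K) ^ M) ≠ 0 := zpow_ne_zero _ I.disc₁.ne_zero
  have hbne := I.b_ne_zero hs D
  show SemilinearAut.baseAut g (I.b hs D) / I.b hs D = SemilinearAut.baseAut g
    (I.b hs D * (q : K) ^ M) / (I.b hs D * (q : K) ^ M)
  rw [map_mul, map_zpow₀, map_natCast]
  field_simp

end LOInst

end Inst

end Fermat.Agent.RT8
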