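import Fermat.Agent.RT8.LevelOneA

/-!
# RT8: models over the inertia field of specialisable classes of level `qN`
-/

set_option autoImplicit false
set_option linter.unusedSectionVars false

noncomputable section

open AlgebraicCurve Fermat.Agent.RR Fermat.Agent.JRED

namespace Fermat.Agent.RT8

open Fermat.Agent.DR Fermat.Agent.DR.Mono

variable {K F k F₁ F₂ : Type*} [Field K] [Field F] [Algebra K F] [Field k] [Field F₁] [Field F₂]
  [Algebra k F₁] [Algebra k F₂] {A : ValuationSubring K} {π : A →+* k}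

/-- roots of reductions -/
theorem exists_red_of_pow {E : Type*} [Field E] [Algebra k E] {R : RedDatum K F k E A π}
    (hπ : Function.Surjective π) {m : ℕ} (hm : m ≠ 0) {f V : F} {u u' : E} (h : R.Red f u)
    (hu : u ≠ 0) (h' : R.Red (f * V ^ m) u') (hu' : u' ≠ 0) :
    ∃ v : E, v ≠ 0 ∧ R.Red V v ∧ u' = u * v ^ m := by
  have hf : f ≠ 0 := RedDatum.ne_zero_of_red h hu
  have h1 : R.Red (V ^ m) (u' / u) := by
    have := RedDatum.div hπ h' h hu
    rwa [mul_div_cancel_left₀ _ hf] at this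
  have h0 : u' / u ≠ 0 := div_ne_zero hu' hu
  rcases RedDatum.red_or_inv (R := R) hπ V with ⟨v, hv⟩ | hv
  · have h2 := R.unique (RedDatum.pow hv m) h1
    refine ⟨v, ?_, hv, ?_⟩
    · rintro rfl
      rw [zero_pow hm] at h2
      exact h0 h2.symm
    · rw [h2, mul_div_cancel₀ _ hu]
  · exfalso
    have h2 := RedDatum.pow hv m
    rw [zero_pow hm, inv_pow] at h2
    exact inv_ne_zero h0 (R.unique (RedDatum.inv hπ h1 h0) h2)

section Inst

variable [IsAlgClosed K] [IsAlgClosed k] [FunctionField K F]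
  [FunctionField k F₁] [FunctionField k F₂]

attribute [local instance] Descent.isFF1_of_functionField

variable {X : NodalDatum K F k F₁ F₂ A π} {q m : ℕ} {F₀ : Subfield F} (I : LOInst X q m F₀)

namespace LOInst

theorem v_smul {s : Place k F₁ × Place k F₂} (hs : s ∈ X.nodes) {g : SemilinearAut K F}
    (hg : g ∈ I.G) {P : Place K F} (hP : P ∈ (I.nd s hs).Ann) :
    SemilinearAut.baseAut g ((I.C s hs).v (I.nd s hs) P) =
      (I.C s hs).v (I.nd s hs) (g • P) := by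
  have h1 := ((I.C s hs).v_spec (I.nd s hs) hP).smul (g := g)
  rw [I.smul_y hg hs] at h1
  exact h1.unique ((I.C s hs).v_spec (I.nd s hs) (I.ann s hs g hg P hP))

theorem divisor_smul {D : Divisor K F} {g : SemilinearAut K F} (hD : g • D = D) (P : Place K F) :
    D (g • P) = D P := by
  conv_lhs => rw [← hD]
  rw [SemilinearAut.divisor_smul_apply, inv_smul_smul]

/-- reindexing a product over the annulus -/
theorem prod_T {s : Place k F₁ × Place k F₂} (hs : s ∈ X.nodes) {g : SemilinearAut K F}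
    (hg : g ∈ I.G) {D : Divisor K F} (hD : g • D = D) {M : Type*} [CommMonoid M]
    (φ : Place K F → M) : ∏ P ∈ I.T hs D, φ (g • P) = ∏ P ∈ I.T hs D, φ P := by
  refine Finset.prod_nbij' (fun P => g • P) (fun P => g⁻¹ • P) ?_ ?_ ?_ ?_ ?_
  · intro P hP
    rw [I.mem_T] at hP ⊢
    exact ⟨by rw [divisor_smul hD]; exact hP.1, I.ann s hs g hg P hP.2⟩
  · intro P hP
    rw [I.mem_T] at hP ⊢
    have hD' : g⁻¹ • D = D := by rw [inv_smul_eq_iff, hD]
    exact ⟨by rw [divisor_smul hD']; exact hP.1, I.ann s hs g⁻¹ (I.G.inv_mem hg) P hP.2⟩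
  · intro P _; exact inv_smul_smul g P
  · intro P _; exact smul_inv_smul g P
  · intro P _; rfl

/-- the product of the values of the coordinate is fixed by inertia -/
theorem smul_b {s : Place k F₁ × Place k F₂} (hs : s ∈ X.nodes) {g : SemilinearAut K F}
    (hg : g ∈ I.G) {D : Divisor K F} (hD : g • D = D) :
    SemilinearAut.baseAut g (I.b hs D) = I.b hs D := by
  rw [LOInst.b, Coord.b, map_prod]
  conv_rhs => rw [← I.prod_T hs hg hD]
  refine Finset.prod_congr rfl fun P hP => ?_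
  rw [map_zpow₀, I.v_smul hs hg (I.T_ann hs D P hP), divisor_smul hD]

/-- constants fixed by inertia are powers of `q` times units -/
theorem const_disc {b : K} (hb : b ≠ 0) (h : ∀ g ∈ I.G, SemilinearAut.baseAut g b = b) :
    ∃ n : ℤ, ∃ h : ((q : K) ^ n)⁻¹ * b ∈ A, π ⟨_, h⟩ ≠ 0 := by
  have h1 : algebraMap K F b ∈ F₀ := (I.mem_F₀ _).mpr fun g hg => by
    rw [SemilinearAut.smul_algebraMap, h g hg]
  obtain ⟨a, u, hu, hau⟩ := I.disc₁.disc _ h1 (by simpa using hb)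
  rw [← map_mul] at hau
  have h2 := RedDatum.mem_of_red_const I.hπ hau
  refine ⟨a, h2, fun h0 => hu ?_⟩
  rw [X.R₁.unique hau (X.R₁.const ⟨_, h2⟩), h0, map_zero]

include I in
/-- **Models over the inertia field.** A specialisable class has a representative whose root
function is rational over the inertia field and has nonzero reductions. -/
theorem exists_model {D : Divisor.degZero (K := K) (F := F)} {f : F} {u : F₁ × F₂}
    (H : IsRootDiv X m (D : Divisor K F) f u)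
    (hdvd : ∀ s ∈ X.nodes, (m : ℤ) ∣ s.1.ord u.1) :
    ∃ (V : F) (V₁ : F₁) (V₂ : F₂), V ≠ 0 ∧ V₁ ≠ 0 ∧ V₂ ≠ 0 ∧ X.R₁.Red V V₁ ∧ X.R₂.Red V V₂ ∧
      f * V ^ m ∈ F₀ := by
  have hm := I.hm
  -- the class is fixed
  have hfix : ∀ g ∈ I.G, g • Pic0.mk D = Pic0.mk D := by
    intro g hg
    have h1 := I.isPrincipal_smul_sub H hdvd hg
    rw [SemilinearAut.pic0_smul_mk, pic0_mk_eq_iff]
    exact h1
  obtain ⟨D', hD', hfix'⟩ := I.fixedDiv _ hfix
  obtain ⟨v, hv, hdiv⟩ := pic0_mk_eq_iff.mp hD'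
  have hord : ∀ P : Place K F, (m • (D' : Divisor K F)) P = P.ord (f * v ^ m) := by
    intro P
    have h1 := hdiv P
    rw [Finsupp.sub_apply] at h1
    rw [P.ord_mul H.ne_zero (pow_ne_zero m hv), ord_pow, ← H.div_eq, Finsupp.smul_apply,
      nsmul_eq_mul, ← h1]
    ring
  obtain ⟨f', hf'F, hf'0, hf'⟩ := I.fixedFun (m • (D' : Divisor K F))
    (fun g hg => by rw [smul_comm g m (D' : Divisor K F), hfix' g hg])
    ⟨_, mul_ne_zero H.ne_zero (pow_ne_zero m hv), hord⟩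
  have h1 : divOf (K := K) f' = divOf (f * v ^ m) := by
    ext P
    rw [divOf_apply, divOf_apply, ← hf', hord]
  obtain ⟨c, hc, hcf⟩ := (divOf_eq_iff hf'0 (mul_ne_zero H.ne_zero (pow_ne_zero m hv))).mp h1
  obtain ⟨d, hd⟩ := IsAlgClosed.exists_pow_nat_eq c hm
  have hd0 : d ≠ 0 := by
    rintro rfl
    rw [zero_pow hm.ne'] at hd
    exact hc hd.symm
  set V₀ : F := algebraMap K F d * v with hV₀
  have hV₀0 : V₀ ≠ 0 := mul_ne_zero (by simpa using hd0) hv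
  have hf'V : f' = f * V₀ ^ m := by
    rw [hcf, Algebra.smul_def, hV₀, mul_pow, ← map_pow, hd]; ring
  -- valuations of `f'`
  obtain ⟨a₁, u₁, hu₁, ha₁⟩ := I.disc₁.disc f' hf'F hf'0
  obtain ⟨a₂, u₂, hu₂, ha₂⟩ := I.disc₂.disc f' hf'F hf'0
  have hqne : (q : K) ≠ 0 := I.disc₁.ne_zero
  obtain ⟨s, hs⟩ := X.nodes_nonempty
  have hdvd' : (m : ℤ) ∣ s.1.ord u₁ := by
    have e1 : s.1.ord u₁ = o X.R₁ s.1 f' := (o_eq s.1 I.hπ ha₁ hu₁).symm
    have e2 : o X.R₁ s.1 f = s.1.ord u.1 := o_eq' s.1 I.hπ H.red.1 H.ne₁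
    rw [e1, hf'V, o_mul s.1 I.hπ H.ne_zero (pow_ne_zero m hV₀0), o_pow s.1 I.hπ hV₀0, e2]
    exact dvd_add (hdvd s hs) (dvd_mul_right _ _)
  obtain ⟨M, hM⟩ := I.slope hs (D := (D' : Divisor K F)) hf'0 (fun P => by
    rw [← hf' P, Finsupp.smul_apply, nsmul_eq_mul]) ha₁ hu₁ ha₂ hu₂ hdvd'
  obtain ⟨n, hn⟩ := I.const_disc (I.b_ne_zero hs (D' : Divisor K F))
    (fun g hg => I.smul_b hs hg (hfix' g hg))
  -- `a₂ = a₁ + m (n + M)`
  have ha : a₁ - a₂ + m * (n + M) = 0 := by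
    refine zpow_unit_eq_zero (A := A) (π := π) I.hπ I.disc₁.mem I.disc₁.res ?_
    have h3 := unit_mul hM (unit_mul_inv_self I.hπ (unit_pow hn m))
    have hb0 := I.b_ne_zero hs (D' : Divisor K F)
    have e : ((q : K) ^ a₂)⁻¹ / ((q : K) ^ a₁)⁻¹ * (I.b hs (D' : Divisor K F) * (q : K) ^ M) ^ m *
        ((((q : K) ^ n)⁻¹ * I.b hs (D' : Divisor K F)) ^ m)⁻¹ =
        (q : K) ^ (a₁ - a₂ + m * (n + M)) := by
      have h4 : (q : K) ^ (a₁ - a₂ + m * (n + M)) =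
          (q : K) ^ a₁ * ((q : K) ^ a₂)⁻¹ * (((q : K) ^ n) ^ m * ((q : K) ^ M) ^ m) := by
        rw [← zpow_natCast ((q : K) ^ n), ← zpow_natCast ((q : K) ^ M), ← zpow_mul, ← zpow_mul,
          ← zpow_neg, ← zpow_add₀ hqne, ← zpow_add₀ hqne, ← zpow_add₀ hqne]
        congr 1
        ring
      rw [h4]
      have := zpow_ne_zero a₁ hqne
      have := zpow_ne_zero a₂ hqne
      have := zpow_ne_zero n hqne
      have := zpow_ne_zero M hqne
      rw [mul_pow, mul_pow, inv_pow]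
      field_simp
    rw [← e]
    exact h3
  -- the final function
  obtain ⟨j, hj⟩ : ∃ j : ℤ, j = -(n + M) := ⟨_, rfl⟩
  obtain ⟨t, ht⟩ := IsAlgClosed.exists_pow_nat_eq ((q : K) ^ a₁)⁻¹ hm
  have ht0 : t ≠ 0 := by
    rintro rfl
    rw [zero_pow hm.ne'] at ht
    exact inv_ne_zero (zpow_ne_zero a₁ hqne) ht.symm
  have hy0 : (I.C s hs).y ≠ 0 := (I.C s hs).inv.1
  have hV0 : algebraMap K F t * V₀ * (I.C s hs).y ^ j ≠ 0 :=
    mul_ne_zero (mul_ne_zero (by simpa using ht0) hV₀0) (zpow_ne_zero _ hy0)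
  have hfV : f * (algebraMap K F t * V₀ * (I.C s hs).y ^ j) ^ m =
      algebraMap K F ((q : K) ^ a₁)⁻¹ * f' * ((I.C s hs).y ^ j) ^ m := by
    rw [mul_pow, mul_pow, ← map_pow, ht, hf'V]
    ring
  have hR₁ : X.R₁.Red (f * (algebraMap K F t * V₀ * (I.C s hs).y ^ j) ^ m)
      (u₁ * ((I.C s hs).y₁ ^ j) ^ m) := by
    rw [hfV]
    exact X.R₁.mul ha₁ (RedDatum.pow (red_zpow I.hπ (I.C s hs).red₁ (I.C s hs).y₁_ne _) m)
  have hR₂ : X.R₂.Red (f * (algebraMap K F t * V₀ * (I.C s hs).y ^ j) ^ m)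
      (u₂ * ((I.C s hs).y₂ ^ j) ^ m) := by
    have h3 := X.R₂.mul ha₂ (RedDatum.pow (red_zpow I.hπ (I.C s hs).red₂ (I.C s hs).y₂_ne j) m)
    have hw : (((I.C s hs).w : ℕ) : ℤ) = 1 := by rw [I.C_w s hs]; rfl
    rw [hw, zpow_one] at h3
    rw [hfV]
    convert h3 using 1
    have e4 : (algebraMap K F (q : K)⁻¹ * (I.C s hs).y) ^ j =
        algebraMap K F (((q : K) ^ j)⁻¹) * (I.C s hs).y ^ j := by
      rw [mul_zpow, ← map_zpow₀, inv_zpow]
    rw [e4, mul_pow, ← map_pow]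
    have e5 : ((q : K) ^ a₁)⁻¹ = ((q : K) ^ a₂)⁻¹ * (((q : K) ^ j)⁻¹) ^ m := by
      rw [inv_pow, ← zpow_natCast ((q : K) ^ j), ← zpow_mul, ← zpow_neg, ← zpow_neg,
        ← zpow_neg, ← zpow_add₀ hqne]
      congr 1
      rw [hj]
      linarith
    rw [e5, map_mul]
    ring
  obtain ⟨V₁, hV₁, hV₁', -⟩ := exists_red_of_pow I.hπ hm.ne' H.red.1 H.ne₁ hR₁
    (mul_ne_zero hu₁ (pow_ne_zero _ (zpow_ne_zero _ (I.C s hs).y₁_ne)))
  obtain ⟨V₂, hV₂, hV₂', -⟩ := exists_red_of_pow I.hπ hm.ne' H.red.2 H.ne₂ hR₂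
    (mul_ne_zero hu₂ (pow_ne_zero _ (zpow_ne_zero _ (I.C s hs).y₂_ne)))
  refine ⟨_, V₁, V₂, hV0, hV₁, hV₂, hV₁', hV₂', ?_⟩
  rw [hfV]
  have hq₀ : ∀ a : ℤ, algebraMap K F ((q : K) ^ a)⁻¹ ∈ F₀ := by
    intro a
    rw [map_inv₀, map_zpow₀]
    exact inv_mem (zpow_mem I.disc₁.mem_F₀ a)
  exact mul_mem (mul_mem (hq₀ a₁) hf'F) (pow_mem (zpow_mem (I.C_mem s hs) _) _)

end LOInst

end Inst

end Fermat.Agent.RT8
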