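import Fermat.Agent.RT8.OldInst
import Fermat.Agent.DR.S36.Final

/-!
# RT8: the instance of `OffSS` for the modular curves
-/

set_option autoImplicit false
set_option linter.unusedSectionVars false

noncomputable section

open AlgebraicCurve ModularCurve Fermat.Agent.RR Fermat.Agent.JRED

namespace Fermat.Agent.RT8

open Fermat.Agent.DR Fermat.Agent.DR.Mod Fermat.Agent.DR.Mod2 Fermat.Agent.DR.ModGal
  Fermat.Agent.DR.S36
open Fermat.Agent.JRED.ESGalois Fermat.Agent.JRED.ESSemi
open S36.L S36.Unit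
open Fermat.Agent.Q2 (Ctx)
open Fermat.Agent.Q2.Ord (jE₁ jE₂ jE₃ ssj)

local notation "ℚbar" => AlgebraicClosure ℚ

attribute [local instance] Fermat.Agent.DR.S36.L.algInc

variable {A : ValuationSubring ℚbar} {k : Type} [Field k]
  {N q : ℕ} [NeZero N] [hq : Fact q.Prime] [hchar : CharP k q] [IsAlgClosed k]
  {π : A →+* k}
  {w₁ : laurentBaseChange ℚbar (modularFunctionFieldFull (N * q)) ≃ₐ[ℚbar]
      laurentBaseChange ℚbar (modularFunctionFieldFull (N * q))}
  {w₂ : laurentBaseChange ℚbar (modularFunctionFieldFull (N * q * q)) ≃ₐ[ℚbar]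
      laurentBaseChange ℚbar (modularFunctionFieldFull (N * q * q))}
  (c : Ctx π w₁ w₂) {L : Type} [Field L] [Algebra L ℚbar] [IsInertiaField A L]
  [FunctionField ℚbar (modularFunctionFieldBar (N * q * q))]
  [FunctionField ℚbar (modularFunctionFieldBar (N * q))]
  [FunctionField ℚbar (modularFunctionFieldBar N)]
  [FunctionField k (modularFunctionFieldFullC k N)]
  {X : NodalDatum ℚbar (modularFunctionFieldBar (N * q)) k
      (modularFunctionFieldFullC k N) (modularFunctionFieldFullC k N) A π}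
  {r : Place ℚbar (modularFunctionFieldBar N) → Place k (modularFunctionFieldFullC k N)}
  (hdeg : DegreeInput N k) (hgood : GoodReduction N k)
  (hr : PlaceRed (hdeg.redDatum c.S.surj) r) (hX : IsModularNodal c.S X)
  (hα : (heckeAlphaBar ℚbar (N * q) q).toRingHom.IsIntegral)
  (hβ : (heckeBetaBar ℚbar (N * q) q).toRingHom.IsIntegral)

/-- **`OffSS` for the modular curves.** -/
theorem offSS_modular (hM : Rigid N) (h1 : LocalGen (L := L) c hdeg hgood hr hα hβ hX)
    (h2 : IsRigid (L := L) c hdeg hgood hr hα hβ hX)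
    (Pt : (surf c L).Points (jE₁ L N q * jE₃ L N q) (jRed k N))
    (e : (ctxNodes c L hdeg hgood hr hX hα hβ).S → Pt.T)
    (hsp : ∀ s, Pt.sp (e s) = (ctxNodes c L hdeg hgood hr hX hα hβ).sp s)
    (he : Function.Surjective e) {m : ℕ} (hm : m ≠ 0) :
    OffSS (coreOf c hdeg hgood hr hX hα hβ hM h1 h2) m := by
  have := isDiscreteValuationRing (L := L) hq.out c.hA
  have := charZero_of_algebra L
  have hx := isChart c hdeg hgood (L := L)
  have hx' := isChart_inv c hdeg hgood (L := L)
  intro f D t hf hD ht ht0 i P hP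
  refine Pt.dvd_ord hx hx' rfl hm hf hD (ht i) (ht0 i) fun s => ?_
  obtain ⟨s, rfl⟩ := he s
  rw [hsp]
  exact (hP s).symm

/-- **`OffSS` for the modular curves**, unconditional. -/
theorem offSS_core (hM : Rigid N) (h4 : q = 2 ∨ q = 3 ∨ 4 ∣ N)
    (h1 : LocalGen (L := L) c hdeg hgood hr hα hβ hX)
    (h2 : IsRigid (L := L) c hdeg hgood hr hα hβ hX) {m : ℕ} (hm : m ≠ 0) :
    OffSS (coreOf c hdeg hgood hr hX hα hβ hM h1 h2) m :=
  offSS_modular c hdeg hgood hr hX hα hβ hM h1 h2 (ptsOf c hdeg hgood hr hX hα hβ hM h4) id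
    (fun _ => rfl) Function.surjective_id hm

end Fermat.Agent.RT8
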