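import Fermat.Agent.RT8.Old
import Fermat.Agent.RT8.OldProp
import Fermat.Agent.DR.S36.Assemble
import Fermat.Agent.DR.Nodal.Spec

/-!
# RT8: the theorem OLD for classes of `J₀(Nq²)` from the geometric package
-/

set_option autoImplicit false
set_option linter.unusedSectionVars false
set_option linter.style.haveILetI false

noncomputable section

open AlgebraicCurve ModularCurve Fermat.Agent.RR Fermat.Agent.JRED

namespace Fermat.Agent.RT8

open Fermat.Agent.DR Fermat.Agent.DR.S36 Fermat.Agent.JAN.Degeneracy Fermat.Agent.JAN.KumPic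
open Fermat.Agent.Jan.DegreeWiring Fermat.Agent.Jan.PushPull

local notation "ℚbar" => AlgebraicClosure ℚ

/-- The norm input: for every prime `ℓ` prime to the level, the function
`N_α (β f / α f)` is rational over the inertia field and has valuation zero along the three
components. -/
def NormInput {N q : ℕ} [NeZero N] [NeZero q] {A : ValuationSubring ℚbar} {FL k κ : Type}
    [Field FL] [Field k] [Field κ] [Algebra k κ] [Algebra FL (modularFunctionFieldBar (N * q * q))]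
    {π : A →+* k}
    (X : Core ℚbar (modularFunctionFieldBar (N * q * q)) (modularFunctionFieldBar (N * q)) FL k κ
      A π q) (ℓ : ℕ) [NeZero ℓ] : Prop :=
  ∀ z : FL, z ≠ 0 → ∃ z' : FL, z' ≠ 0 ∧
    algebraMap FL (modularFunctionFieldBar (N * q * q)) z' =
      normAlong (heckeAlphaBar ℚbar (N * q * q) ℓ)
        (heckeBetaBar ℚbar (N * q * q) ℓ (algebraMap FL (modularFunctionFieldBar (N * q * q)) z) /
          heckeAlphaBar ℚbar (N * q * q) ℓ
            (algebraMap FL (modularFunctionFieldBar (N * q * q)) z)) ∧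
      ∀ i, X.w i z' = 0

/-- `(T_ℓ - ℓ - 1)` on Kummer classes. -/
theorem hecke_sub_cls {M : ℕ} [NeZero M] {p : ℕ} (ℓ : Nat.Primes) (hℓ : ¬ (ℓ : ℕ) ∣ M)
    {f : modularFunctionFieldBar M} (hf0 : f ≠ 0) (hf : DvdOrd ℚbar p f) :
    haveI : NeZero (ℓ : ℕ) := ⟨ℓ.2.ne_zero⟩
    haveI := hasPrincipalDivisors_modular' ℚbar M
    heckeOperatorBar M ℓ (cls p f) - ((ℓ : ℕ) + 1 : ℤ) • (cls (K := ℚbar) p f) =
      cls p (normAlong (heckeAlphaBar ℚbar M ℓ)
        (heckeBetaBar ℚbar M ℓ f / heckeAlphaBar ℚbar M ℓ f)) := by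
  haveI : NeZero (ℓ : ℕ) := ⟨ℓ.2.ne_zero⟩
  haveI := hasPrincipalDivisors_modular' ℚbar M
  haveI := hasPrincipalDivisors_modular' ℚbar (M * ℓ)
  have hα0 : heckeAlphaBar ℚbar M ℓ f ≠ 0 := (_root_.map_ne_zero _).mpr hf0
  have hβ0 : heckeBetaBar ℚbar M ℓ f ≠ 0 := (_root_.map_ne_zero _).mpr hf0
  have hα : DvdOrd ℚbar p (heckeAlphaBar ℚbar M ℓ f) :=
    DvdOrd.map _ (isIntegral_modular ℚbar _) hf
  have hβ : DvdOrd ℚbar p (heckeBetaBar ℚbar M ℓ f) :=
    DvdOrd.map _ (isIntegral_modular ℚbar _) hf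
  rw [← alphaPush_cls (div_ne_zero hβ0 hα0) (hβ.div hα), cls_div hβ0 hα0 hβ hα,
    ← betaPull_cls hf, ← alphaPull_cls hf, map_sub, alphaPush_betaPull,
    alphaPush_alphaPull ℓ.2, if_neg hℓ]
  congr 1

variable {N q : ℕ} [NeZero N] [NeZero q] {p : ℕ} {A : ValuationSubring ℚbar} {FL k κ : Type}
    [Field FL] [Field k] [Field κ] [Algebra k κ] [Algebra FL (modularFunctionFieldBar (N * q * q))]
    {π : A →+* k} [IsAlgClosed k] [FunctionField k κ]

/-- **OLD** at a place over `q`. -/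
theorem old_of_core
    (X : Core ℚbar (modularFunctionFieldBar (N * q * q)) (modularFunctionFieldBar (N * q)) FL k κ
      A π q) (O : OldData X)
    (hα : ∀ D, O.pbα D = Divisor.pullbackAlong (heckeAlphaBar ℚbar (N * q) q)
      (isIntegral_modular ℚbar _) D)
    (hβ : ∀ D, O.pbβ D = Divisor.pullbackAlong (heckeBetaBar ℚbar (N * q) q)
      (isIntegral_modular ℚbar _) D)
    (hcl : ClassInput (N * q * q) q A FL) (hp : p ≠ 0) (hpk : (p : k) ≠ 0)
    (hqp : Nat.Coprime q p) (hE : OffSS X p) (hL : LevelOne X O.DR p)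
    (ℓ : Nat.Primes) (hℓ : ¬ (ℓ : ℕ) ∣ N * q * q)
    (hnorm : haveI : NeZero (ℓ : ℕ) := ⟨ℓ.2.ne_zero⟩; NormInput X (ℓ : ℕ))
    {x : JZero (N * q * q)} (hx : p • x = 0) (hfix : ∀ τ ∈ A.inertiaSubgroupIn ℚ, τ • x = x) :
    ∃ y y' : JZero (N * q), p • y = 0 ∧ p • y' = 0 ∧
      heckeOperatorBar (N * q * q) ℓ x - ((ℓ : ℕ) + 1 : ℤ) • x =
        alphaPull (N * q) q y + betaPull (N * q) q y' := by
  haveI : NeZero (ℓ : ℕ) := ⟨ℓ.2.ne_zero⟩
  haveI := hasPrincipalDivisors_modular' ℚbar (N * q * q)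
  obtain ⟨D, rfl, z, hz, hord⟩ := hcl p hqp.symm x hx hfix
  have hz0 : algebraMap FL (modularFunctionFieldBar (N * q * q)) z ≠ 0 :=
    (_root_.map_ne_zero _).mpr hz
  have hdvd : DvdOrd ℚbar p (algebraMap FL (modularFunctionFieldBar (N * q * q)) z) :=
    fun v => ⟨_, hord v⟩
  have hcls : cls p (algebraMap FL (modularFunctionFieldBar (N * q * q)) z) =
      Pic0.mk D := cls_eq_mk hp fun v => (hord v).symm
  obtain ⟨z', hz', hzn, hw⟩ := hnorm z hz
  have key := hecke_sub_cls ℓ hℓ hz0 hdvd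
  rw [hcls, ← hzn] at key
  -- the root divisor
  have hα0 : heckeAlphaBar ℚbar (N * q * q) ℓ
      (algebraMap FL (modularFunctionFieldBar (N * q * q)) z) ≠ 0 := (_root_.map_ne_zero _).mpr hz0
  have hβ0 : heckeBetaBar ℚbar (N * q * q) ℓ
      (algebraMap FL (modularFunctionFieldBar (N * q * q)) z) ≠ 0 := (_root_.map_ne_zero _).mpr hz0
  haveI := hasPrincipalDivisors_modular' ℚbar (N * q * q * ℓ)
  have hdvd' : DvdOrd ℚbar p (algebraMap FL (modularFunctionFieldBar (N * q * q)) z') := by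
    rw [hzn]
    exact DvdOrd.normAlong _ (isIntegral_modular ℚbar _) (finiteAlong_modular ℚbar _)
      (normFormula_modular ℚbar _)
      ((DvdOrd.map _ (isIntegral_modular ℚbar _) hdvd).div
        (DvdOrd.map _ (isIntegral_modular ℚbar _) hdvd))
  obtain ⟨D₂, hD₂⟩ := exists_degZero hp hdvd'
  rw [cls_eq_mk hp hD₂] at key
  obtain ⟨D', D'', h1, h2, h3, h4, h5⟩ := O.main hp hpk hqp hE hL hz'
    (fun P => (hD₂ P).symm) (Divisor.mem_degZero.mp D₂.2) hw
  refine ⟨Pic0.mk ⟨D', Divisor.mem_degZero.mpr h1⟩, Pic0.mk ⟨D'', Divisor.mem_degZero.mpr h2⟩,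
    ?_, ?_, ?_⟩
  · have e : p • Pic0.mk (⟨D', Divisor.mem_degZero.mpr h1⟩ :
        Divisor.degZero (K := ℚbar) (F := modularFunctionFieldBar (N * q))) =
        Pic0.mk (p • ⟨D', Divisor.mem_degZero.mpr h1⟩) := rfl
    rw [e, Fermat.Agent.DR.pic0_mk_eq_zero_iff]
    exact h3
  · have e : p • Pic0.mk (⟨D'', Divisor.mem_degZero.mpr h2⟩ :
        Divisor.degZero (K := ℚbar) (F := modularFunctionFieldBar (N * q))) =
        Pic0.mk (p • ⟨D'', Divisor.mem_degZero.mpr h2⟩) := rfl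
    rw [e, Fermat.Agent.DR.pic0_mk_eq_zero_iff]
    exact h4
  · rw [key, alphaPull, betaPull, pull_mk, pull_mk]
    show Pic0.mk D₂ = Pic0.mk (_ + _)
    rw [Fermat.Agent.DR.pic0_mk_eq_iff]
    have e : (D₂ : Divisor ℚbar (modularFunctionFieldBar (N * q * q))) -
        ((degZeroPull (heckeAlphaBar ℚbar (N * q) q) (isIntegral_modular ℚbar _)
          (fundamentalIdentity_modular _) ⟨D', Divisor.mem_degZero.mpr h1⟩ +
        degZeroPull (heckeBetaBar ℚbar (N * q) q) (isIntegral_modular ℚbar _)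
          (fundamentalIdentity_modular _) ⟨D'', Divisor.mem_degZero.mpr h2⟩ :
          Divisor.degZero (K := ℚbar) (F := modularFunctionFieldBar (N * q * q))) :
          Divisor ℚbar (modularFunctionFieldBar (N * q * q))) =
        (D₂ : Divisor ℚbar (modularFunctionFieldBar (N * q * q))) - O.pbα D' - O.pbβ D'' := by
      rw [hα, hβ, sub_sub]
      rfl
    rw [e]
    exact h5

end Fermat.Agent.RT8
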