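import Fermat.Agent.IH.TameGen
import Fermat.Agent.CMP.S58Assembly
import Fermat.Agent.RT.SelTame

/-!
# RT8 (helper29): residually unipotent inertia at `2` is unipotent (residue characteristic `≥ 5`)
-/

set_option autoImplicit false
set_option linter.unusedSectionVars false

open IsLocalRing Matrix Polynomial
open Fermat.Agent.UDef (GalQ MCont IsModel)

namespace Fermat.Agent.RT8.TameA

open Fermat.Agent.IH Fermat.Agent

theorem charpoly_fin_two' {R : Type*} [CommRing R] [Nontrivial R] (X : Matrix (Fin 2) (Fin 2) R) :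
    X.charpoly = Polynomial.X ^ 2 - C X.trace * Polynomial.X + C X.det := Matrix.charpoly_fin_two X

/-- residual step -/
theorem pow_p_sub_one_mem {A : Type} [CommRing A] [IsLocalRing A] {p : ℕ} (hp : p.Prime)
    (hpA : (p : A) ∈ maximalIdeal A) {X : Matrix (Fin 2) (Fin 2) A}
    (h : (X.map (residue A)).charpoly = (Polynomial.X - 1) ^ 2) :
    ∀ i j, (X ^ p - 1) i j ∈ maximalIdeal A := by
  have : Fact p.Prime := ⟨hp⟩
  have hchar : CharP (ResidueField A) p := by
    refine (CharP.charP_iff_prime_eq_zero hp).mpr ?_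
    rw [← map_natCast (residue A), residue_eq_zero_iff]
    exact hpA
  set Y := X.map (residue A) with hY
  have h1 : (Y - 1) ^ 2 = 0 := by
    have h2 := Matrix.aeval_self_charpoly Y
    rw [h] at h2
    simpa using h2
  have h3 : Y ^ p - 1 = 0 := by
    have h4 : (Y - 1) ^ p = Y ^ p - 1 ^ p := sub_pow_char_of_commute _ (Commute.one_right Y)
    rw [one_pow] at h4
    rw [← h4]
    obtain ⟨m, hm⟩ := Nat.exists_eq_add_of_le hp.two_le
    rw [hm, pow_add, h1, zero_mul]
  intro i j
  rw [← residue_eq_zero_iff]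
  have h5 : (X ^ p - 1).map (residue A) = Y ^ p - 1 := by
    have := map_sub (residue A).mapMatrix (X ^ p) 1
    rw [map_pow, map_one] at this
    exact this
  have h6 := congrFun (congrFun (h5.trans h3) i) j
  exact h6

/-- **Inertia at `2`**: residually unipotent implies unipotent if the residue characteristic is not
`2` or `3`. -/
theorem charpoly_eq {A : Type} [CommRing A] [IsLocalRing A] [IsNoetherianRing A] [IsDomain A]
    (ρ : GaloisRepAdic A) {p : ℕ} (hp : p.Prime) (hp2 : p ≠ 2) (hp3 : p ≠ 3)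
    (hpA : (p : A) ∈ maximalIdeal A) {P : ValuationSubring (AlgebraicClosure ℚ)}
    (hP : P.LiesOverPrime 2)
    (hres : ∀ σ ∈ P.inertiaSubgroupIn ℚ, LinearMap.charpoly (ρ.residual.ρ σ) = (X - 1) ^ 2) :
    ∀ σ ∈ P.inertiaSubgroupIn ℚ, LinearMap.charpoly (ρ.ρ σ) = (X - 1) ^ 2 := by
  obtain ⟨M, hM⟩ := UDef.exists_model ρ
  obtain ⟨b, hb⟩ := hM
  have hcont := UDef.IsModel.mcont ⟨b, hb⟩
  have hcp : ∀ σ, LinearMap.charpoly (ρ.ρ σ) = (M σ).charpoly := fun σ => by
    rw [← hb, LinearMap.charpoly_toMatrix]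
  have hresM : ∀ σ ∈ P.inertiaSubgroupIn ℚ,
      ((M σ).map (residue A)).charpoly = (X - 1) ^ 2 := by
    intro σ hσ
    rw [← hres σ hσ, CMP.S58Assembly.charpoly_residual, hcp, Matrix.charpoly_map]
  have hexp : ∀ n, ∀ σ ∈ P.inertiaSubgroupIn ℚ, redU M n σ ^ p ^ (n + 1) = 1 := by
    intro n σ hσ
    have h1 := pow_sub_one_mem hpA (pow_p_sub_one_mem hp hpA (hresM σ hσ)) n
    rw [← map_pow, redU_eq_one_iff]
    intro i i'
    rw [map_pow, pow_succ', pow_mul]
    exact Ideal.pow_le_pow_right (Nat.le_succ n) (h1 i i')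
  obtain ⟨φ, hφ⟩ := FrobExists.exists_isFrobeniusAt P Nat.prime_two hP
  intro τ hτ
  have hconj : M (φ * τ * φ⁻¹) = M τ ^ 2 := by
    ext i j
    rw [← sub_eq_zero]
    refine FrobCompare.eq_zero_of_forall_mem_pow fun n => ?_
    have h1 := RT.SelTame.frobenius_tame Nat.prime_two hP (redU M n) (redU_factors hcont n)
      (p := p ^ (n + 1)) (Nat.Coprime.pow_left _ ((Nat.coprime_primes hp Nat.prime_two).mpr hp2))
      (hexp n) hφ hτ
    rw [redU_eq_pow_iff] at h1
    have h2 := h1 i j
    rwa [Matrix.sub_apply] at h2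
  set Y := M τ with hY
  have hinv : M φ⁻¹ * M φ = 1 := by rw [← map_mul, inv_mul_cancel, map_one]
  have htr : (Y ^ 2).trace = Y.trace := by
    rw [← hconj, map_mul, map_mul, Matrix.trace_mul_comm, ← Matrix.mul_assoc, hinv, Matrix.one_mul]
  have hdet : Y.det ^ 2 = Y.det := by
    have h1 : (Y ^ 2).det = Y.det := by
      rw [← hconj, map_mul, map_mul, Matrix.det_mul, Matrix.det_mul, mul_comm, ← mul_assoc,
        ← Matrix.det_mul, hinv, Matrix.det_one, one_mul]
    rwa [Matrix.det_pow] at h1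
  have hdetu : IsUnit Y.det := by
    have h1 : M τ * M τ⁻¹ = 1 := by rw [← map_mul, mul_inv_cancel, map_one]
    exact Matrix.isUnit_det_of_right_inverse h1
  have hdet1 : Y.det = 1 := by
    obtain ⟨u, hu⟩ := hdetu
    rw [← hu] at hdet ⊢
    have : u * u = u := Units.ext (by rw [Units.val_mul, ← sq]; exact hdet)
    rw [mul_eq_left.mp this, Units.val_one]
  have htr2 : (Y ^ 2).trace = Y.trace ^ 2 - 2 * Y.det := by
    rw [Matrix.trace_fin_two, Matrix.trace_fin_two, Matrix.det_fin_two, pow_two, Matrix.mul_apply,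
      Matrix.mul_apply, Fin.sum_univ_two, Fin.sum_univ_two]
    ring
  rw [hdet1, htr] at htr2
  have h3 : (Y.trace - 2) * (Y.trace + 1) = 0 := by linear_combination -htr2
  -- the residual trace
  have hrt : residue A Y.trace = 2 := by
    have h1 := hresM τ hτ
    rw [charpoly_fin_two'] at h1
    have h2 := congrArg (fun Q => Q.coeff 1) h1
    have e1 : ((X - 1 : (ResidueField A)[X]) ^ 2) = X ^ 2 - C 2 * X + C 1 := by
      rw [C_1, show (C 2 : (ResidueField A)[X]) = 2 from map_ofNat C 2]; ring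
    rw [e1] at h2
    simp only [coeff_add, coeff_sub, coeff_X_pow, coeff_C_mul, coeff_X_one, mul_one] at h2
    rw [coeff_C, coeff_C, if_neg one_ne_zero, if_neg one_ne_zero] at h2
    simp only [OfNat.one_ne_ofNat, if_false, zero_sub, add_zero, neg_inj] at h2
    rw [← h2]
    exact (AddMonoidHom.map_trace (residue A).toAddMonoidHom Y).trans rfl
  rcases mul_eq_zero.mp h3 with h4 | h4
  · have ht : Y.trace = 2 := sub_eq_zero.mp h4
    rw [hcp, ← hY, charpoly_fin_two', ht, hdet1, C_1, show (C 2 : A[X]) = 2 from map_ofNat C 2]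
    ring
  · exfalso
    have ht : Y.trace = -1 := eq_neg_of_add_eq_zero_left h4
    rw [ht, map_neg, map_one] at hrt
    have h5 : ((3 : ℕ) : ResidueField A) = 0 := by push_cast; linear_combination -hrt
    have hchar : CharP (ResidueField A) p := by
      refine (CharP.charP_iff_prime_eq_zero hp).mpr ?_
      rw [← map_natCast (residue A), residue_eq_zero_iff]
      exact hpA
    rw [CharP.cast_eq_zero_iff (ResidueField A) p] at h5
    exact hp3 ((Nat.prime_dvd_prime_iff_eq hp Nat.prime_three).mp h5)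

end Fermat.Agent.RT8.TameA
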