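import Mathlib

/-!
# RT8 (helper29): the algebra of the mod `3` argument at `2`

`exists_fixed`: `V` a finite module with a commuting family `t`, an action `ρ` of a finite group `Δ`
with `|Δ| = 0` in the coefficient ring and such that every invariant is a norm, and involutions `s j`
such that `Δ` acts trivially on the vectors on which all `s j` act by `-1`. If there is a nonzero
vector killed by all `t i`, there is one which is moreover fixed by some `s j`.
-/

set_option autoImplicit false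

namespace Fermat.Agent.RT8.Two

/-- Some positive power of an element of a finite monoid is idempotent. -/
theorem exists_pow_idempotent {M : Type*} [Monoid M] [Finite M] (x : M) :
    ∃ n : ℕ, 0 < n ∧ x ^ n * x ^ n = x ^ n := by
  obtain ⟨i, j, hij, h⟩ := Finite.exists_ne_map_eq_of_infinite (fun n : ℕ => x ^ n)
  wlog hlt : i < j generalizing i j
  · exact this j i (Ne.symm hij) h.symm (lt_of_le_of_ne (not_lt.mp hlt) (Ne.symm hij))
  obtain ⟨p, rfl⟩ := Nat.exists_eq_add_of_lt hlt
  have h1 : x ^ i = x ^ (i + (p + 1)) := h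
  have key : ∀ k m : ℕ, x ^ (i + m + k * (p + 1)) = x ^ (i + m) := by
    intro k
    induction k with
    | zero => intro m; simp
    | succ k ih =>
      intro m
      have e : i + m + (k + 1) * (p + 1) = (i + (p + 1)) + (m + k * (p + 1)) := by ring
      rw [e, pow_add, ← h1, ← pow_add, ← add_assoc, ih m]
  refine ⟨(i + 1) * (p + 1), Nat.mul_pos (Nat.succ_pos _) (Nat.succ_pos _), ?_⟩
  rw [← pow_add]
  obtain ⟨m, hm⟩ : ∃ m, (i + 1) * (p + 1) = i + m := ⟨i * p + p + 1, by ring⟩
  have := key (i + 1) m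
  rw [← hm] at this
  exact this

variable {k V : Type*} [CommRing k] [AddCommGroup V] [Module k V]

/-- The product of the `1 - f`. -/
theorem exists_projector (F : Finset (Module.End k V))
    (hF : ∀ f ∈ F, f * f = f) (hc : ∀ f ∈ F, ∀ g ∈ F, f * g = g * f) :
    ∃ e : Module.End k V, (∀ f ∈ F, f * e = 0) ∧ (∀ x, (∀ f ∈ F, f x = 0) → e x = x) ∧
      ∀ s : Module.End k V, (∀ f ∈ F, s * f = f * s) → s * e = e * s := by
  classical
  induction F using Finset.induction_on with
  | empty =>
    exact ⟨1, by simp, by simp, fun s _ => by rw [mul_one, one_mul]⟩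
  | insert f F hf ih =>
    obtain ⟨e, h1, h2, h3⟩ := ih (fun g hg => hF g (Finset.mem_insert_of_mem hg))
      (fun g hg g' hg' => hc g (Finset.mem_insert_of_mem hg) g' (Finset.mem_insert_of_mem hg'))
    have hff := hF f (Finset.mem_insert_self _ _)
    refine ⟨(1 - f) * e, fun g hg => ?_, fun x hx => ?_, fun s hs => ?_⟩
    · rcases Finset.mem_insert.mp hg with rfl | hg'
      · rw [← mul_assoc, mul_sub, mul_one, hff, sub_self, zero_mul]
      · rw [← mul_assoc, mul_sub, mul_one, hc g hg f (Finset.mem_insert_self _ _), sub_mul,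
          mul_assoc, h1 g hg', mul_zero, sub_zero]
    · rw [Module.End.mul_apply, h2 x (fun g hg => hx g (Finset.mem_insert_of_mem hg)),
        LinearMap.sub_apply, Module.End.one_apply, hx f (Finset.mem_insert_self _ _), sub_zero]
    · have h4 := h3 s (fun g hg => hs g (Finset.mem_insert_of_mem hg))
      have h5 := hs f (Finset.mem_insert_self _ _)
      rw [← mul_assoc, mul_sub, mul_one, h5, mul_assoc (1 - f), ← h4, sub_mul, sub_mul, one_mul,
        mul_assoc f s e]

/-- In a nonzero stable finite submodule on which a commuting family is nilpotent there is a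
nonzero vector killed by the family. -/
theorem exists_killed [Finite V] {I : Type*} (t : I → Module.End k V)
    (ht : ∀ i j, t i * t j = t j * t i) (W : Submodule k V) (hW : W ≠ ⊥)
    (hst : ∀ i, ∀ x ∈ W, t i x ∈ W) (hnil : ∀ i, ∀ x ∈ W, ∃ n : ℕ, ((t i) ^ n) x = 0) :
    ∃ v ∈ W, v ≠ 0 ∧ ∀ i, t i v = 0 := by
  classical
  let 𝒮 : Set (Submodule k V) := {U | U ≠ ⊥ ∧ U ≤ W ∧ ∀ i, ∀ x ∈ U, t i x ∈ U}
  have hfin : Finite (Submodule k V) := inferInstance
  obtain ⟨U, hU⟩ := (Set.toFinite 𝒮).exists_minimal ⟨W, hW, le_rfl, hst⟩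
  obtain ⟨⟨hU0, hUW, hUt⟩, hmin⟩ := hU
  obtain ⟨v, hv, hv0⟩ := (Submodule.ne_bot_iff U).mp hU0
  refine ⟨v, hUW hv, hv0, fun i => ?_⟩
  have h1 : U ⊓ LinearMap.ker (t i) ∈ 𝒮 := by
    refine ⟨?_, inf_le_left.trans hUW, fun j x hx => ?_⟩
    · obtain ⟨n, hn⟩ := hnil i v (hUW hv)
      -- the last nonzero iterate
      have hex : ∃ n : ℕ, ((t i) ^ n) v = 0 := ⟨n, hn⟩
      have hpos : Nat.find hex ≠ 0 := fun h => hv0 (by
        have := Nat.find_spec hex
        rwa [h, pow_zero, Module.End.one_apply] at this)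
      obtain ⟨m, hm⟩ := Nat.exists_eq_succ_of_ne_zero hpos
      have hm1 : ((t i) ^ m) v ≠ 0 := Nat.find_min hex (by omega)
      have hm2 : ((t i) ^ (m + 1)) v = 0 := by
        have := Nat.find_spec hex
        rwa [hm] at this
      have hmem : ∀ m : ℕ, ((t i) ^ m) v ∈ U := by
        intro m
        induction m with
        | zero => simpa using hv
        | succ m ih => rw [pow_succ', Module.End.mul_apply]; exact hUt i _ ih
      refine (Submodule.ne_bot_iff _).mpr ⟨((t i) ^ m) v, ⟨hmem m, ?_⟩, hm1⟩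
      rw [SetLike.mem_coe, LinearMap.mem_ker, ← Module.End.mul_apply, ← pow_succ']
      exact hm2
    · obtain ⟨hx1, hx2⟩ := Submodule.mem_inf.mp hx
      refine Submodule.mem_inf.mpr ⟨hUt j x hx1, ?_⟩
      rw [LinearMap.mem_ker] at hx2 ⊢
      rw [← Module.End.mul_apply, ht, Module.End.mul_apply, hx2, map_zero]
  exact LinearMap.mem_ker.mp (Submodule.mem_inf.mp (hmin h1 inf_le_left hv)).2

/-- **The main algebraic lemma.** -/
theorem exists_fixed [Finite V] {I J Δ : Type*} [Group Δ] [Fintype Δ] (t : I → Module.End k V)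
    (ht : ∀ i j, t i * t j = t j * t i) (ρ : Δ →* Module.End k V)
    (hρt : ∀ i δ, ρ δ * t i = t i * ρ δ) (s : J → Module.End k V) (hs : ∀ j, s j * s j = 1)
    (hst : ∀ i j, s j * t i = t i * s j)
    (hρs : ∀ v, (∀ j, s j v = - v) → ∀ δ, ρ δ v = v)
    (hfree : ∀ x, (∀ δ, ρ δ x = x) → ∃ y, ∑ δ, ρ δ y = x) (hcard : (Fintype.card Δ : k) = 0)
    {x₀ : V} (hx₀ : x₀ ≠ 0) (hx : ∀ i, t i x₀ = 0) :
    ∃ j, ∃ v ≠ 0, s j v = v ∧ ∀ i, t i v = 0 := by
  classical
  by_contra hcon
  push Not at hcon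
  have hfinE : Finite (Module.End k V) := Finite.of_injective (fun f : Module.End k V => (f : V → V))
    DFunLike.coe_injective
  choose n hn0 hn using fun i => exists_pow_idempotent (t i)
  let F : Finset (Module.End k V) := (Set.toFinite (Set.range fun i => (t i) ^ (n i))).toFinset
  have hFmem : ∀ f, f ∈ F ↔ ∃ i, (t i) ^ (n i) = f := fun f => by simp [F]
  have hcomm : ∀ i (g : Module.End k V), g * t i = t i * g → g * (t i) ^ (n i) = (t i) ^ (n i) * g :=
    fun i g h => (Commute.pow_right (h : Commute g (t i)) (n i))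
  obtain ⟨e, he1, he2, he3⟩ := exists_projector F (fun f hf => by
      obtain ⟨i, rfl⟩ := (hFmem f).mp hf
      exact hn i) (fun f hf g hg => by
      obtain ⟨i, rfl⟩ := (hFmem f).mp hf
      obtain ⟨j, rfl⟩ := (hFmem g).mp hg
      exact Commute.pow_pow (ht i j : Commute (t i) (t j)) _ _)
  -- the generalised eigenspace
  have hpow : ∀ i, ∀ x, t i x = 0 → ((t i) ^ (n i)) x = 0 := by
    intro i x hx
    obtain ⟨m, hm⟩ := Nat.exists_eq_succ_of_ne_zero (hn0 i).ne'
    rw [hm, pow_succ, Module.End.mul_apply, hx, map_zero]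
  let W : Submodule k V := ⨅ i, LinearMap.ker ((t i) ^ (n i))
  have hW : ∀ w, w ∈ W ↔ ∀ i, ((t i) ^ (n i)) w = 0 := fun w => by simp [W, Submodule.mem_iInf]
  have hneg : ∀ j, ∀ w ∈ W, s j w = - w := by
    intro j w hw
    let W' : Submodule k V := W ⊓ LinearMap.ker (s j - 1)
    by_contra hne
    have hmem : w + s j w ∈ W' := by
      refine Submodule.mem_inf.mpr ⟨Submodule.add_mem _ hw ((hW _).mpr fun i => ?_), ?_⟩
      · rw [← Module.End.mul_apply, ← hcomm i (s j) (hst i j), Module.End.mul_apply,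
          (hW w).mp hw i, map_zero]
      · rw [LinearMap.mem_ker, LinearMap.sub_apply, Module.End.one_apply, map_add,
          ← Module.End.mul_apply, hs j, Module.End.one_apply, add_comm, sub_self]
    have hW'0 : W' ≠ ⊥ := (Submodule.ne_bot_iff _).mpr ⟨_, hmem, fun h => hne
      (eq_neg_of_add_eq_zero_right h)⟩
    obtain ⟨v, hv, hv0, hvt⟩ := exists_killed t ht W' hW'0 (fun i x hx => by
        obtain ⟨hx1, hx2⟩ := Submodule.mem_inf.mp hx
        refine Submodule.mem_inf.mpr ⟨(hW _).mpr fun l => ?_, ?_⟩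
        · have h5 : t i * (t l) ^ (n l) = (t l) ^ (n l) * t i := hcomm l (t i) (ht i l)
          rw [← Module.End.mul_apply, ← h5, Module.End.mul_apply, (hW x).mp hx1 l, map_zero]
        · rw [LinearMap.mem_ker, LinearMap.sub_apply, Module.End.one_apply, sub_eq_zero] at hx2 ⊢
          rw [← Module.End.mul_apply, hst, Module.End.mul_apply, hx2])
      (fun i x hx => ⟨n i, (hW x).mp (Submodule.mem_inf.mp hx).1 i⟩)
    have h6 : s j v = v := by
      have := (Submodule.mem_inf.mp hv).2
      rwa [LinearMap.mem_ker, LinearMap.sub_apply, Module.End.one_apply, sub_eq_zero] at this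
    obtain ⟨i, hi⟩ := hcon j v hv0 h6
    exact hi (hvt i)
  have hρW : ∀ w ∈ W, ∀ δ, ρ δ w = w := fun w hw δ => hρs w (fun j => hneg j w hw) δ
  have hx₀W : x₀ ∈ W := (hW _).mpr fun i => hpow i _ (hx i)
  obtain ⟨y, hy⟩ := hfree x₀ (hρW x₀ hx₀W)
  have heW : ∀ z, e z ∈ W := fun z => (hW _).mpr fun i => by
    rw [← Module.End.mul_apply, he1 _ ((hFmem _).mpr ⟨i, rfl⟩), LinearMap.zero_apply]
  have hex₀ : e x₀ = x₀ := he2 x₀ fun f hf => by
    obtain ⟨i, rfl⟩ := (hFmem f).mp hf
    exact hpow i _ (hx i)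
  have heρ : ∀ δ z, e (ρ δ z) = ρ δ (e z) := fun δ z => by
    have := he3 (ρ δ) (fun f hf => by
      obtain ⟨i, rfl⟩ := (hFmem f).mp hf
      exact hcomm i (ρ δ) (hρt i δ))
    rw [← Module.End.mul_apply, ← this, Module.End.mul_apply]
  apply hx₀
  rw [← hex₀, ← hy, map_sum]
  simp only [heρ, hρW _ (heW y), Finset.sum_const, Finset.card_univ]
  rw [← Nat.cast_smul_eq_nsmul k, hcard, zero_smul]

end Fermat.Agent.RT8.Two
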