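import Fermat.Agent.RT.PartFree
import Fermat.Agent.LR.Level

/-!
# RT8 (helper29): the group `Γ₀(X) ∩ Γ(2)`, `X` odd, as a diamond datum with `Δ` of order `3`
-/

set_option autoImplicit false
set_option linter.unusedSectionVars false

open Matrix Matrix.SpecialLinearGroup CongruenceSubgroup
open scoped MatrixGroups OnePoint IsMulCommutative

noncomputable section

namespace Fermat.Agent.RT8.Two

open Fermat.Agent.LR Fermat.Agent.LR.PS Fermat.Agent.RT Fermat.Agent.RT.Dict ModularCurve.Period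
open Fermat.Agent.RT.Manin

local notation "S" => ModularGroup.S
local notation "T" => ModularGroup.T

/-- reduction mod `2` -/
def red : SL(2, ℤ) →* SL(2, ZMod 2) := Matrix.SpecialLinearGroup.map (Int.castRingHom (ZMod 2))

theorem red_apply (γ : SL(2, ℤ)) (i j : Fin 2) : red γ i j = ((γ i j : ℤ) : ZMod 2) := rfl

theorem red_eq_iff {γ γ' : SL(2, ℤ)} : red γ = red γ' ↔ ∀ i j, ((γ i j : ℤ) : ZMod 2) = (γ' i j : ℤ) :=
  ⟨fun h i j => by rw [← red_apply, ← red_apply, h], fun h => by ext i j; exact h i j⟩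

theorem red_neg_one : red (-1) = 1 := by
  rw [← map_one red, red_eq_iff]
  intro i j
  fin_cases i <;> fin_cases j <;> simp

theorem red_jConj (γ : SL(2, ℤ)) : red (jConjSL γ) = red γ := by
  rw [red_eq_iff]
  have h : ∀ a : ZMod 2, -a = a := by decide
  intro i j
  fin_cases i <;> fin_cases j <;> simp [jConjSL_coe, jConjMat, h]

/-- `[1 0; X 1]` -/
def lowMat (X : ℤ) : SL(2, ℤ) := mkSL 1 0 X 1 (by ring)

theorem lowMat_mem (X : ℕ) : lowMat X ∈ Gamma0 X := by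
  rw [mem_Gamma0_iff]
  simp [lowMat, mkSL_val]

/-- the element `[1 1; 0 1] [1 0; X 1]` of order `3` mod `2` -/
def cMat (X : ℤ) : SL(2, ℤ) := T * lowMat X

theorem T_mem (X : ℕ) : T ∈ Gamma0 X := by
  rw [mem_Gamma0_iff]; simp [ModularGroup.T]

theorem cMat_mem (X : ℕ) : cMat X ∈ Gamma0 X := mul_mem (T_mem X) (lowMat_mem X)

theorem coe_cMat (X : ℤ) : (cMat X : Matrix (Fin 2) (Fin 2) ℤ) = !![1 + X, 1; X, 1] := by
  rw [cMat, Matrix.SpecialLinearGroup.coe_mul, lowMat, mkSL_val, ModularGroup.coe_T]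
  ext i j
  fin_cases i <;> fin_cases j <;> simp [Matrix.mul_apply, Fin.sum_univ_two]

/-- the reduction of `cMat` -/
def cbar : SL(2, ZMod 2) := ⟨!![0, 1; 1, 1], by decide⟩

theorem red_cMat {X : ℕ} (hX : ¬ 2 ∣ X) : red (cMat X) = cbar := by
  have h2 : ((X : ℕ) : ZMod 2) = 1 := by
    rcases Nat.even_or_odd X with h | h
    · exact absurd h.two_dvd hX
    · obtain ⟨k, rfl⟩ := h
      push_cast
      have : (2 : ZMod 2) = 0 := by decide
      rw [this, zero_mul, zero_add]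
  have h11 : (1 + 1 : ZMod 2) = 0 := by decide
  ext i j
  rw [red_apply, coe_cMat]
  fin_cases i <;> fin_cases j <;> simp [cbar, h2, h11]

theorem cbar_pow_three : cbar ^ 3 = 1 := by decide

theorem cbar_ne_one : cbar ≠ 1 := by decide

theorem orderOf_cbar : orderOf cbar = 3 :=
  haveI : Fact (Nat.Prime 3) := ⟨Nat.prime_three⟩
  orderOf_eq_prime cbar_pow_three cbar_ne_one

/-- the group of order `3` -/
abbrev C3 : Type := ↥(Subgroup.zpowers cbar)

theorem card_C3 : Nat.card C3 = 3 := by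
  rw [Nat.card_zpowers, orderOf_cbar]

/-- the subgroup of index `2` of `Γ₀(X)` -/
def G0 (X : ℕ) : Subgroup SL(2, ℤ) := Gamma0 X ⊓ (Subgroup.zpowers cbar).comap red

theorem mem_G0 {X : ℕ} {γ : SL(2, ℤ)} : γ ∈ G0 X ↔ γ ∈ Gamma0 X ∧ red γ ∈ Subgroup.zpowers cbar :=
  Iff.rfl

/-- the diamond datum -/
def dat (X : ℕ) (hX : ¬ 2 ∣ X) : DiaData C3 where
  G₀ := G0 X
  d := (red.comp (G0 X).subtype).codRestrict (Subgroup.zpowers cbar) fun γ => γ.2.2
  surj := by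
    rintro ⟨c, hc⟩
    obtain ⟨n, rfl⟩ := Subgroup.mem_zpowers_iff.mp hc
    refine ⟨⟨(cMat X) ^ n, mem_G0.mpr ⟨zpow_mem (cMat_mem X) n, ?_⟩⟩, Subtype.ext ?_⟩
    · rw [map_zpow, red_cMat hX]; exact hc
    · change red ((cMat X) ^ n) = _
      rw [map_zpow, red_cMat hX]
  neg_mem := mem_G0.mpr ⟨neg_one_mem_Gamma0 X, by rw [red_neg_one]; exact one_mem _⟩
  d_neg := Subtype.ext red_neg_one
  conj_mem γ h := mem_G0.mpr ⟨jConjSL_mem_Gamma0 h.1, by rw [red_jConj]; exact h.2⟩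
  d_conj γ h := Subtype.ext (red_jConj γ)

variable {X : ℕ} {hX : ¬ 2 ∣ X}

theorem mem_Γ {γ : SL(2, ℤ)} : γ ∈ (dat X hX).Γ ↔ γ ∈ Gamma0 X ∧ red γ = 1 := by
  rw [DiaData.mem_Γ]
  constructor
  · rintro ⟨h, h1⟩
    exact ⟨h.1, congrArg Subtype.val h1⟩
  · rintro ⟨h, h1⟩
    exact ⟨mem_G0.mpr ⟨h, by rw [h1]; exact one_mem _⟩, Subtype.ext h1⟩

theorem mul_inv_mem {γ γ' : SL(2, ℤ)} (h : γ ∈ Gamma0 X) (h' : γ' ∈ Gamma0 X)
    (hr : red γ = red γ') : γ * γ'⁻¹ ∈ (dat X hX).Γ :=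
  mem_Γ.mpr ⟨mul_mem h (inv_mem h'), by rw [map_mul, map_inv, hr, mul_inv_cancel]⟩

theorem slash_eq_of_red {R : Type*} [CommRing R] {x : Pairs R} (hx : x ∈ MS (dat X hX).Γ R)
    {γ γ' : SL(2, ℤ)} (h : γ ∈ Gamma0 X) (h' : γ' ∈ Gamma0 X) (hr : red γ = red γ') :
    slash (toQ γ) x = slash (toQ γ') x := by
  have h1 := mul_inv_mem (hX := hX) h h' hr
  have h2 : toQ (γ : SL(2, ℤ)) = toQ (γ * γ'⁻¹) * toQ γ' := by
    rw [← toQ_mul', inv_mul_cancel_right]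
  rw [h2, slash_mul, hx.2 _ h1]

theorem slash_mem {R : Type*} [CommRing R] {x : Pairs R} (hx : x ∈ MS (dat X hX).Γ R)
    {γ : SL(2, ℤ)} (hγ : γ ∈ Gamma0 X) : slash (toQ γ) x ∈ MS (dat X hX).Γ R := by
  refine ⟨fun a b c => hx.1 _ _ _, fun γ' hγ' => ?_⟩
  obtain ⟨h1, h2⟩ := mem_Γ.mp hγ'
  rw [← slash_mul, ← toQ_mul']
  exact slash_eq_of_red hx (mul_mem hγ h1) hγ (by rw [map_mul, h2, mul_one])

theorem slash_mem_sgn {R : Type*} [CommRing R] {ε : ℤ} {x : Pairs R}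
    (hx : x ∈ sgnMS R ε (dat X hX).Γ) {γ : SL(2, ℤ)} (hγ : γ ∈ Gamma0 X) :
    slash (toQ γ) x ∈ sgnMS R ε (dat X hX).Γ := by
  rw [mem_sgnMS] at hx ⊢
  refine ⟨slash_mem hx.1 hγ, ?_⟩
  have h1 : toQ γ * jMat = jMat * toQ (jConjSL γ) := by
    rw [jMat_mul_toQ, jConjSL_jConjSL]
  rw [← slash_mul, h1, slash_mul, hx.2, map_smul]
  congr 1
  exact slash_eq_of_red hx.1 (jConjSL_mem_Gamma0 hγ) hγ (red_jConj γ)

theorem finiteIndex_G0 [NeZero X] : (G0 X).FiniteIndex := by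
  have h1 : (Gamma0 X).FiniteIndex := (Gamma0_is_congruence X).finiteIndex
  have h2 : ((Subgroup.zpowers cbar).comap red).FiniteIndex := by
    refine ⟨?_⟩
    rw [Subgroup.index_comap]
    have : (Subgroup.zpowers cbar).FiniteIndex := inferInstance
    exact fun h => this.index_ne_zero
      (Subgroup.index_eq_zero_of_relIndex_eq_zero h)
  exact inferInstanceAs (Gamma0 X ⊓ (Subgroup.zpowers cbar).comap red).FiniteIndex

theorem isUnit_two_zmod : IsUnit (2 : ZMod 3) := ⟨⟨2, 2, by decide, by decide⟩, rfl⟩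

theorem repFree {r : ℕ} [NeZero X] (hr : r.Prime) (hr3 : r % 3 = 2) (hrX : r ∣ X) :
    GR.RepFree ((dat X hX).dRep (ZMod 3) 1) := by
  have h0 : Fact (Nat.Prime 3) := ⟨Nat.prime_three⟩
  have h1 : (dat X hX).G₀.FiniteIndex := finiteIndex_G0
  have h2 : (dat X hX).Γ.FiniteIndex := finiteIndex_ker (dat X hX)
  refine DiaData.free_sgnMS (𝒪 := ZMod 3) (𝔇 := dat X hX) ?_ 3 ?_ ?_ ?_
  · exact isUnit_two_zmod
  · exact IsPGroup.of_card (n := 1) (by rw [card_C3, pow_one])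
  · rw [ZMod.natCast_self]; exact Ideal.zero_mem _
  · exact uGood_diaData (ZMod 3) (dat X hX)
      (fun γ hγ => Gamma0_mono hrX (mem_G0.mp hγ).1) hr hr3

end Fermat.Agent.RT8.Two
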