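import Fermat.Agent.RT8.TwoGrp

/-!
# RT8 (helper29): the Hecke operators for `Γ₀(X) ∩ Γ(2)`
-/

set_option autoImplicit false
set_option linter.unusedSectionVars false

open Matrix Matrix.SpecialLinearGroup CongruenceSubgroup
open scoped MatrixGroups OnePoint IsMulCommutative

noncomputable section

namespace Fermat.Agent.RT8.Two

open Fermat.Agent.LR Fermat.Agent.LR.PS Fermat.Agent.RT Fermat.Agent.RT.Dict ModularCurve.Period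
open Fermat.Agent.RT.Manin

local notation "S" => ModularGroup.S
local notation "T" => ModularGroup.T

variable {R : Type*} [CommRing R]

/-- `diag(1,2)` -/
def gMat : GL (Fin 2) ℚ := triMat 1 0 2

/-- the Hecke operator for `Γ₀(X) ∩ Γ(2)` -/
def op2 (ℓ : ℕ) : Pairs R →ₗ[R] Pairs R :=
  ∑ j ∈ Finset.range ℓ, slash (heckeMat ℓ (2 * (j : ℤ))) + slash (diagMat ℓ)

theorem op2_apply (ℓ : ℕ) (x : Pairs R) : op2 ℓ x =
    ∑ j ∈ Finset.range ℓ, slash (heckeMat ℓ (2 * (j : ℤ))) x + slash (diagMat ℓ) x := by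
  simp [op2]

theorem gMat_mul_heckeMat {ℓ : ℕ} (hℓ : ℓ ≠ 0) (j : ℤ) :
    gMat * heckeMat ℓ (2 * j) = heckeMat ℓ j * gMat := by
  have h1 : (1 : ℤ) * 2 ≠ 0 := by norm_num
  have h2 : (1 : ℤ) * ℓ ≠ 0 := by simpa using hℓ
  rw [gMat, triMat_mul _ _ h1 h2, triMat_mul _ _ h2 h1]
  congr 1 <;> ring

theorem gMat_mul_diagMat {ℓ : ℕ} (hℓ : ℓ ≠ 0) : gMat * diagMat ℓ = diagMat ℓ * gMat := by
  have h1 : (1 : ℤ) * 2 ≠ 0 := by norm_num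
  have h2 : (ℓ : ℤ) * 1 ≠ 0 := by simpa using hℓ
  rw [gMat, triMat_mul _ _ h1 h2, triMat_mul _ _ h2 h1]
  congr 1; ring

theorem gMat_mul_jMat : gMat * jMat = jMat * gMat := by
  have h1 : (1 : ℤ) * 2 ≠ 0 := by norm_num
  have h2 : (-1 : ℤ) * 1 ≠ 0 := by norm_num
  rw [gMat, jMat, triMat_mul _ _ h1 h2, triMat_mul _ _ h2 h1]
  congr 1

/-- `op2` is the conjugate of `T_ℓ`. -/
theorem op2_slash {ℓ : ℕ} (hℓ : ℓ ≠ 0) (y : Pairs R) :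
    op2 ℓ (slash gMat y) = slash gMat (heckeT ℓ y) := by
  rw [op2_apply, heckeT_apply, heckeU_apply, degen_apply, map_add, map_sum]
  simp only [← slash_mul, gMat_mul_heckeMat hℓ, gMat_mul_diagMat hℓ]

theorem slash_gMat_inv (y : Pairs R) : slash gMat⁻¹ (slash gMat y) = y := by
  rw [← slash_mul, mul_inv_cancel, slash_one]

theorem slash_inv_gMat (y : Pairs R) : slash gMat (slash gMat⁻¹ y) = y := by
  rw [← slash_mul, inv_mul_cancel, slash_one]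

theorem val_gMat : (gMat : Matrix (Fin 2) (Fin 2) ℚ) = !![1, 0; 0, 2] := by
  rw [gMat, val_triMat _ (by norm_num)]; simp

theorem two_dvd_of_red_eq_one {γ : SL(2, ℤ)} (h : red γ = 1) : (2 : ℤ) ∣ γ 0 1 ∧ (2 : ℤ) ∣ γ 1 0 := by
  rw [← map_one red, red_eq_iff] at h
  have h1 := h 0 1
  have h2 := h 1 0
  simp only [Matrix.SpecialLinearGroup.coe_one, ne_eq, zero_ne_one, not_false_eq_true,
    Matrix.one_apply_ne, one_ne_zero, Int.cast_zero] at h1 h2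
  exact ⟨(ZMod.intCast_zmod_eq_zero_iff_dvd _ 2).mp h1, (ZMod.intCast_zmod_eq_zero_iff_dvd _ 2).mp h2⟩

/-- conjugation `Γ₀(X) ∩ Γ(2) → Γ₀(4X)` -/
theorem gMat_mul_toQ {X : ℕ} {hX : ¬ 2 ∣ X} {γ : SL(2, ℤ)} (hγ : γ ∈ (dat X hX).Γ) :
    ∃ γ' ∈ Gamma0 (4 * X), gMat * toQ γ = toQ γ' * gMat := by
  obtain ⟨h1, h2⟩ := mem_Γ.mp hγ
  obtain ⟨⟨b, hb⟩, h10⟩ := two_dvd_of_red_eq_one h2
  have hX2 : IsCoprime (2 : ℤ) X := by
    rw [Int.isCoprime_iff_gcd_eq_one]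
    have : Nat.Coprime 2 X := (Nat.Prime.coprime_iff_not_dvd Nat.prime_two).mpr hX
    exact_mod_cast this
  obtain ⟨c, hc⟩ := hX2.mul_dvd h10 (mem_Gamma0_iff.mp h1)
  have hdet := det_eq' γ
  refine ⟨mkSL (γ 0 0) b (4 * X * c) (γ 1 1) ?_, ?_, ?_⟩
  · rw [hb, hc] at hdet; linear_combination hdet
  · rw [mem_Gamma0_iff]
    simp [mkSL]
  · apply Units.ext
    rw [val_mul', val_mul', val_toQ, val_toQ_mkSL, val_gMat]
    have hb' : ((γ 0 1 : ℤ) : ℚ) = 2 * b := by rw [hb]; push_cast; ring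
    have hc' : ((γ 1 0 : ℤ) : ℚ) = 2 * X * c := by rw [hc]; push_cast; ring
    ext i j
    fin_cases i <;> fin_cases j <;> simp [Matrix.mul_apply, Fin.sum_univ_two, hb', hc'] <;> ring

/-- conjugation `Γ₀(4X) → Γ₀(X) ∩ Γ(2)` -/
theorem toQ_mul_gMat {X : ℕ} {hX : ¬ 2 ∣ X} {γ : SL(2, ℤ)} (hγ : γ ∈ Gamma0 (4 * X)) :
    ∃ γ' ∈ (dat X hX).Γ, toQ γ * gMat = gMat * toQ γ' := by
  obtain ⟨c, hc⟩ := mem_Gamma0_iff.mp hγ
  have hdet := det_eq' γ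
  have hdet' : γ 0 0 * γ 1 1 - 2 * γ 0 1 * (2 * X * c) = 1 := by
    rw [hc] at hdet; push_cast at hdet; linear_combination hdet
  refine ⟨mkSL (γ 0 0) (2 * γ 0 1) (2 * X * c) (γ 1 1) hdet', mem_Γ.mpr ⟨?_, ?_⟩, ?_⟩
  · rw [mem_Gamma0_iff]
    refine ⟨2 * c, ?_⟩
    simp [mkSL]; ring
  · have hodd : ((γ 0 0 : ℤ) : ZMod 2) * ((γ 1 1 : ℤ) : ZMod 2) = 1 := by
      have := congrArg (Int.cast : ℤ → ZMod 2) hdet'
      push_cast at this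
      have h2 : (2 : ZMod 2) = 0 := by decide
      rw [h2] at this
      simpa using this
    have key : ∀ a d : ZMod 2, a * d = 1 → a = 1 ∧ d = 1 := by decide
    obtain ⟨ha, hd⟩ := key _ _ hodd
    have h2 : (2 : ZMod 2) = 0 := by decide
    rw [← map_one red, red_eq_iff]
    intro i j
    fin_cases i <;> fin_cases j <;> simp [mkSL, ha, hd, h2]
  · apply Units.ext
    rw [val_mul', val_mul', val_toQ, val_toQ_mkSL, val_gMat]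
    have hc' : ((γ 1 0 : ℤ) : ℚ) = 4 * X * c := by rw [hc]; push_cast; ring
    ext i j
    fin_cases i <;> fin_cases j <;> simp [Matrix.mul_apply, Fin.sum_univ_two, hc'] <;> ring

theorem slash_gMat_mem {X : ℕ} {hX : ¬ 2 ∣ X} {y : Pairs R} (hy : y ∈ MS (Gamma0 (4 * X)) R) :
    slash gMat y ∈ MS (dat X hX).Γ R := by
  refine ⟨slash_add_of_add hy.1 _, fun γ hγ => ?_⟩
  obtain ⟨γ', h1, h2⟩ := gMat_mul_toQ hγ
  rw [← slash_mul, h2, slash_mul, hy.2 _ h1]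

theorem slash_gMat_inv_mem {X : ℕ} {hX : ¬ 2 ∣ X} {x : Pairs R} (hx : x ∈ MS (dat X hX).Γ R) :
    slash gMat⁻¹ x ∈ MS (Gamma0 (4 * X)) R := by
  refine ⟨slash_add_of_add hx.1 _, fun γ hγ => ?_⟩
  obtain ⟨γ', h1, h2⟩ := toQ_mul_gMat (hX := hX) hγ
  have h3 : gMat⁻¹ * toQ γ = toQ γ' * gMat⁻¹ := by
    rw [eq_mul_inv_iff_mul_eq, mul_assoc, h2, inv_mul_cancel_left]
  rw [← slash_mul, h3, slash_mul, hx.2 _ h1]

theorem slash_jMat_gMat (y : Pairs R) :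
    slash jMat (slash gMat y) = slash gMat (slash jMat y) := by
  rw [← slash_mul, ← slash_mul, gMat_mul_jMat]

theorem slash_gMat_mem_sgn {X : ℕ} {hX : ¬ 2 ∣ X} {ε : ℤ} {y : Pairs R}
    (hy : y ∈ sgnMS R ε (Gamma0 (4 * X))) : slash gMat y ∈ sgnMS R ε (dat X hX).Γ := by
  rw [mem_sgnMS] at hy ⊢
  exact ⟨slash_gMat_mem hy.1, by rw [slash_jMat_gMat, hy.2, map_smul]⟩

/-- Every symbol for `Γ₀(X) ∩ Γ(2)` is the conjugate of a symbol of level `4X`. -/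
theorem exists_eq_slash_gMat {X : ℕ} {hX : ¬ 2 ∣ X} {ε : ℤ} {x : Pairs R}
    (hx : x ∈ sgnMS R ε (dat X hX).Γ) : ∃ y ∈ sgnMS R ε (Gamma0 (4 * X)), x = slash gMat y := by
  rw [mem_sgnMS] at hx
  refine ⟨slash gMat⁻¹ x, mem_sgnMS.mpr ⟨slash_gMat_inv_mem hx.1, ?_⟩, (slash_inv_gMat x).symm⟩
  have h1 := slash_jMat_gMat (slash gMat⁻¹ x)
  rw [slash_inv_gMat, hx.2] at h1
  rw [← slash_gMat_inv (slash jMat (slash gMat⁻¹ x)), ← h1, map_smul]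

theorem heckeT_mem_sgn {N ℓ : ℕ} (hℓ : ℓ.Prime) (hN : ¬ ℓ ∣ N) {ε : ℤ} {x : Pairs R}
    (hx : x ∈ sgnMS R ε (Gamma0 N)) : heckeT ℓ x ∈ sgnMS R ε (Gamma0 N) := by
  rw [mem_sgnMS] at hx ⊢
  refine ⟨heckeT_mem_MS hℓ hN hx.1, ?_⟩
  rw [← heckeT_slash_jMat hx.1 hℓ.ne_zero, hx.2, map_smul]

theorem op2_mem_sgn {X : ℕ} {hX : ¬ 2 ∣ X} {ℓ : ℕ} (hℓ : ℓ.Prime) (hℓX : ¬ ℓ ∣ 4 * X) {ε : ℤ}
    {x : Pairs R} (hx : x ∈ sgnMS R ε (dat X hX).Γ) : op2 ℓ x ∈ sgnMS R ε (dat X hX).Γ := by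
  obtain ⟨y, hy, rfl⟩ := exists_eq_slash_gMat hx
  rw [op2_slash hℓ.ne_zero]
  exact slash_gMat_mem_sgn (heckeT_mem_sgn hℓ hℓX hy)

theorem op2_comm {X : ℕ} {hX : ¬ 2 ∣ X} {ℓ r : ℕ} (hℓ : ℓ.Prime) (hr : r.Prime) {ε : ℤ}
    {x : Pairs R} (hx : x ∈ sgnMS R ε (dat X hX).Γ) : op2 ℓ (op2 r x) = op2 r (op2 ℓ x) := by
  by_cases hlr : ℓ = r
  · rw [hlr]
  obtain ⟨y, hy, rfl⟩ := exists_eq_slash_gMat hx
  rw [op2_slash hr.ne_zero, op2_slash hℓ.ne_zero, op2_slash hℓ.ne_zero, op2_slash hr.ne_zero,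
    heckeT_comm hℓ.ne_zero hr.ne_zero ((Nat.coprime_primes hℓ hr).mpr hlr)
      (TInv_of_mem (mem_sgnMS.mp hy).1)]

/-! ### `op2` commutes with `Γ₀(X)` -/

/-- representatives of `op2` -/
def rep2 (ℓ : ℕ) (s : OnePoint (ZMod ℓ)) : GL (Fin 2) ℚ :=
  s.elim (diagMat ℓ) (fun j => heckeMat ℓ (2 * (j.val : ℤ)))

@[simp] theorem rep2_infty (ℓ : ℕ) : rep2 ℓ ∞ = diagMat ℓ := rfl

@[simp] theorem rep2_coe (ℓ : ℕ) (j : ZMod ℓ) :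
    rep2 ℓ (j : OnePoint (ZMod ℓ)) = heckeMat ℓ (2 * (j.val : ℤ)) := rfl

theorem op2_eq_sum (ℓ : ℕ) [NeZero ℓ] (x : Pairs R) :
    op2 ℓ x = ∑ s : OnePoint (ZMod ℓ), slash (rep2 ℓ s) x := by
  rw [op2_apply, sum_range_eq_sum_zmod ℓ (fun j => slash (heckeMat ℓ (2 * (j : ℤ))) x), add_comm]
  exact (Fintype.sum_option (fun s : OnePoint (ZMod ℓ) => slash (rep2 ℓ s) x)).symm

/-- integral matrices -/
def irep2 (ℓ : ℕ) (s : OnePoint (ZMod ℓ)) : Matrix (Fin 2) (Fin 2) ℤ :=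
  s.elim !![(ℓ : ℤ), 0; 0, 1] (fun j => !![1, 2 * (j.val : ℤ); 0, (ℓ : ℤ)])

theorem irep2_infty (ℓ : ℕ) : irep2 ℓ ∞ = !![(ℓ : ℤ), 0; 0, 1] := rfl

theorem irep2_coe (ℓ : ℕ) (j : ZMod ℓ) :
    irep2 ℓ (j : OnePoint (ZMod ℓ)) = !![1, 2 * (j.val : ℤ); 0, (ℓ : ℤ)] := rfl

theorem val_rep2 {ℓ : ℕ} (hℓ : ℓ ≠ 0) (s : OnePoint (ZMod ℓ)) :
    (rep2 ℓ s : Matrix (Fin 2) (Fin 2) ℚ) = (irep2 ℓ s).map (Int.cast : ℤ → ℚ) := by
  induction s using OnePoint.rec with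
  | infty =>
    rw [rep2_infty, val_diagMat hℓ, irep2_infty]
    ext i j
    fin_cases i <;> fin_cases j <;> simp
  | coe j =>
    rw [rep2_coe, val_heckeMat hℓ, irep2_coe]
    ext i j
    fin_cases i <;> fin_cases j <;> simp

theorem irep2_mod_two {ℓ : ℕ} (hℓ : ¬ 2 ∣ ℓ) (s : OnePoint (ZMod ℓ)) :
    (irep2 ℓ s).map (Int.cast : ℤ → ZMod 2) = 1 := by
  have h1 : ((ℓ : ℕ) : ZMod 2) = 1 := by
    rcases Nat.even_or_odd ℓ with h | h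
    · exact absurd h.two_dvd hℓ
    · obtain ⟨k, rfl⟩ := h
      push_cast
      have : (2 : ZMod 2) = 0 := by decide
      rw [this, zero_mul, zero_add]
  have h2 : (2 : ZMod 2) = 0 := by decide
  induction s using OnePoint.rec with
  | infty =>
    rw [irep2_infty]
    ext i j
    fin_cases i <;> fin_cases j <;> simp [h1]
  | coe j =>
    rw [irep2_coe]
    ext i j
    fin_cases i <;> fin_cases j <;> simp [h1, h2]

theorem toQ_one' : toQ 1 = 1 := map_one _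

theorem toQ_T_neg_mul (k : ℤ) (g : GL (Fin 2) ℚ) : toQ (T ^ (-k)) * (toQ (T ^ k) * g) = g := by
  rw [← mul_assoc, ← toQ_mul, ← _root_.zpow_add, neg_add_cancel, _root_.zpow_zero, toQ_one', one_mul]

theorem T_zpow_mul_heckeMat {ℓ : ℕ} (hℓ : ℓ ≠ 0) (k j : ℤ) :
    toQ (T ^ k) * heckeMat ℓ j = heckeMat ℓ (j + k * ℓ) := by
  apply Units.ext
  rw [val_mul', val_toQ_T_zpow, val_heckeMat hℓ, val_heckeMat hℓ]
  ext i j
  fin_cases i <;> fin_cases j <;> simp [Matrix.mul_apply, Fin.sum_univ_two]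

/-- multiplication by `2` on `ZMod ℓ`, `ℓ` odd -/
def dbl (ℓ : ℕ) (hℓ : ¬ 2 ∣ ℓ) : Equiv.Perm (ZMod ℓ) :=
  Units.mulLeft (ZMod.unitOfCoprime 2 ((Nat.Prime.coprime_iff_not_dvd Nat.prime_two).mpr hℓ))

theorem dbl_apply {ℓ : ℕ} (hℓ : ¬ 2 ∣ ℓ) (j : ZMod ℓ) : dbl ℓ hℓ j = 2 * j := by
  simp [dbl, ZMod.coe_unitOfCoprime]

theorem rep2_eq {ℓ : ℕ} [NeZero ℓ] (hℓ : ¬ 2 ∣ ℓ) (s : OnePoint (ZMod ℓ)) :
    ∃ k : ℤ, rep2 ℓ s = toQ (T ^ k) * heckeRepQ ℓ (onePointPerm (dbl ℓ hℓ) s) := by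
  have hℓ0 : ℓ ≠ 0 := NeZero.ne ℓ
  induction s using OnePoint.rec with
  | infty => exact ⟨0, by rw [_root_.zpow_zero, toQ_one', one_mul]; rfl⟩
  | coe j =>
    rw [onePointPerm_coe, rep2_coe, heckeRepQ_coe]
    have h1 : ((2 * (j.val : ℤ) : ℤ) : ZMod ℓ) = ((((dbl ℓ hℓ j).val : ℕ) : ℤ) : ZMod ℓ) := by
      push_cast
      rw [ZMod.natCast_zmod_val, ZMod.natCast_zmod_val, dbl_apply]
    rw [ZMod.intCast_eq_intCast_iff] at h1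
    obtain ⟨k, hk⟩ := h1.symm.dvd
    refine ⟨k, ?_⟩
    rw [T_zpow_mul_heckeMat hℓ0]
    congr 1
    linear_combination hk

theorem rep2_mul {ℓ : ℕ} [Fact ℓ.Prime] (hℓ : ¬ 2 ∣ ℓ) {X : ℕ} (hX : ¬ ℓ ∣ X) (γ : SL(2, ℤ))
    (hγ : γ ∈ Gamma0 X) : ∃ π : Equiv.Perm (OnePoint (ZMod ℓ)), ∀ s, ∃ γ' ∈ Gamma0 X,
      red γ' = red γ ∧ rep2 ℓ s * toQ γ = toQ γ' * rep2 ℓ (π s) := by
  have hℓ0 : ℓ ≠ 0 := (Fact.out : ℓ.Prime).ne_zero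
  set σ := onePointPerm (dbl ℓ hℓ) with hσ
  refine ⟨σ.trans ((MulAction.toPerm (redMat ℓ γ)).trans σ.symm), fun s => ?_⟩
  set s' := (σ.trans ((MulAction.toPerm (redMat ℓ γ)).trans σ.symm)) s with hs'
  have hs'' : σ s' = redMat ℓ γ • σ s := by
    rw [hs']
    simp
  obtain ⟨k, hk⟩ := rep2_eq hℓ s
  obtain ⟨k', hk'⟩ := rep2_eq hℓ s'
  obtain ⟨g', h1, h2⟩ := heckeRepQ_mul hX γ (mem_Gamma0_iff.mp hγ) (σ s)
  refine ⟨T ^ k * g' * T ^ (-k'), mul_mem (mul_mem (T_zpow_mem_Gamma0 X k)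
    (mem_Gamma0_iff.mpr h1)) (T_zpow_mem_Gamma0 X _), ?_, ?_⟩
  swap
  · rw [hk, mul_assoc, h2, hk', ← hs'', toQ_mul, toQ_mul, mul_assoc, mul_assoc, toQ_T_neg_mul]
  · -- reduce mod `2`
    have h3 : rep2 ℓ s * toQ γ = toQ (T ^ k * g' * T ^ (-k')) * rep2 ℓ s' := by
      rw [hk, mul_assoc, h2, hk', ← hs'', toQ_mul, toQ_mul, mul_assoc, mul_assoc, toQ_T_neg_mul]
    set γ' := T ^ k * g' * T ^ (-k') with hγ'
    have h4 := congrArg (fun g : GL (Fin 2) ℚ => (g : Matrix (Fin 2) (Fin 2) ℚ)) h3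
    simp only [val_mul', val_rep2 hℓ0] at h4
    have h5 : ∀ δ : SL(2, ℤ), (toQ δ : Matrix (Fin 2) (Fin 2) ℚ) =
        (δ : Matrix (Fin 2) (Fin 2) ℤ).map (Int.cast : ℤ → ℚ) := by
      intro δ
      ext i j
      rw [toQ_entry]; rfl
    rw [h5, h5] at h4
    have h6 : ((irep2 ℓ s) * (γ : Matrix (Fin 2) (Fin 2) ℤ)).map (Int.cast : ℤ → ℚ) =
        ((γ' : Matrix (Fin 2) (Fin 2) ℤ) * irep2 ℓ s').map (Int.cast : ℤ → ℚ) := by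
      have e1 : ((irep2 ℓ s) * (γ : Matrix (Fin 2) (Fin 2) ℤ)).map (Int.castRingHom ℚ) = _ :=
        Matrix.map_mul
      have e2 : ((γ' : Matrix (Fin 2) (Fin 2) ℤ) * irep2 ℓ s').map (Int.castRingHom ℚ) = _ :=
        Matrix.map_mul
      exact e1.trans (h4.trans e2.symm)
    have h7 : (irep2 ℓ s) * (γ : Matrix (Fin 2) (Fin 2) ℤ) =
        (γ' : Matrix (Fin 2) (Fin 2) ℤ) * irep2 ℓ s' :=
      Matrix.map_injective Int.cast_injective h6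
    have h8 := congrArg (fun M : Matrix (Fin 2) (Fin 2) ℤ => M.map (Int.castRingHom (ZMod 2))) h7
    simp only [Matrix.map_mul] at h8
    have e3 : (irep2 ℓ s).map (Int.castRingHom (ZMod 2)) = 1 := irep2_mod_two hℓ s
    have e4 : (irep2 ℓ s').map (Int.castRingHom (ZMod 2)) = 1 := irep2_mod_two hℓ s'
    rw [e3, e4, one_mul, mul_one] at h8
    exact (Subtype.ext h8).symm

theorem op2_slash_toQ {X : ℕ} {hX : ¬ 2 ∣ X} {ℓ : ℕ} (hℓ : ℓ.Prime) (hℓX : ¬ ℓ ∣ 4 * X)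
    {x : Pairs R} (hx : x ∈ MS (dat X hX).Γ R) {γ : SL(2, ℤ)} (hγ : γ ∈ Gamma0 X) :
    slash (toQ γ) (op2 ℓ x) = op2 ℓ (slash (toQ γ) x) := by
  have : Fact ℓ.Prime := ⟨hℓ⟩
  have h2 : ¬ 2 ∣ ℓ := fun h => hℓX (by
    rw [← (Nat.prime_dvd_prime_iff_eq Nat.prime_two hℓ).mp h]
    exact Dvd.dvd.mul_right (by norm_num) _)
  have hX' : ¬ ℓ ∣ X := fun h => hℓX (Dvd.dvd.mul_left h _)
  obtain ⟨π, hπ⟩ := rep2_mul h2 hX' γ hγ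
  rw [op2_eq_sum, op2_eq_sum, map_sum,
    ← Equiv.sum_comp π (fun s => slash (rep2 ℓ s) (slash (toQ γ) x))]
  refine Finset.sum_congr rfl fun s _ => ?_
  obtain ⟨γ', h1, h3, h4⟩ := hπ s
  rw [← slash_mul, h4, slash_mul, slash_eq_of_red hx h1 hγ h3]

/-! ### `op2` on `T`-invariant symbols -/

theorem op2_of_TInv {ℓ : ℕ} (hℓ : ℓ.Prime) (hℓ2 : ¬ 2 ∣ ℓ) {x : Pairs R} (hx : TInv x) :
    op2 ℓ x = heckeT ℓ x := by
  have : Fact ℓ.Prime := ⟨hℓ⟩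
  rw [op2_eq_sum, heckeT_eq_sum, ← Equiv.sum_comp (onePointPerm (dbl ℓ hℓ2))
    (fun s => slash (heckeRepQ ℓ s) x)]
  refine Finset.sum_congr rfl fun s _ => ?_
  obtain ⟨k, hk⟩ := rep2_eq hℓ2 s
  rw [hk, slash_mul, hx k]

end Fermat.Agent.RT8.Two
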