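import Fermat.Agent.RT8.TwoOp
import Fermat.Agent.RT8.TwoAlg

/-!
# RT8 (helper29): mod `3` symbols, from level `4X` to level `2X`
-/

set_option autoImplicit false
set_option linter.unusedSectionVars false

open Matrix Matrix.SpecialLinearGroup CongruenceSubgroup
open scoped MatrixGroups OnePoint IsMulCommutative

noncomputable section

namespace Fermat.Agent.RT8.Two

open Fermat.Agent.LR Fermat.Agent.LR.PS Fermat.Agent.RT Fermat.Agent.RT.Dict ModularCurve.Period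
open Fermat.Agent.RT.Manin

local notation "T" => ModularGroup.T

variable {R : Type*} [CommRing R] {X : ℕ} {hX : ¬ 2 ∣ X}

/-- the action of `Γ₀(X)` -/
def sOp (hX : ¬ 2 ∣ X) {γ : SL(2, ℤ)} (hγ : γ ∈ Gamma0 X) :
    Module.End R (sgnMS R 1 (dat X hX).Γ) :=
  (slash (toQ γ)).restrict fun _ hx => slash_mem_sgn hx hγ

theorem coe_sOp {γ : SL(2, ℤ)} (hγ : γ ∈ Gamma0 X) (x : sgnMS R 1 (dat X hX).Γ) :
    ((sOp hX hγ x : sgnMS R 1 (dat X hX).Γ) : Pairs R) = slash (toQ γ) x := rfl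

/-- the shifted Hecke operators -/
def tOp (hX : ¬ 2 ∣ X) {ℓ : ℕ} (hℓ : ℓ.Prime ∧ ¬ ℓ ∣ 4 * X) (a : R) :
    Module.End R (sgnMS R 1 (dat X hX).Γ) :=
  (op2 ℓ).restrict (fun _ hx => op2_mem_sgn hℓ.1 hℓ.2 hx) - a • LinearMap.id

theorem coe_tOp {ℓ : ℕ} (hℓ : ℓ.Prime ∧ ¬ ℓ ∣ 4 * X) (a : R) (x : sgnMS R 1 (dat X hX).Γ) :
    ((tOp hX hℓ a x : sgnMS R 1 (dat X hX).Γ) : Pairs R) = op2 ℓ x.1 - a • x.1 := rfl

theorem tOp_comm {ℓ r : ℕ} (hℓ : ℓ.Prime ∧ ¬ ℓ ∣ 4 * X) (hr : r.Prime ∧ ¬ r ∣ 4 * X) (a b : R) :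
    tOp hX hℓ a * tOp hX hr b = tOp hX hr b * tOp hX hℓ a := by
  refine LinearMap.ext fun x => Subtype.ext ?_
  rw [Module.End.mul_apply, Module.End.mul_apply, coe_tOp, coe_tOp, coe_tOp, coe_tOp, map_sub,
    map_sub, map_smul, map_smul, op2_comm hℓ.1 hr.1 x.2]
  module

theorem sOp_tOp {γ : SL(2, ℤ)} (hγ : γ ∈ Gamma0 X) {ℓ : ℕ} (hℓ : ℓ.Prime ∧ ¬ ℓ ∣ 4 * X) (a : R) :
    sOp hX hγ * tOp hX hℓ a = tOp hX hℓ a * sOp hX hγ := by
  refine LinearMap.ext fun x => Subtype.ext ?_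
  rw [Module.End.mul_apply, Module.End.mul_apply, coe_tOp, coe_sOp, coe_tOp, coe_sOp, map_sub,
    map_smul, op2_slash_toQ hℓ.1 hℓ.2 (mem_sgnMS.mp x.2).1 hγ]

theorem sOp_sq {γ : SL(2, ℤ)} (hγ : γ ∈ Gamma0 X) (h : red (γ * γ) = 1) :
    sOp hX hγ * sOp hX hγ = (1 : Module.End R (sgnMS R 1 (dat X hX).Γ)) := by
  refine LinearMap.ext fun x => Subtype.ext ?_
  rw [Module.End.mul_apply, coe_sOp, coe_sOp, ← slash_mul, ← toQ_mul', Module.End.one_apply]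
  exact (mem_sgnMS.mp x.2).1.2 _ (mem_Γ.mpr ⟨mul_mem hγ hγ, h⟩)

theorem red_T_sq : red (T * T) = 1 := by
  rw [← map_one red, red_eq_iff]
  intro i j
  rw [Matrix.SpecialLinearGroup.coe_mul, ModularGroup.coe_T]
  fin_cases i <;> fin_cases j <;> simp [Matrix.mul_apply, Fin.sum_univ_two]
  decide

theorem coe_lowMat (X : ℤ) : (lowMat X : Matrix (Fin 2) (Fin 2) ℤ) = !![1, 0; X, 1] := rfl

theorem red_lowMat_sq (X : ℤ) : red (lowMat X * lowMat X) = 1 := by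
  rw [← map_one red, red_eq_iff]
  intro i j
  have h : ∀ a : ZMod 2, a + a = 0 := by decide
  rw [Matrix.SpecialLinearGroup.coe_mul, coe_lowMat]
  fin_cases i <;> fin_cases j <;> simp [Matrix.mul_apply, Fin.sum_univ_two, h]

/-- the subgroup of the elements fixing `x` -/
def fixSub (x : Pairs R) : Subgroup SL(2, ℤ) where
  carrier := {γ | slash (toQ γ) x = x}
  one_mem' := by
    change slash (toQ 1) x = x
    rw [toQ_one', slash_one]
  mul_mem' := by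
    intro γ δ hγ hδ
    change slash (toQ (γ * δ)) x = x
    rw [toQ_mul', slash_mul]
    rw [show slash (toQ γ) x = x from hγ]
    exact hδ
  inv_mem' := by
    intro γ hγ
    change slash (toQ γ⁻¹) x = x
    have h : slash (toQ γ) x = x := hγ
    nth_rewrite 1 [← h]
    rw [← slash_mul, ← toQ_mul', mul_inv_cancel, toQ_one', slash_one]

theorem mem_fixSub {x : Pairs R} {γ : SL(2, ℤ)} : γ ∈ fixSub x ↔ slash (toQ γ) x = x := Iff.rfl

/-- symbols anti-invariant under the two involutions are fixed by the elements of order `3` -/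
theorem dRep_eq_self (v : sgnMS R 1 (dat X hX).Γ) (h1 : slash (toQ T) v.1 = - v.1)
    (h2 : slash (toQ (lowMat X)) v.1 = - v.1) (δ : C3) : (dat X hX).dRep R 1 δ v = v := by
  apply Subtype.ext
  obtain ⟨n, hn⟩ := Subgroup.mem_zpowers_iff.mp δ.2
  have hmem : (cMat X) ^ n ∈ (dat X hX).G₀ := mem_G0.mpr ⟨zpow_mem (cMat_mem X) n, by
    rw [map_zpow, red_cMat hX]; exact zpow_mem (Subgroup.mem_zpowers _) n⟩
  rw [DiaData.dRep_apply δ v (γ := ⟨(cMat X) ^ n, hmem⟩) (Subtype.ext (by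
    change red ((cMat X) ^ n) = δ.1
    rw [map_zpow, red_cMat hX, hn]))]
  change slash (toQ ((cMat X) ^ n)) v.1 = v.1
  rw [← mem_fixSub]
  refine zpow_mem ?_ n
  rw [mem_fixSub, cMat, toQ_mul', slash_mul, h1, map_neg, h2, neg_neg]

/-- symbols fixed by `T` have level `2X` -/
theorem mem_of_T {x : Pairs R} (hx : x ∈ MS (dat X hX).Γ R) (h : slash (toQ T) x = x) :
    x ∈ MS (Gamma0 (2 * X)) R := by
  refine ⟨hx.1, fun γ hγ => ?_⟩
  have hγX : γ ∈ Gamma0 X := Gamma0_mono (Dvd.intro_left 2 rfl) hγ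
  have h10 : ((γ 1 0 : ℤ) : ZMod 2) = 0 :=
    (ZMod.intCast_zmod_eq_zero_iff_dvd _ 2).mpr
      (dvd_trans ⟨X, by push_cast; ring⟩ (mem_Gamma0_iff.mp hγ))
  have hodd : ((γ 0 0 : ℤ) : ZMod 2) * ((γ 1 1 : ℤ) : ZMod 2) = 1 := by
    have := congrArg (Int.cast : ℤ → ZMod 2) (det_eq' γ)
    push_cast at this
    rwa [h10, mul_zero, sub_zero] at this
  have key : ∀ a d : ZMod 2, a * d = 1 → a = 1 ∧ d = 1 := by decide
  obtain ⟨ha, hd⟩ := key _ _ hodd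
  have hb : ((γ 0 1 : ℤ) : ZMod 2) = 0 ∨ ((γ 0 1 : ℤ) : ZMod 2) = 1 := by
    generalize ((γ 0 1 : ℤ) : ZMod 2) = b
    revert b; decide
  rcases hb with hb | hb
  · refine hx.2 γ (mem_Γ.mpr ⟨hγX, ?_⟩)
    rw [← map_one red, red_eq_iff]
    intro i j
    fin_cases i <;> fin_cases j <;> simp [ha, hb, h10, hd]
  · rw [slash_eq_of_red hx hγX (T_mem X) ?_, h]
    rw [red_eq_iff]
    intro i j
    rw [ModularGroup.coe_T]
    fin_cases i <;> fin_cases j <;> simp [ha, hb, h10, hd]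

/-- symbols fixed by `[1 0; X 1]` are conjugate to symbols of level `2X` -/
theorem mem_of_lowMat {x : Pairs R} (hx : x ∈ MS (dat X hX).Γ R)
    (h : slash (toQ (lowMat X)) x = x) : slash gMat⁻¹ x ∈ MS (Gamma0 (2 * X)) R := by
  refine ⟨slash_add_of_add hx.1 _, fun γ hγ => ?_⟩
  obtain ⟨c, hc⟩ := mem_Gamma0_iff.mp hγ
  have hdet := det_eq' γ
  have hdet' : γ 0 0 * γ 1 1 - 2 * γ 0 1 * (X * c) = 1 := by
    rw [hc] at hdet; push_cast at hdet; linear_combination hdet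
  set γ' : SL(2, ℤ) := mkSL (γ 0 0) (2 * γ 0 1) (X * c) (γ 1 1) hdet' with hγ'
  have h1 : toQ γ * gMat = gMat * toQ γ' := by
    apply Units.ext
    rw [val_mul', val_mul', val_toQ, hγ', val_toQ_mkSL, val_gMat]
    have hc' : ((γ 1 0 : ℤ) : ℚ) = 2 * X * c := by rw [hc]; push_cast; ring
    ext i j
    fin_cases i <;> fin_cases j <;> simp [Matrix.mul_apply, Fin.sum_univ_two, hc'] <;> ring
  have h3 : gMat⁻¹ * toQ γ = toQ γ' * gMat⁻¹ := by
    rw [eq_mul_inv_iff_mul_eq, mul_assoc, h1, inv_mul_cancel_left]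
  rw [← slash_mul, h3, slash_mul]
  congr 1
  have hγX : γ' ∈ Gamma0 X := by
    rw [mem_Gamma0_iff]; exact ⟨c, rfl⟩
  have h2 : (2 : ZMod 2) = 0 := by decide
  have hX2 : ((X : ℕ) : ZMod 2) = 1 := by
    rcases Nat.even_or_odd X with h | h
    · exact absurd h.two_dvd hX
    · obtain ⟨k, rfl⟩ := h
      push_cast
      rw [h2, zero_mul, zero_add]
  have hodd : ((γ 0 0 : ℤ) : ZMod 2) * ((γ 1 1 : ℤ) : ZMod 2) = 1 := by
    have := congrArg (Int.cast : ℤ → ZMod 2) hdet'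
    push_cast at this
    rw [h2, zero_mul, zero_mul, sub_zero] at this
    exact this
  have key : ∀ a d : ZMod 2, a * d = 1 → a = 1 ∧ d = 1 := by decide
  obtain ⟨ha, hd⟩ := key _ _ hodd
  have hb : ((c : ℤ) : ZMod 2) = 0 ∨ ((c : ℤ) : ZMod 2) = 1 := by
    generalize ((c : ℤ) : ZMod 2) = b
    revert b; decide
  rcases hb with hb | hb
  · refine hx.2 γ' (mem_Γ.mpr ⟨hγX, ?_⟩)
    rw [← map_one red, red_eq_iff]
    intro i j
    fin_cases i <;> fin_cases j <;> simp [γ', ha, hb, h2, hd]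
  · rw [slash_eq_of_red hx hγX (lowMat_mem X) ?_, h]
    rw [red_eq_iff]
    intro i j
    rw [coe_lowMat]
    fin_cases i <;> fin_cases j <;> simp [γ', ha, hb, h2, hd, hX2]

/-- **Mod `3` symbols: from level `4X` to level `2X`.** -/
theorem exists_level_two {r : ℕ} [NeZero X] (hX : ¬ 2 ∣ X) (hr : r.Prime) (hr3 : r % 3 = 2)
    (hrX : r ∣ X) (L : Set ℕ) (hL : ∀ ℓ ∈ L, ℓ.Prime ∧ ¬ ℓ ∣ 4 * X) (a : ℕ → ZMod 3)
    {x : Pairs (ZMod 3)} (hx : x ∈ sgnMS (ZMod 3) 1 (Gamma0 (4 * X))) (hx0 : x ≠ 0)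
    (hxL : ∀ ℓ ∈ L, heckeT ℓ x = a ℓ • x) :
    ∃ y ∈ MS (Gamma0 (2 * X)) (ZMod 3), y ≠ 0 ∧ ∀ ℓ ∈ L, heckeT ℓ y = a ℓ • y := by
  have hG₀ : (dat X hX).G₀.FiniteIndex := finiteIndex_G0
  have hΓ : (dat X hX).Γ.FiniteIndex := finiteIndex_ker (dat X hX)
  have hfin1 := finite_MS (ZMod 3) (dat X hX).Γ
  have hfin2 : Module.Finite (ZMod 3) (sgnMS (ZMod 3) 1 (dat X hX).Γ) :=
    Module.Finite.of_injective (Submodule.inclusion
      (inf_le_left : sgnMS (ZMod 3) 1 (dat X hX).Γ ≤ MS (dat X hX).Γ (ZMod 3)))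
      (Submodule.inclusion_injective _)
  have hfinV : Finite (sgnMS (ZMod 3) 1 (dat X hX).Γ) := Module.finite_of_finite (ZMod 3)
  let x₀ : sgnMS (ZMod 3) 1 (dat X hX).Γ := ⟨slash gMat x, slash_gMat_mem_sgn hx⟩
  have hx₀ : x₀ ≠ 0 := fun h => hx0 (by
    have h1 : slash gMat x = 0 := congrArg Subtype.val h
    rw [← slash_gMat_inv x, h1, map_zero])
  have hx₀t : ∀ ℓ : L, tOp hX (hL ℓ.1 ℓ.2) (a ℓ) x₀ = 0 := fun ℓ => Subtype.ext (by
    rw [coe_tOp]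
    change op2 ℓ.1 (slash gMat x) - a ℓ • slash gMat x = 0
    rw [op2_slash (hL ℓ.1 ℓ.2).1.ne_zero, hxL ℓ.1 ℓ.2, map_smul, sub_self])
  have hcard : (Fintype.card C3 : ZMod 3) = 0 := by
    rw [← Nat.card_eq_fintype_card, card_C3]; rfl
  obtain ⟨j, v, hv0, hvj, hvt⟩ := exists_fixed (k := ZMod 3)
    (fun ℓ : L => tOp hX (hL ℓ.1 ℓ.2) (a ℓ)) (fun ℓ r => tOp_comm _ _ _ _)
    ((dat X hX).dRep (ZMod 3) 1)
    (fun ℓ δ => sOp_tOp (γ := (dat X hX).rep δ) (mem_G0.mp ((dat X hX).rep δ).2).1 _ _)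
    (fun j : Bool => match j with
      | true => sOp hX (T_mem X)
      | false => sOp hX (lowMat_mem X))
    (fun j => match j with
      | true => sOp_sq _ red_T_sq
      | false => sOp_sq _ (red_lowMat_sq X))
    (fun ℓ j => match j with
      | true => sOp_tOp _ _ _
      | false => sOp_tOp _ _ _)
    (fun v hv δ => dRep_eq_self v (congrArg Subtype.val (hv true))
      (congrArg Subtype.val (hv false)) δ)
    (fun x hx => (repFree (hX := hX) hr hr3 hrX).exists_norm_eq hx) hcard hx₀ hx₀t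
  have hvne : v.1 ≠ 0 := fun h => hv0 (Subtype.ext h)
  have hvmem := (mem_sgnMS.mp v.2).1
  have hvt' : ∀ ℓ ∈ L, op2 ℓ v.1 = a ℓ • v.1 := fun ℓ hℓ => by
    have := congrArg Subtype.val (hvt ⟨ℓ, hℓ⟩)
    rw [coe_tOp] at this
    exact sub_eq_zero.mp this
  cases j with
  | true =>
    have h1 : slash (toQ T) v.1 = v.1 := congrArg Subtype.val hvj
    have h2 := mem_of_T hvmem h1
    refine ⟨v.1, h2, hvne, fun ℓ hℓ => ?_⟩
    rw [← hvt' ℓ hℓ, op2_of_TInv (hL ℓ hℓ).1 ?_ (TInv_of_mem h2)]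
    intro h
    rw [Nat.prime_dvd_prime_iff_eq Nat.prime_two (hL ℓ hℓ).1] at h
    exact (hL ℓ hℓ).2 (by rw [← h]; exact Dvd.dvd.mul_right (by norm_num) _)
  | false =>
    have h1 : slash (toQ (lowMat X)) v.1 = v.1 := congrArg Subtype.val hvj
    have h2 := mem_of_lowMat hvmem h1
    refine ⟨_, h2, fun h => hvne ?_, fun ℓ hℓ => ?_⟩
    · rw [← slash_inv_gMat v.1, h, map_zero]
    · have h3 := op2_slash (hL ℓ hℓ).1.ne_zero (slash gMat⁻¹ v.1)
      rw [slash_inv_gMat, hvt' ℓ hℓ] at h3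
      rw [← slash_gMat_inv (heckeT ℓ (slash gMat⁻¹ v.1)), ← h3, map_smul]

end Fermat.Agent.RT8.Two
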